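import Fermat.Agent.S52.Defs
import Fermat.Agent.S51.ExistsXi

/-!
# S52 [WP-L]: a criterion for irreducibility mod 3

If `W` is reducible mod 3, `S51.exists_xi` gives a rational, hence integral, root `ξ` of
`ξ⁴ - 6 c₄ ξ² - 8 c₆ ξ - 3 c₄²`.  Modulo `ℓ ∣ c₆`: `(ξ² - 3c₄)² = 12 c₄²`, so `3` is a square.
-/

set_option autoImplicit false

namespace Fermat.Agent.S52

open WeierstrassCurve Polynomial

theorem irr3_of_prime (W : WeierstrassCurve ℤ) (hΔ : W.Δ ≠ 0) (ℓ : ℕ) (hℓ : ℓ.Prime)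
    (h6 : (ℓ : ℤ) ∣ W.c₆) (h4 : ¬ (ℓ : ℤ) ∣ W.c₄) (h3 : ∀ x : ZMod ℓ, x ^ 2 ≠ 3) :
    W.ModRepIsIrreducible 3 := by
  by_contra hirr
  obtain ⟨ξ, hξ⟩ := S51.exists_xi W hΔ hirr
  have : Fact ℓ.Prime := ⟨hℓ⟩
  -- `ξ` is an integer
  let q : ℤ[X] := X ^ 4 - C (6 * W.c₄) * X ^ 2 - C (8 * W.c₆) * X - C (3 * W.c₄ ^ 2)
  have hq : q.Monic := by
    show (X ^ 4 - C (6 * W.c₄) * X ^ 2 - C (8 * W.c₆) * X - C (3 * W.c₄ ^ 2) : ℤ[X]).Monic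
    monicity!
  have hroot : aeval ξ q = 0 := by
    have h1 : aeval ξ q = ξ ^ 4 - algebraMap ℤ ℚ (6 * W.c₄) * ξ ^ 2 -
        algebraMap ℤ ℚ (8 * W.c₆) * ξ - algebraMap ℤ ℚ (3 * W.c₄ ^ 2) := by
      show aeval ξ (X ^ 4 - C (6 * W.c₄) * X ^ 2 - C (8 * W.c₆) * X - C (3 * W.c₄ ^ 2) : ℤ[X]) = _
      simp only [map_sub, aeval_X, aeval_C, aeval_X_pow, _root_.map_mul (aeval ξ)]
    rw [h1]
    simp only [eq_intCast]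
    push_cast
    linear_combination hξ
  obtain ⟨n, hn⟩ := isInteger_of_is_root_of_monic hq hroot
  have hn' : ((n : ℤ) : ℚ) = ξ := hn
  have hZ : n ^ 4 - 6 * W.c₄ * n ^ 2 - 8 * W.c₆ * n - 3 * W.c₄ ^ 2 = 0 := by
    rw [← hn'] at hξ
    exact_mod_cast hξ
  have hmod := congrArg (Int.cast : ℤ → ZMod ℓ) hZ
  push_cast at hmod
  have hc6 : ((W.c₆ : ℤ) : ZMod ℓ) = 0 := (ZMod.intCast_zmod_eq_zero_iff_dvd _ _).2 h6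
  have hc4 : ((W.c₄ : ℤ) : ZMod ℓ) ≠ 0 := fun h => h4 ((ZMod.intCast_zmod_eq_zero_iff_dvd _ _).1 h)
  have h2 : (2 : ZMod ℓ) ≠ 0 := by
    intro h
    apply h3 1
    linear_combination -h
  rw [hc6] at hmod
  apply h3 (((n : ZMod ℓ) ^ 2 - 3 * (W.c₄ : ZMod ℓ)) / (2 * (W.c₄ : ZMod ℓ)))
  rw [div_pow, div_eq_iff (pow_ne_zero 2 (mul_ne_zero h2 hc4))]
  linear_combination hmod

end Fermat.Agent.S52
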