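import Fermat.Agent.S52.FamAPI

/-!
# S52 [WP-J]: an integral model with `c₄ = famC4`, `c₆ = famC6`, congruent to `W` mod 2 and 3

`W' = (a₁, a₂, a₃, a₄ + α, a₆ + β)` has `c₄' = c₄ - 48 α`, `c₆' = c₆ + 72 b₂ α - 864 β`.
With `δ₄ = famC4 - c₄`, `δ₆ = famC6 - c₆` (both divisible by `t`): `α = -δ₄/48`,
`β = -b₂ δ₄/576 - δ₆/864`.
-/

set_option autoImplicit false

namespace Fermat.Agent.S52

open WeierstrassCurve

theorem exists_model (W : WeierstrassCurve ℤ) (t : ℤ) (ht : (6 * 1728 : ℤ) ∣ t) :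
    ∃ W' : WeierstrassCurve ℤ, W'.c₄ = famC4 W.c₄ W.c₆ t ∧ W'.c₆ = famC6 W.c₄ W.c₆ t ∧
      W'.reductionMod 2 = W.reductionMod 2 ∧ W'.reductionMod 3 = W.reductionMod 3 := by
  have h4 : (6 * 1728 : ℤ) ∣ famC4 W.c₄ W.c₆ t - W.c₄ := by
    have := sub_dvd_famC4 W.c₄ W.c₆ t 0
    rw [famC4_zero, sub_zero] at this
    exact ht.trans this
  have h6 : (6 * 1728 : ℤ) ∣ famC6 W.c₄ W.c₆ t - W.c₆ := by
    have := sub_dvd_famC6 W.c₄ W.c₆ t 0
    rw [famC6_zero, sub_zero] at this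
    exact ht.trans this
  obtain ⟨u, hu⟩ := h4
  obtain ⟨v, hv⟩ := h6
  have e2 : ((2 : ℤ) : ZMod 2) = 0 := by decide
  have e3 : ((3 : ℤ) : ZMod 3) = 0 := by decide
  refine ⟨⟨W.a₁, W.a₂, W.a₃, W.a₄ + 6 * (-36 * u), W.a₆ + 6 * (-3 * W.b₂ * u - 2 * v)⟩,
    ?_, ?_, ?_, ?_⟩
  · have : famC4 W.c₄ W.c₆ t = W.c₄ + 6 * 1728 * u := by linarith
    rw [this]
    simp only [WeierstrassCurve.c₄, WeierstrassCurve.b₂, WeierstrassCurve.b₄]
    ring
  · have : famC6 W.c₄ W.c₆ t = W.c₆ + 6 * 1728 * v := by linarith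
    rw [this]
    simp only [WeierstrassCurve.c₆, WeierstrassCurve.b₂, WeierstrassCurve.b₄,
      WeierstrassCurve.b₆]
    ring
  · have e6 : ((6 : ℤ) : ZMod 2) = 0 := by decide
    ext <;> simp [WeierstrassCurve.reductionMod, WeierstrassCurve.map] <;>
      (left; exact_mod_cast e6)
  · have e6 : ((6 : ℤ) : ZMod 3) = 0 := by decide
    ext <;> simp [WeierstrassCurve.reductionMod, WeierstrassCurve.map] <;>
      (left; exact_mod_cast e6)

end Fermat.Agent.S52
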