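import Fermat.Agent.S52.Defs
import Fermat.Agent.Cheb.Toolkit
import Fermat.Agent.Cheb.Cyclo

/-!
# S52 [WP-P]: from a Galois element to a prime (generator-Chebotarev)

`L = ℚ(θ, w)`, `T' = T ∪ {2, 3} ∪ {primes dividing m}` where `m ≠ 0`, `m θ` integral over `ℤ`.
`Cheb.exists_frobenius_generator L σ T'` gives `ℓ, A, τ, a, b`.  `τ θ = σ^b θ = θ`, `τ w ≠ w`
(otherwise `σ w = τ^a w = w`), so `τ w = -w`.  `θ ∈ A`; its residue class is fixed by `x ↦ x^ℓ`,
so it is the class of an integer `t₁`; `F(t₁) ≡ F(θ) = 0`, so `ℓ ∣ F(t₁)`.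
If `x² = 3` in `ZMod ℓ`, then `w ≡ ± x`, the class of `w` is fixed by Frobenius, `τ w ≡ w`,
`2 w ∈ 𝔪_A`, `12 ∈ 𝔪_A`, `ℓ ∣ 12`.
-/

set_option autoImplicit false

namespace Fermat.Agent.S52

open Polynomial

local notation "Qbar" => AlgebraicClosure ℚ
local notation "GQ" => (AlgebraicClosure ℚ ≃ₐ[ℚ] AlgebraicClosure ℚ)
local notation "Zbar" => integralClosure ℤ (AlgebraicClosure ℚ)

namespace ChebApply

lemma exists_nat_integral (θ : Qbar) : ∃ n : ℕ, n ≠ 0 ∧ IsIntegral ℤ ((n : Qbar) * θ) := by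
  have halg : IsAlgebraic ℤ θ :=
    (IsFractionRing.isAlgebraic_iff ℤ ℚ Qbar).2 (Algebra.IsAlgebraic.isAlgebraic θ)
  obtain ⟨y, hy0, hy⟩ := halg.exists_integral_multiple
  refine ⟨y.natAbs, Int.natAbs_ne_zero.2 hy0, ?_⟩
  rw [zsmul_eq_mul] at hy
  rcases Int.natAbs_eq y with h | h
  · have : ((y.natAbs : ℕ) : Qbar) = (y : Qbar) := by
      conv_rhs => rw [h]
      simp
    rw [this]; exact hy
  · have : ((y.natAbs : ℕ) : Qbar) = -(y : Qbar) := by
      conv_rhs => rw [h]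
      simp
    rw [this, neg_mul]; exact hy.neg

lemma pow_apply_of_fixed (σ : GQ) {x : Qbar} (h : σ x = x) (n : ℕ) : (σ ^ n) x = x := by
  induction n with
  | zero => simp
  | succ n ih => rw [pow_succ, AlgEquiv.mul_apply, h, ih]

variable {A : ValuationSubring Qbar} {ℓ : ℕ}

lemma mem_of_isIntegral (A : ValuationSubring Qbar) {x : Qbar} (hx : IsIntegral ℤ x) : x ∈ A :=
  S54.coe_integralClosure_mem A ⟨x, hx⟩

lemma inv_natCast_mem (hℓ : ℓ.Prime) (hA : A.LiesOverPrime ℓ) {n : ℕ} (hn : ¬ ℓ ∣ n) :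
    ((n : Qbar))⁻¹ ∈ A := by
  have h1 := Cheb.natCast_notMem_centre hℓ hA hn
  rw [S54.mem_centre_iff, not_lt] at h1
  rw [← A.valuation_le_one_iff, map_inv₀]
  exact inv_le_one_of_one_le₀ (by simpa using h1)

lemma charP_residue (hℓ : ℓ.Prime) (hA : A.LiesOverPrime ℓ) :
    CharP (IsLocalRing.ResidueField A) ℓ := by
  rw [CharP.charP_iff_prime_eq_zero hℓ]
  have h1 : A.valuation (ℓ : Qbar) < 1 := A.mem_nonunits_iff.mp hA
  have h2 : (ℓ : A) ∈ IsLocalRing.maximalIdeal A := by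
    rw [A.valuation_lt_one_iff]
    simpa using h1
  rw [← map_natCast (IsLocalRing.residue A), IsLocalRing.residue_eq_zero_iff]
  exact h2

lemma residue_apply {τ : GQ} (hτ : A.IsFrobeniusAt τ ℓ) {x : Qbar} (hx : x ∈ A) (hτx : τ x ∈ A) :
    IsLocalRing.residue A ⟨τ x, hτx⟩ = IsLocalRing.residue A ⟨x, hx⟩ ^ ℓ := by
  obtain ⟨hD, hF⟩ := hτ
  rw [← hF, ← IsLocalRing.ResidueField.residue_smul]
  rfl

end ChebApply

theorem exists_prime_of_sigma (F : ℤ[X]) (σ : GQ) (θ w : Qbar) (hθ : aeval θ F = 0)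
    (hw : w ^ 2 = 3) (hσθ : σ θ = θ) (hσw : σ w = -w) (T : Finset ℕ) :
    ∃ (ℓ : ℕ) (t₁ : ℤ), ℓ.Prime ∧ ℓ ∉ T ∧ (ℓ : ℤ) ∣ F.eval t₁ ∧ ∀ x : ZMod ℓ, x ^ 2 ≠ 3 := by
  classical
  obtain ⟨n, hn0, hnθ⟩ := ChebApply.exists_nat_integral θ
  have hfd : FiniteDimensional ℚ (IntermediateField.adjoin ℚ ({θ, w} : Set Qbar)) :=
    IntermediateField.finiteDimensional_adjoin (fun x _ => Algebra.IsIntegral.isIntegral x)
  obtain ⟨ℓ, A, τ, a, b, hℓ, hT, hA, hτ, -, h1, h2⟩ :=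
    Cheb.exists_frobenius_generator (IntermediateField.adjoin ℚ ({θ, w} : Set Qbar)) σ
      (T ∪ {2, 3} ∪ n.primeFactors)
  have hθL : θ ∈ IntermediateField.adjoin ℚ ({θ, w} : Set Qbar) :=
    IntermediateField.subset_adjoin _ _ (by simp)
  have hwL : w ∈ IntermediateField.adjoin ℚ ({θ, w} : Set Qbar) :=
    IntermediateField.subset_adjoin _ _ (by simp)
  simp only [Finset.mem_union, Finset.mem_insert, Finset.mem_singleton, not_or] at hT
  obtain ⟨⟨hT, hℓ2, hℓ3⟩, hℓn⟩ := hT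
  have hℓn' : ¬ ℓ ∣ n := fun h => hℓn (Nat.mem_primeFactors.2 ⟨hℓ, h, hn0⟩)
  have hw0 : w ≠ 0 := by
    rintro rfl
    norm_num at hw
  -- action of τ
  have hτθ : τ θ = θ := by rw [← h2 θ hθL, ChebApply.pow_apply_of_fixed σ hσθ]
  have hτw : τ w = -w := by
    have h3 : (τ w) ^ 2 = w ^ 2 := by rw [← map_pow, hw]; exact map_ofNat τ 3
    rcases sq_eq_sq_iff_eq_or_eq_neg.1 h3 with h | h
    · exfalso
      have h4 := h1 w hwL
      rw [ChebApply.pow_apply_of_fixed τ h, hσw] at h4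
      have h5 : (2 : Qbar) * w = 0 := by linear_combination h4
      rcases mul_eq_zero.1 h5 with h6 | h6
      · norm_num at h6
      · exact hw0 h6
    · exact h
  -- membership
  have hθA : θ ∈ A := by
    have h3 : θ = ((n : Qbar) * θ) * ((n : Qbar))⁻¹ := by
      field_simp
    rw [h3]
    exact A.mul_mem _ _ (ChebApply.mem_of_isIntegral A hnθ) (ChebApply.inv_natCast_mem hℓ hA hℓn')
  have hwA : w ∈ A := ChebApply.mem_of_isIntegral A
    ⟨X ^ 2 - C 3, monic_X_pow_sub_C 3 two_ne_zero, by simp [hw]⟩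
  have := ChebApply.charP_residue hℓ hA
  have : Fact ℓ.Prime := ⟨hℓ⟩
  -- residue class of θ
  have hθres : IsLocalRing.residue A ⟨θ, hθA⟩ ^ ℓ = IsLocalRing.residue A ⟨θ, hθA⟩ := by
    rw [← ChebApply.residue_apply hτ hθA (by rw [hτθ]; exact hθA)]
    congr 2
  obtain ⟨t₁, ht₁⟩ := (mem_bot_iff_intCast ℓ (IsLocalRing.ResidueField A)).1
    ((Subfield.mem_bot_iff_pow_eq_self (IsLocalRing.ResidueField A) ℓ).2 hθres)
  refine ⟨ℓ, t₁, hℓ, hT, ?_, ?_⟩
  · rw [← CharP.intCast_eq_zero_iff (IsLocalRing.ResidueField A) ℓ]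
    have h3 : aeval (⟨θ, hθA⟩ : A) F = 0 := by
      apply Subtype.ext
      have := Polynomial.aeval_algHom_apply (A.subtype.toIntAlgHom) (⟨θ, hθA⟩ : A) F
      exact this.symm.trans hθ
    have h4 := Polynomial.aeval_algHom_apply ((IsLocalRing.residue A).toIntAlgHom) (⟨θ, hθA⟩ : A) F
    rw [h3, map_zero] at h4
    have h5 : (IsLocalRing.residue A).toIntAlgHom (⟨θ, hθA⟩ : A)
        = ((t₁ : ℤ) : IsLocalRing.ResidueField A) := by
      rw [ht₁]; rfl
    rw [h5, aeval_def, Polynomial.eval₂_at_intCast, eq_intCast] at h4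
    exact h4
  · intro x hx
    have hwres : IsLocalRing.residue A ⟨w, hwA⟩ ^ 2 = 3 := by
      rw [← map_pow]
      have : (⟨w, hwA⟩ : A) ^ 2 = 3 := Subtype.ext hw
      rw [this, map_ofNat]
    set xx : IsLocalRing.ResidueField A := ZMod.castHom (dvd_refl ℓ) (IsLocalRing.ResidueField A) x
      with hxx
    have hxx2 : xx ^ 2 = 3 := by rw [hxx, ← map_pow, hx, map_ofNat]
    have hxxℓ : xx ^ ℓ = xx := by rw [hxx, ← map_pow, ZMod.pow_card]
    have hodd : Odd ℓ := hℓ.odd_of_ne_two hℓ2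
    have hfix : IsLocalRing.residue A ⟨w, hwA⟩ ^ ℓ = IsLocalRing.residue A ⟨w, hwA⟩ := by
      rcases sq_eq_sq_iff_eq_or_eq_neg.1 (hwres.trans hxx2.symm) with h | h
      · rw [h, hxxℓ]
      · rw [h, hodd.neg_pow, hxxℓ]
    have hnegA : τ w ∈ A := by rw [hτw]; exact A.neg_mem _ hwA
    have h6 := ChebApply.residue_apply hτ hwA hnegA
    rw [hfix] at h6
    have h7 : (⟨τ w, hnegA⟩ : A) = -⟨w, hwA⟩ := Subtype.ext hτw
    rw [h7, map_neg] at h6
    have h8 : (2 : IsLocalRing.ResidueField A) * IsLocalRing.residue A ⟨w, hwA⟩ = 0 := by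
      linear_combination -h6
    have h2ne : (2 : IsLocalRing.ResidueField A) ≠ 0 := by
      intro h
      have : ((2 : ℕ) : IsLocalRing.ResidueField A) = 0 := by exact_mod_cast h
      rw [CharP.cast_eq_zero_iff (IsLocalRing.ResidueField A) ℓ] at this
      exact hℓ2 ((Nat.prime_dvd_prime_iff_eq hℓ Nat.prime_two).1 this)
    have h9 : IsLocalRing.residue A ⟨w, hwA⟩ = 0 := (mul_eq_zero.1 h8).resolve_left h2ne
    rw [h9] at hwres
    have : ((3 : ℕ) : IsLocalRing.ResidueField A) = 0 := by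
      have h10 : (3 : IsLocalRing.ResidueField A) = 0 := by rw [← hwres]; simp
      exact_mod_cast h10
    rw [CharP.cast_eq_zero_iff (IsLocalRing.ResidueField A) ℓ] at this
    exact hℓ3 ((Nat.prime_dvd_prime_iff_eq hℓ Nat.prime_three).1 this)

end Fermat.Agent.S52
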