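import Fermat.Agent.S52.SigmaTheta
import Fermat.Agent.S52.ChebApply

/-!
# S52: the auxiliary prime
-/

set_option autoImplicit false

namespace Fermat.Agent.S52

open WeierstrassCurve Polynomial

theorem exists_prime (W : WeierstrassCurve ℤ) (hΔ : W.Δ ≠ 0) (hW : W.IsSemistableModel)
    (T : Finset ℕ) :
    ∃ (ℓ : ℕ) (t₁ : ℤ), ℓ.Prime ∧ ℓ ∉ T ∧ (ℓ : ℤ) ∣ famC6 W.c₄ W.c₆ t₁ ∧
      ∀ x : ZMod ℓ, x ^ 2 ≠ 3 := by
  obtain ⟨σ, θ, w, hθ, hw, hσθ, hσw⟩ := exists_sigma_theta W hΔ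
    (fun h => hW 3 Nat.prime_three (by exact_mod_cast h))
  obtain ⟨ℓ, t₁, h1, h2, h3, h4⟩ := exists_prime_of_sigma (famC6Poly W.c₄ W.c₆) σ θ w
    (by rw [aeval_famC6Poly]; simpa using hθ) hw hσθ hσw T
  exact ⟨ℓ, t₁, h1, h2, by rwa [eval_famC6Poly] at h3, h4⟩

end Fermat.Agent.S52
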