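import Fermat.Agent.S52.Defs

/-!
# S52 [WP-B]: solving `-H(u,v) = c₄`, `T(u,v) = c₆` over an algebraically closed field

Proof of `exists_uv`: `G(w) = c6² h₄(w)³ - c4³ t₆(w)²` (`-H(z,1) = h₄(z⁵)`, `T(z,1) = t₆(z⁵)`) has
leading coefficient `c6² - c4³ ≠ 0` (degree 12), so it has a root `w₀ = z₀⁵`.
Put `h = -H(z₀,1)`, `T₀ = T(z₀,1)` (not both zero by
`klein_no_common_zero`); `(c4/h)³ = (c6/T₀)²`; choose `λ` with `λ^10 = (c6/T₀)/(c4/h)` (cases
`c4 = 0`: `λ^30 = c6/T₀`; `c6 = 0`: `λ^20 = c4/h`), and `(u,v) = (λ z₀, λ)`.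
-/

set_option autoImplicit false

namespace Fermat.Agent.S52

variable {k : Type*} [Field k]

/-- `f` and `H` have no common zero (characteristic `≠ 5`).  With `U = u⁵`, `V = v⁵`,
`w = U/V`: `w² = 1 - 11 w` gives `H/V⁴ = 3125 (11 w - 1)`. -/
theorem kf_kH_no_common_zero (h5 : (5 : k) ≠ 0) {u v : k} (hf : kf u v = 0) (hH : kH u v = 0) :
    u = 0 ∧ v = 0 := by
  by_cases hu : u = 0
  · subst hu
    refine ⟨rfl, ?_⟩
    have : v ^ 20 = 0 := by
      unfold kH at hH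
      linear_combination -hH
    exact pow_eq_zero_iff (by norm_num) |>.mp this
  by_cases hv : v = 0
  · subst hv
    refine ⟨?_, rfl⟩
    have : u ^ 20 = 0 := by
      unfold kH at hH
      linear_combination -hH
    exact pow_eq_zero_iff (by norm_num) |>.mp this
  exfalso
  have hQ : u ^ 10 + 11 * u ^ 5 * v ^ 5 - v ^ 10 = 0 := by
    unfold kf at hf
    rcases mul_eq_zero.mp hf with h | h
    · exact absurd h (mul_ne_zero hu hv)
    · exact h
  have h1 : (5 : k) ^ 5 * v ^ 15 * (11 * u ^ 5 - v ^ 5) = 0 := by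
    unfold kH at hH
    linear_combination hH - (-u ^ 10 + 239 * u ^ 5 * v ^ 5 - 3124 * v ^ 10) * hQ
  have h2 : 11 * u ^ 5 - v ^ 5 = 0 := by
    rcases mul_eq_zero.mp h1 with h | h
    · exact absurd h (mul_ne_zero (pow_ne_zero _ h5) (pow_ne_zero _ hv))
    · exact h
  have h3 : u ^ 10 = 0 := by
    linear_combination hQ - v ^ 5 * h2
  exact hu (pow_eq_zero_iff (by norm_num) |>.mp h3)

/-- `H` and `T` have no common zero (characteristic prime to `30`). -/
theorem klein_no_common_zero (h30 : (30 : k) ≠ 0) {u v : k} (hH : kH u v = 0) (hT : kT u v = 0) :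
    u = 0 ∧ v = 0 := by
  have h2 : (2 : k) ≠ 0 := by
    intro h
    apply h30
    linear_combination 15 * h
  have h3 : (3 : k) ≠ 0 := by
    intro h
    apply h30
    linear_combination 10 * h
  have h5 : (5 : k) ≠ 0 := by
    intro h
    apply h30
    linear_combination 6 * h
  have hrel := klein_rel u v
  rw [hH, hT] at hrel
  have h1 : (2 : k) ^ 6 * 3 ^ 3 * kf u v ^ 5 = 0 := by
    linear_combination -hrel
  have hf : kf u v = 0 := by
    rcases mul_eq_zero.mp h1 with h | h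
    · exact absurd h (mul_ne_zero (pow_ne_zero _ h2) (pow_ne_zero _ h3))
    · exact pow_eq_zero_iff (by norm_num) |>.mp h
  exact kf_kH_no_common_zero h5 hf hH

open Polynomial in
theorem exists_root_aux [IsAlgClosed k] (c4 c6 : k) (hΔ : c4 ^ 3 - c6 ^ 2 ≠ 0) :
    ∃ w : k, c6 ^ 2 * (w ^ 4 - 228 * w ^ 3 + 494 * w ^ 2 + 228 * w + 1) ^ 3
      - c4 ^ 3 * (w ^ 6 + 522 * w ^ 5 - 10005 * w ^ 4 - 10005 * w ^ 2 - 522 * w + 1) ^ 2 = 0 := by
  set P : k[X] := C (c6 ^ 2) * (X ^ 4 - C 228 * X ^ 3 + C 494 * X ^ 2 + C 228 * X + C 1) ^ 3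
      - C (c4 ^ 3) * (X ^ 6 + C 522 * X ^ 5 - C 10005 * X ^ 4 - C 10005 * X ^ 2 - C 522 * X
        + C 1) ^ 2 with hP
  have hc : P.coeff 12 = c6 ^ 2 - c4 ^ 3 := by
    rw [hP]
    compute_degree!
  have hdeg : P.degree ≠ 0 := by
    intro h
    have h12 : P.coeff 12 = 0 := by
      apply Polynomial.coeff_eq_zero_of_degree_lt
      rw [h]
      exact_mod_cast (by norm_num : (0 : ℕ) < 12)
    rw [hc] at h12
    apply hΔ
    linear_combination -h12
  obtain ⟨w, hw⟩ := IsAlgClosed.exists_root P hdeg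
  refine ⟨w, ?_⟩
  have := hw
  rw [Polynomial.IsRoot.def, hP] at this
  simpa using this

theorem exists_uv [IsAlgClosed k] (h30 : (30 : k) ≠ 0) (c4 c6 : k) (hΔ : c4 ^ 3 - c6 ^ 2 ≠ 0) :
    ∃ u v : k, -kH u v = c4 ∧ kT u v = c6 := by
  obtain ⟨w, hw⟩ := exists_root_aux c4 c6 hΔ
  obtain ⟨z, hz⟩ := IsAlgClosed.exists_pow_nat_eq w (n := 5) (by norm_num)
  have hh : -kH z 1 = w ^ 4 - 228 * w ^ 3 + 494 * w ^ 2 + 228 * w + 1 := by
    rw [← hz]; unfold kH; ring
  have hT : kT z 1 = w ^ 6 + 522 * w ^ 5 - 10005 * w ^ 4 - 10005 * w ^ 2 - 522 * w + 1 := by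
    rw [← hz]; unfold kT; ring
  rw [← hh, ← hT] at hw
  have hhom : ∀ l : k, -kH (l * z) l = l ^ 20 * (-kH z 1) := by
    intro l; unfold kH; ring
  have hThom : ∀ l : k, kT (l * z) l = l ^ 30 * kT z 1 := by
    intro l; unfold kT; ring
  set h := -kH z 1 with hhdef
  set T₀ := kT z 1 with hTdef
  have hnot : ¬ (h = 0 ∧ T₀ = 0) := by
    rintro ⟨h1, h2⟩
    have := klein_no_common_zero h30 (u := z) (v := 1) (by linear_combination -h1) h2
    exact one_ne_zero this.2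
  by_cases h0 : h = 0
  · have hT0 : T₀ ≠ 0 := fun h' => hnot ⟨h0, h'⟩
    have hc4 : c4 = 0 := by
      rw [h0] at hw
      have : c4 ^ 3 * T₀ ^ 2 = 0 := by linear_combination -hw
      rcases mul_eq_zero.mp this with h' | h'
      · exact pow_eq_zero_iff (by norm_num) |>.mp h'
      · exact absurd (pow_eq_zero_iff (by norm_num) |>.mp h') hT0
    obtain ⟨l, hl⟩ := IsAlgClosed.exists_pow_nat_eq (c6 / T₀) (n := 30) (by norm_num)
    refine ⟨l * z, l, ?_, ?_⟩
    · rw [hhom, h0, hc4, mul_zero]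
    · rw [hThom, hl, div_mul_cancel₀ _ hT0]
  by_cases hT0 : T₀ = 0
  · have hc6 : c6 = 0 := by
      rw [hT0] at hw
      have : c6 ^ 2 * h ^ 3 = 0 := by linear_combination hw
      rcases mul_eq_zero.mp this with h' | h'
      · exact pow_eq_zero_iff (by norm_num) |>.mp h'
      · exact absurd (pow_eq_zero_iff (by norm_num) |>.mp h') h0
    obtain ⟨l, hl⟩ := IsAlgClosed.exists_pow_nat_eq (c4 / h) (n := 20) (by norm_num)
    refine ⟨l * z, l, ?_, ?_⟩
    · rw [hhom, hl, div_mul_cancel₀ _ h0]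
    · rw [hThom, hT0, hc6, mul_zero]
  have hc4 : c4 ≠ 0 := by
    intro h'
    rw [h'] at hw hΔ
    have : c6 ^ 2 * h ^ 3 = 0 := by linear_combination hw
    rcases mul_eq_zero.mp this with h'' | h''
    · apply hΔ
      linear_combination -h''
    · exact h0 (pow_eq_zero_iff (by norm_num) |>.mp h'')
  obtain ⟨l, hl⟩ := IsAlgClosed.exists_pow_nat_eq ((c6 / T₀) / (c4 / h)) (n := 10) (by norm_num)
  have hA : c4 / h ≠ 0 := div_ne_zero hc4 h0
  have hAB : (c4 / h) ^ 3 = (c6 / T₀) ^ 2 := by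
    field_simp
    linear_combination -hw
  have hc6 : c6 / T₀ ≠ 0 := by
    intro h'
    rw [h'] at hAB
    have h3 : (c4 / h) ^ 3 = 0 := by rw [hAB]; ring
    exact hA (pow_eq_zero_iff (by norm_num) |>.mp h3)
  have hl20 : l ^ 20 = c4 / h := by
    have : l ^ 20 = (l ^ 10) ^ 2 := by ring
    rw [this, hl, div_pow, ← hAB]
    field_simp
  have hl30 : l ^ 30 = c6 / T₀ := by
    have : l ^ 30 = (l ^ 10) ^ 3 := by ring
    rw [this, hl, div_pow, hAB]
    field_simp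
  refine ⟨l * z, l, ?_, ?_⟩
  · rw [hhom, hl20, div_mul_cancel₀ _ h0]
  · rw [hThom, hl30, div_mul_cancel₀ _ hT0]

/-- consequence of `klein_rel`. -/
theorem kf_ne_zero_of (h30 : (30 : k) ≠ 0) {u v c4 c6 : k} (h4 : -kH u v = c4) (h6 : kT u v = c6)
    (hΔ : c4 ^ 3 - c6 ^ 2 ≠ 0) : kf u v ≠ 0 := by
  intro hf
  have hrel := klein_rel u v
  rw [hf] at hrel
  apply hΔ
  rw [← h4, ← h6]
  linear_combination -hrel

end Fermat.Agent.S52
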