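import Fermat.Agent.S52.FamAPI
import Fermat.Agent.S52.KleinSolve

/-!
# S52 [WP-K]: discriminant and semistability in the family

`fam_not_both_zero`: pass to the algebraic closure, take `(u₀,v₀)` (`exists_uv`); by
`famC4_klein`, `famD_klein`, `kf_kH_no_common_zero`: `u₀ + t f_v = 0 = v₀ - t f_u`, hence
`12 f(u₀,v₀) = u₀ f_u + v₀ f_v = 0` (`euler_kf`), contradiction with `kf_ne_zero_of`.

`semistable_of`: `1728 Δ' = c₄'³ - c₆'² = 1728 Δ D(t)⁵`, `D(t) ≡ 1`, `c₄' ≡ c₄ mod t`.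
For `p ∣ t` use semistability of `W`; for `p ∤ t` (so `p ∤ 30 Δ`) use `fam_not_both_zero` in `ZMod p`.
-/

set_option autoImplicit false

namespace Fermat.Agent.S52

open WeierstrassCurve

theorem fam_not_both_zero {k : Type*} [Field k] (h30 : (30 : k) ≠ 0) (c4 c6 t : k)
    (hΔ : c4 ^ 3 - c6 ^ 2 ≠ 0) (h4 : famC4 c4 c6 t = 0) (hD : famD c4 c6 t = 0) : False := by
  set K := AlgebraicClosure k with hK
  set φ : k →+* K := algebraMap k K with hφ
  have hinj : Function.Injective φ := φ.injective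
  have h30K : (30 : K) ≠ 0 := by
    intro h
    apply h30
    apply hinj
    rw [map_ofNat, map_zero]
    exact h
  have h5K : (5 : K) ≠ 0 := by
    intro h
    apply h30K
    have : (30 : K) = 5 * 6 := by norm_num
    rw [this, h, zero_mul]
  have h12K : (12 : K) ≠ 0 := by
    intro h
    apply h30K
    have h2 : (30 : K) ^ 2 = 12 * 75 := by norm_num
    have : (30 : K) ^ 2 = 0 := by rw [h2, h, zero_mul]
    exact pow_eq_zero_iff (two_ne_zero) |>.mp this
  have hΔK : (φ c4) ^ 3 - (φ c6) ^ 2 ≠ 0 := by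
    intro h
    apply hΔ
    apply hinj
    rw [map_sub, map_pow, map_pow, map_zero]
    exact h
  obtain ⟨u, v, hu4, hu6⟩ := exists_uv h30K (φ c4) (φ c6) hΔK
  have hf := kf_ne_zero_of h30K hu4 hu6 hΔK
  have h4K : famC4 (φ c4) (φ c6) (φ t) = 0 := by
    rw [← map_famC4, h4, map_zero]
  have hDK : famD (φ c4) (φ c6) (φ t) = 0 := by
    rw [← map_famD, hD, map_zero]
  have e1 := famC4_klein u v (φ t)
  have e2 := famD_klein u v (φ t)
  rw [hu4, hu6] at e1 e2
  rw [h4K] at e1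
  rw [hDK, mul_zero] at e2
  have e1' : kH (u + φ t * kfv u v) (v - φ t * kfu u v) = 0 := by
    have := e1.symm
    simpa using this
  obtain ⟨hU, hV⟩ := kf_kH_no_common_zero h5K e2 e1'
  have he := euler_kf u v
  have : (12 : K) * kf u v = 0 := by
    rw [← he]
    have hu : u = -(φ t * kfv u v) := by linear_combination hU
    have hv : v = φ t * kfu u v := by linear_combination hV
    linear_combination (kfu u v) * hU + (kfv u v) * hV
  rcases mul_eq_zero.mp this with h | h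
  · exact h12K h
  · exact hf h

theorem disc_eq (W W' : WeierstrassCurve ℤ) (t : ℤ) (h4 : W'.c₄ = famC4 W.c₄ W.c₆ t)
    (h6 : W'.c₆ = famC6 W.c₄ W.c₆ t) : W'.Δ = W.Δ * famD W.c₄ W.c₆ t ^ 5 := by
  have h1 := W.c_relation
  have h2 := W'.c_relation
  have h3 := fam_rel W.c₄ W.c₆ t
  rw [h4, h6, h3, ← h1] at h2
  have : (1728 : ℤ) * W'.Δ = 1728 * (W.Δ * famD W.c₄ W.c₆ t ^ 5) := by
    rw [h2]; ring
  exact mul_left_cancel₀ (by norm_num) this

theorem semistable_of (W W' : WeierstrassCurve ℤ) (t : ℤ) (hΔ : W.Δ ≠ 0)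
    (hW : W.IsSemistableModel) (h4 : W'.c₄ = famC4 W.c₄ W.c₆ t)
    (h6 : W'.c₆ = famC6 W.c₄ W.c₆ t) (ht : 30 * W.Δ ∣ t) :
    W'.Δ ≠ 0 ∧ W'.IsSemistableModel := by
  have hdisc := disc_eq W W' t h4 h6
  have hD1 : t ∣ famD W.c₄ W.c₆ t - 1 := by
    have := sub_dvd_famD W.c₄ W.c₆ t 0
    rwa [sub_zero, famD_zero] at this
  have hC1 : t ∣ famC4 W.c₄ W.c₆ t - W.c₄ := by
    have := sub_dvd_famC4 W.c₄ W.c₆ t 0
    rwa [sub_zero, famC4_zero] at this
  have h30t : (30 : ℤ) ∣ t := (Dvd.intro _ rfl).trans ht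
  have hΔt : W.Δ ∣ t := (Dvd.intro_left _ rfl).trans ht
  refine ⟨?_, ?_⟩
  · rw [hdisc]
    refine mul_ne_zero hΔ (pow_ne_zero _ ?_)
    intro h0
    rw [h0, zero_sub] at hD1
    have : (30 : ℤ) ∣ 1 := by
      have := h30t.trans hD1
      rwa [dvd_neg] at this
    norm_num at this
  · intro p hp hpΔ hpc
    have hpZ : Prime (p : ℤ) := Nat.prime_iff_prime_int.mp hp
    by_cases hpt : (p : ℤ) ∣ t
    · -- `p ∣ t`
      have hc4 : (p : ℤ) ∣ W.c₄ := by
        have h := hpt.trans hC1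
        rw [← h4] at h
        have := dvd_sub hpc h
        simpa using this
      have hnD : ¬ (p : ℤ) ∣ famD W.c₄ W.c₆ t := by
        intro h
        have h' := hpt.trans hD1
        have := dvd_sub h h'
        have h1 : (p : ℤ) ∣ 1 := by simpa using this
        exact hpZ.not_dvd_one h1
      rw [hdisc] at hpΔ
      rcases hpZ.dvd_or_dvd hpΔ with h | h
      · exact hW p hp h hc4
      · exact hnD (hpZ.dvd_of_dvd_pow h)
    · -- `p ∤ t`
      have hp30 : ¬ (p : ℤ) ∣ 30 := fun h => hpt (h.trans h30t)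
      have hpW : ¬ (p : ℤ) ∣ W.Δ := fun h => hpt (h.trans hΔt)
      rw [hdisc] at hpΔ
      have hpD : (p : ℤ) ∣ famD W.c₄ W.c₆ t := by
        rcases hpZ.dvd_or_dvd hpΔ with h | h
        · exact absurd h hpW
        · exact hpZ.dvd_of_dvd_pow h
      haveI : Fact p.Prime := ⟨hp⟩
      set φ : ℤ →+* ZMod p := Int.castRingHom (ZMod p) with hφ
      have hker : ∀ a : ℤ, φ a = 0 ↔ (p : ℤ) ∣ a := fun a => by
        rw [hφ]; exact ZMod.intCast_zmod_eq_zero_iff_dvd a p
      have h30' : (30 : ZMod p) ≠ 0 := by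
        intro h
        apply hp30
        rw [← hker, map_ofNat]
        exact h
      have h1728 : ¬ (p : ℤ) ∣ 1728 := by
        intro h
        have e : (1728 : ℤ) = 2 ^ 6 * 3 ^ 3 := by norm_num
        rw [e] at h
        rcases hpZ.dvd_or_dvd h with h | h
        · exact hp30 ((hpZ.dvd_of_dvd_pow h).trans (by norm_num))
        · exact hp30 ((hpZ.dvd_of_dvd_pow h).trans (by norm_num))
      have hΔ' : (φ W.c₄) ^ 3 - (φ W.c₆) ^ 2 ≠ 0 := by
        rw [← map_pow, ← map_pow, ← map_sub, ← W.c_relation]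
        intro h
        rw [hker] at h
        rcases hpZ.dvd_or_dvd h with h | h
        · exact h1728 h
        · exact hpW h
      refine fam_not_both_zero h30' (φ W.c₄) (φ W.c₆) (φ t) hΔ' ?_ ?_
      · rw [← map_famC4, hker, ← h4]; exact hpc
      · rw [← map_famD, hker]; exact hpD

end Fermat.Agent.S52
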