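import Fermat.Agent.S52.Cong
import Fermat.Agent.S52.Model
import Fermat.Agent.S52.Semistable
import Fermat.Agent.S52.Irr3
import Fermat.Agent.S52.Prime

/-!
# S52: assembly of the 3-5 switch
-/

set_option autoImplicit false

namespace Fermat.Agent.S52

open WeierstrassCurve

theorem main (W : WeierstrassCurve ℤ) (hΔ : W.Δ ≠ 0) (hW : W.IsSemistableModel) :
    ∃ W' : WeierstrassCurve ℤ, W'.Δ ≠ 0 ∧ W'.IsSemistableModel ∧ W'.ModRepIsIrreducible 3 ∧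
      ∀ ℓ : ℕ, ℓ.Prime → W.IsGoodPrimeFor ℓ → W'.IsGoodPrimeFor ℓ → ℓ ≠ 5 →
        (5 : ℤ) ∣ (W'.apOfModel ℓ - W.apOfModel ℓ) := by
  by_cases hirr : W.ModRepIsIrreducible 3
  · exact ⟨W, hΔ, hW, hirr, fun ℓ _ _ _ _ => by simp⟩
  set M : ℤ := 6 * 1728 * (30 * W.Δ) with hM
  have hM0 : M ≠ 0 := by
    rw [hM]; exact mul_ne_zero (by norm_num) (mul_ne_zero (by norm_num) hΔ)
  obtain ⟨ℓ₁, t₁, hp, hT, h6, h3⟩ := exists_prime W hΔ hW M.natAbs.primeFactors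
  have hpi : Prime (ℓ₁ : ℤ) := Nat.prime_iff_prime_int.1 hp
  have hndvd : ¬ (ℓ₁ : ℤ) ∣ M := by
    intro h
    apply hT
    rw [Nat.mem_primeFactors]
    exact ⟨hp, Int.natCast_dvd.1 h, by simpa using hM0⟩
  have hcop : IsCoprime (ℓ₁ : ℤ) M := (Prime.coprime_iff_not_dvd hpi).2 hndvd
  obtain ⟨a, b, hab⟩ := hcop
  obtain ⟨t, ht1, ht2⟩ : ∃ t : ℤ, (ℓ₁ : ℤ) ∣ t - t₁ ∧ M ∣ t :=
    ⟨t₁ * b * M, ⟨-(t₁ * a), by linear_combination t₁ * hab⟩, Dvd.intro_left _ rfl⟩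
  obtain ⟨W', h4', h6', hr2, hr3⟩ := exists_model W t (dvd_trans ⟨30 * W.Δ, rfl⟩ ht2)
  obtain ⟨hΔ', hss⟩ := semistable_of W W' t hΔ hW h4' h6'
    (dvd_trans ⟨6 * 1728, by rw [hM]; ring⟩ ht2)
  have hc6 : (ℓ₁ : ℤ) ∣ W'.c₆ := by
    rw [h6']
    have h := dvd_trans ht1 (sub_dvd_famC6 W.c₄ W.c₆ t t₁)
    have := dvd_add h h6
    simpa using this
  have : Fact ℓ₁.Prime := ⟨hp⟩
  have hcast : ∀ z : ℤ, ((z : ℤ) : ZMod ℓ₁) = 0 ↔ (ℓ₁ : ℤ) ∣ z := fun z =>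
    ZMod.intCast_zmod_eq_zero_iff_dvd z ℓ₁
  have hc4 : ¬ (ℓ₁ : ℤ) ∣ W'.c₄ := by
    intro h
    have e4 : famC4 ((W.c₄ : ℤ) : ZMod ℓ₁) ((W.c₆ : ℤ) : ZMod ℓ₁) ((t : ℤ) : ZMod ℓ₁) = 0 := by
      have := map_famC4 (Int.castRingHom (ZMod ℓ₁)) W.c₄ W.c₆ t
      simp only [eq_intCast] at this
      rw [← this, hcast, ← h4']; exact h
    have e6 : famC6 ((W.c₄ : ℤ) : ZMod ℓ₁) ((W.c₆ : ℤ) : ZMod ℓ₁) ((t : ℤ) : ZMod ℓ₁) = 0 := by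
      have := map_famC6 (Int.castRingHom (ZMod ℓ₁)) W.c₄ W.c₆ t
      simp only [eq_intCast] at this
      rw [← this, hcast, ← h6']; exact hc6
    have hΔ1 : ((W.c₄ : ℤ) : ZMod ℓ₁) ^ 3 - ((W.c₆ : ℤ) : ZMod ℓ₁) ^ 2 ≠ 0 := by
      intro h0
      have : (((W.c₄ ^ 3 - W.c₆ ^ 2 : ℤ)) : ZMod ℓ₁) = 0 := by push_cast; exact h0
      rw [hcast, ← W.c_relation] at this
      exact hndvd (dvd_trans this ⟨6 * 30, by rw [hM]; ring⟩)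
    have h30 : (30 : ZMod ℓ₁) ≠ 0 := by
      intro h0
      have : (((30 : ℤ)) : ZMod ℓ₁) = 0 := by push_cast; exact h0
      rw [hcast] at this
      exact hndvd (dvd_trans this ⟨6 * 1728 * W.Δ, by rw [hM]; ring⟩)
    have hrel := fam_rel ((W.c₄ : ℤ) : ZMod ℓ₁) ((W.c₆ : ℤ) : ZMod ℓ₁) ((t : ℤ) : ZMod ℓ₁)
    rw [e4, e6] at hrel
    have hD : famD ((W.c₄ : ℤ) : ZMod ℓ₁) ((W.c₆ : ℤ) : ZMod ℓ₁) ((t : ℤ) : ZMod ℓ₁) = 0 := by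
      have : (((W.c₄ : ℤ) : ZMod ℓ₁) ^ 3 - ((W.c₆ : ℤ) : ZMod ℓ₁) ^ 2) *
          famD ((W.c₄ : ℤ) : ZMod ℓ₁) ((W.c₆ : ℤ) : ZMod ℓ₁) ((t : ℤ) : ZMod ℓ₁) ^ 5 = 0 := by
        rw [← hrel]; ring
      rcases mul_eq_zero.1 this with h | h
      · exact absurd h hΔ1
      · exact pow_eq_zero_iff (by norm_num) |>.1 h
    exact fam_not_both_zero h30 _ _ _ hΔ1 e4 hD
  refine ⟨W', hΔ', hss, irr3_of_prime W' hΔ' ℓ₁ hp hc6 hc4 h3, ?_⟩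
  intro ℓ hℓ hg hg' h5
  by_cases h2 : ℓ = 2
  · subst h2
    simp [apOfModel, hr2]
  by_cases h3' : ℓ = 3
  · subst h3'
    simp [apOfModel, hr3]
  have h7 : 7 ≤ ℓ := by
    by_contra hlt
    have hlt := Nat.lt_of_not_le hlt
    interval_cases ℓ <;> first | omega | (revert hℓ; decide)
  exact cong_mod5 W W' t h4' h6' ℓ hℓ h7 hg hg'

end Fermat.Agent.S52
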