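import Fermat.Agent.S52.Defs

/-!
# S52 [WP-H]: a Weierstrass curve and its short model have the same number of points
bijection `(x, y) ↦ (36 x + 3 b₂, 108 (2 y + a₁ x + a₃))`.
-/

set_option autoImplicit false

namespace Fermat.Agent.S52

open WeierstrassCurve

theorem short_equation_iff {F : Type*} [Field F] (W : WeierstrassCurve F) (h6 : (6 : F) ≠ 0)
    (x y : F) :
    (shortW W.c₄ W.c₆).toAffine.Equation (36 * x + 3 * W.b₂) (108 * (2 * y + W.a₁ * x + W.a₃)) ↔
      W.toAffine.Equation x y := by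
  rw [Affine.equation_iff, Affine.equation_iff]
  simp only [shortW_a₁, shortW_a₂, shortW_a₃, shortW_a₄, shortW_a₆]
  have h : (6 : F) ^ 6 ≠ 0 := pow_ne_zero _ h6
  constructor
  · intro e
    apply mul_left_cancel₀ h
    simp only [WeierstrassCurve.c₄, WeierstrassCurve.c₆, WeierstrassCurve.b₂, WeierstrassCurve.b₄,
      WeierstrassCurve.b₆] at e
    linear_combination e
  · intro e
    simp only [WeierstrassCurve.c₄, WeierstrassCurve.c₆, WeierstrassCurve.b₂, WeierstrassCurve.b₄,
      WeierstrassCurve.b₆]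
    linear_combination (6 : F) ^ 6 * e

theorem card_short {F : Type*} [Field F] (W : WeierstrassCurve F) (h6 : (6 : F) ≠ 0)
    (hΔ : W.Δ ≠ 0) : W.card = (shortW W.c₄ W.c₆).card := by
  have h2 : (2 : F) ≠ 0 := fun h => h6 (by
    have : (6 : F) = 2 * 3 := by norm_num
    rw [this, h, zero_mul])
  have h3 : (3 : F) ≠ 0 := fun h => h6 (by
    have : (6 : F) = 2 * 3 := by norm_num
    rw [this, h, mul_zero])
  have h36 : (36 : F) ≠ 0 := by
    have : (36 : F) = 6 * 6 := by norm_num
    rw [this]; exact mul_ne_zero h6 h6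
  have h108 : (108 : F) ≠ 0 := by
    have : (108 : F) = 6 * 6 * 3 := by norm_num
    rw [this]; exact mul_ne_zero (mul_ne_zero h6 h6) h3
  have hΔ' : (shortW W.c₄ W.c₆).Δ ≠ 0 := by
    rw [shortW_Δ, ← W.c_relation]
    have : (1728 : F) = 6 ^ 3 * 2 ^ 3 := by norm_num
    rw [this]
    exact mul_ne_zero (mul_ne_zero (pow_ne_zero _ h2) (pow_ne_zero _ h3))
      (mul_ne_zero (mul_ne_zero (pow_ne_zero _ h6) (pow_ne_zero _ h2)) hΔ)
  have hfw : ∀ x y, W.toAffine.Nonsingular x y →
      (shortW W.c₄ W.c₆).toAffine.Nonsingular (36 * x + 3 * W.b₂)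
        (108 * (2 * y + W.a₁ * x + W.a₃)) := fun x y h =>
    (Affine.equation_iff_nonsingular_of_Δ_ne_zero hΔ').mp
      ((short_equation_iff W h6 x y).mpr h.1)
  have hbw : ∀ X Y, (shortW W.c₄ W.c₆).toAffine.Nonsingular X Y →
      W.toAffine.Nonsingular ((X - 3 * W.b₂) / 36)
        ((Y / 108 - W.a₁ * ((X - 3 * W.b₂) / 36) - W.a₃) / 2) := fun X Y h => by
    refine (Affine.equation_iff_nonsingular_of_Δ_ne_zero hΔ).mp
      ((short_equation_iff W h6 _ _).mp ?_)
    have e1 : 36 * ((X - 3 * W.b₂) / 36) + 3 * W.b₂ = X := by field_simp; ring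
    have e2 : 108 * (2 * ((Y / 108 - W.a₁ * ((X - 3 * W.b₂) / 36) - W.a₃) / 2) +
        W.a₁ * ((X - 3 * W.b₂) / 36) + W.a₃) = Y := by field_simp; ring
    rw [e1, e2]
    exact h.1
  unfold WeierstrassCurve.card
  refine Nat.card_congr
    { toFun := fun P => match P with
        | .zero => .zero
        | .some x y h => .some _ _ (hfw x y h)
      invFun := fun P => match P with
        | .zero => .zero
        | .some X Y h => .some _ _ (hbw X Y h)
      left_inv := ?_
      right_inv := ?_ }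
  · rintro (_ | ⟨x, y, h⟩)
    · rfl
    · simp only [Affine.Point.some.injEq]
      constructor
      · field_simp; ring
      · field_simp; ring
  · rintro (_ | ⟨X, Y, h⟩)
    · rfl
    · simp only [Affine.Point.some.injEq]
      constructor
      · field_simp; ring
      · field_simp; ring

end Fermat.Agent.S52
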