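import Fermat.Agent.S52.Family
import Fermat.Agent.S52.Short

/-!
# S52 [WP-I]: the congruence `a_ℓ(W') ≡ a_ℓ(W) mod 5` for `ℓ ≥ 7`
from `card_short`, `trace_family`, `map_famC4`, `map_famC6`, `fam_rel`, `c_relation`.
-/

set_option autoImplicit false

namespace Fermat.Agent.S52

open WeierstrassCurve

theorem traceOfFrobenius_short {F : Type*} [Field F] (W : WeierstrassCurve F) (h6 : (6 : F) ≠ 0)
    (hΔ : W.Δ ≠ 0) : W.traceOfFrobenius = (shortW W.c₄ W.c₆).traceOfFrobenius := by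
  unfold WeierstrassCurve.traceOfFrobenius
  rw [card_short W h6 hΔ]

theorem cong_mod5 (W W' : WeierstrassCurve ℤ) (t : ℤ) (h4 : W'.c₄ = famC4 W.c₄ W.c₆ t)
    (h6 : W'.c₆ = famC6 W.c₄ W.c₆ t) (ℓ : ℕ) (hℓ : ℓ.Prime) (h7 : 7 ≤ ℓ)
    (hg : W.IsGoodPrimeFor ℓ) (hg' : W'.IsGoodPrimeFor ℓ) :
    (5 : ℤ) ∣ W'.apOfModel ℓ - W.apOfModel ℓ := by
  haveI : Fact ℓ.Prime := ⟨hℓ⟩
  set f : ℤ →+* ZMod ℓ := Int.castRingHom (ZMod ℓ) with hf
  have hne : ∀ n : ℕ, n.Prime → n < 7 → ((n : ℕ) : ZMod ℓ) ≠ 0 := by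
    intro n hn hlt h0
    rw [ZMod.natCast_eq_zero_iff] at h0
    have := (Nat.prime_dvd_prime_iff_eq hℓ hn).1 h0
    omega
  have h2 : (2 : ZMod ℓ) ≠ 0 := by exact_mod_cast hne 2 (by norm_num) (by norm_num)
  have h3 : (3 : ZMod ℓ) ≠ 0 := by exact_mod_cast hne 3 (by norm_num) (by norm_num)
  have h6' : (6 : ZMod ℓ) ≠ 0 := by
    have : (6 : ZMod ℓ) = 2 * 3 := by norm_num
    rw [this]; exact mul_ne_zero h2 h3
  have h1728 : (1728 : ZMod ℓ) ≠ 0 := by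
    have : (1728 : ZMod ℓ) = 6 ^ 3 * 2 ^ 3 := by norm_num
    rw [this]; exact mul_ne_zero (pow_ne_zero _ h6') (pow_ne_zero _ h2)
  have hΔ : (W.reductionMod ℓ).Δ ≠ 0 := by
    unfold WeierstrassCurve.reductionMod
    rw [WeierstrassCurve.map_Δ]
    intro h0
    exact hg ((ZMod.intCast_zmod_eq_zero_iff_dvd _ _).1 h0)
  have hΔ' : (W'.reductionMod ℓ).Δ ≠ 0 := by
    unfold WeierstrassCurve.reductionMod
    rw [WeierstrassCurve.map_Δ]
    intro h0
    exact hg' ((ZMod.intCast_zmod_eq_zero_iff_dvd _ _).1 h0)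
  have hc4 : (W.reductionMod ℓ).c₄ = f W.c₄ := by
    unfold WeierstrassCurve.reductionMod; rw [WeierstrassCurve.map_c₄]
  have hc6 : (W.reductionMod ℓ).c₆ = f W.c₆ := by
    unfold WeierstrassCurve.reductionMod; rw [WeierstrassCurve.map_c₆]
  have hc4' : (W'.reductionMod ℓ).c₄ = famC4 (f W.c₄) (f W.c₆) (f t) := by
    unfold WeierstrassCurve.reductionMod; rw [WeierstrassCurve.map_c₄, h4, map_famC4]
  have hc6' : (W'.reductionMod ℓ).c₆ = famC6 (f W.c₄) (f W.c₆) (f t) := by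
    unfold WeierstrassCurve.reductionMod; rw [WeierstrassCurve.map_c₆, h6, map_famC6]
  have hrel : f W.c₄ ^ 3 - f W.c₆ ^ 2 ≠ 0 := by
    have := (W.reductionMod ℓ).c_relation
    rw [hc4, hc6] at this
    rw [← this]
    exact mul_ne_zero h1728 hΔ
  have hD : famD (f W.c₄) (f W.c₆) (f t) ≠ 0 := by
    intro h0
    have h1 := (W'.reductionMod ℓ).c_relation
    rw [hc4', hc6', fam_rel, h0] at h1
    have : (1728 : ZMod ℓ) * (W'.reductionMod ℓ).Δ = 0 := by rw [h1]; ring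
    exact mul_ne_zero h1728 hΔ' this
  have key := trace_family ℓ h7 (f W.c₄) (f W.c₆) (f t) hrel hD
  unfold WeierstrassCurve.apOfModel
  rw [traceOfFrobenius_short _ h6' hΔ, traceOfFrobenius_short _ h6' hΔ', hc4, hc6, hc4', hc6']
  exact key

end Fermat.Agent.S52
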