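import Fermat.Agent.S52.Klein

/-!
# S52: the family `famC4, famC6, famD` in terms of Klein's icosahedral forms

`famC4_klein` takes about 4 minutes (one big `ring`).  The analogous identity for `famC6` is too
expensive for `ring`; we only prove (and only need) its square, see `CovSq.lean`.
-/

set_option autoImplicit false

namespace Fermat.Agent.S52

variable {R : Type*} [CommRing R]

set_option maxHeartbeats 40000000 in
set_option maxRecDepth 100000 in
theorem famD_klein (u v t : R) :
    kf (u + t * kfv u v) (v - t * kfu u v) = kf u v * famD (-kH u v) (kT u v) t := by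
  unfold famD famDk0 famDk1 famDk2 famDk3 famDk4 famDk5 famDk6 famDk7 famDk8 famDk9 famDk10 famDk11 famDk12 kf kfu kfv kH kT
  ring

set_option maxHeartbeats 400000000 in
set_option maxRecDepth 100000 in
theorem famC4_klein (u v t : R) :
    famC4 (-kH u v) (kT u v) t = -kH (u + t * kfv u v) (v - t * kfu u v) := by
  unfold famC4 famC4k0 famC4k1 famC4k2 famC4k3 famC4k4 famC4k5 famC4k6 famC4k7 famC4k8 famC4k9 famC4k10 famC4k11 famC4k12 famC4k13 famC4k14 famC4k15 famC4k16 famC4k17 famC4k18 famC4k19 famC4k20 kfu kfv kH kT
  ring

end Fermat.Agent.S52
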