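import Fermat.Agent.S52.Cov

/-!
# S52: `famC6` in terms of Klein's form `T`, up to sign
-/

set_option autoImplicit false

namespace Fermat.Agent.S52

variable {R : Type*} [CommRing R]

theorem famC6_klein_sq (u v t : R) :
    famC6 (-kH u v) (kT u v) t ^ 2 = kT (u + t * kfv u v) (v - t * kfu u v) ^ 2 := by
  have h1 := fam_rel (-kH u v) (kT u v) t
  have h2 := klein_rel u v
  have h3 := klein_rel (u + t * kfv u v) (v - t * kfu u v)
  rw [famD_klein] at h3
  rw [famC4_klein] at h1
  linear_combination -h1 - h3 + famD (-kH u v) (kT u v) t ^ 5 * h2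

end Fermat.Agent.S52
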