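import Fermat.Agent.S52.CovSq
import Fermat.Statements.S52

/-!
# S52: basic definitions (short model, Tate's forms for a point of order 5)
-/

set_option autoImplicit false

namespace Fermat.Agent.S52

variable {R : Type*} [CommRing R]

/-- The short Weierstrass model `y² = x³ - 27 c₄ x - 54 c₆`. -/
def shortW (c4 c6 : R) : WeierstrassCurve R := ⟨0, 0, 0, -27 * c4, -54 * c6⟩

@[simp] theorem shortW_a₁ (c4 c6 : R) : (shortW c4 c6).a₁ = 0 := rfl
@[simp] theorem shortW_a₂ (c4 c6 : R) : (shortW c4 c6).a₂ = 0 := rfl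
@[simp] theorem shortW_a₃ (c4 c6 : R) : (shortW c4 c6).a₃ = 0 := rfl
@[simp] theorem shortW_a₄ (c4 c6 : R) : (shortW c4 c6).a₄ = -27 * c4 := rfl
@[simp] theorem shortW_a₆ (c4 c6 : R) : (shortW c4 c6).a₆ = -54 * c6 := rfl

theorem shortW_c₄ (c4 c6 : R) : (shortW c4 c6).c₄ = 6 ^ 4 * c4 := by
  simp [WeierstrassCurve.c₄, WeierstrassCurve.b₂, WeierstrassCurve.b₄]; ring

theorem shortW_c₆ (c4 c6 : R) : (shortW c4 c6).c₆ = 6 ^ 6 * c6 := by
  simp [WeierstrassCurve.c₆, WeierstrassCurve.b₂, WeierstrassCurve.b₄, WeierstrassCurve.b₆]; ring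

theorem shortW_Δ (c4 c6 : R) : (shortW c4 c6).Δ = 2 ^ 6 * 3 ^ 9 * (c4 ^ 3 - c6 ^ 2) := by
  simp [WeierstrassCurve.Δ, WeierstrassCurve.b₂, WeierstrassCurve.b₄, WeierstrassCurve.b₆,
    WeierstrassCurve.b₈]; ring

theorem shortW_map {S : Type*} [CommRing S] (f : R →+* S) (c4 c6 : R) :
    (shortW c4 c6).map f = shortW (f c4) (f c6) := by
  ext <;> simp [shortW, WeierstrassCurve.map, map_ofNat]

/-- Tate: `c₄` of the universal curve with a point of order `5` (homogeneous parameters `N, M`). -/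
def tq4 (N M : R) : R := N ^ 4 - 12 * N ^ 3 * M + 14 * N ^ 2 * M ^ 2 + 12 * N * M ^ 3 + M ^ 4

/-- Tate: `c₆` of the universal curve with a point of order `5`. -/
def tq6 (N M : R) : R :=
  -(N ^ 2 + M ^ 2) * (N ^ 4 - 18 * N ^ 3 * M + 74 * N ^ 2 * M ^ 2 + 18 * N * M ^ 3 + M ^ 4)

theorem tq_rel (N M : R) :
    tq4 N M ^ 3 - tq6 N M ^ 2 = 1728 * (N ^ 5 * M ^ 5 * (N ^ 2 - 11 * N * M - M ^ 2)) := by
  unfold tq4 tq6; ring

end Fermat.Agent.S52
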