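import Mathlib

set_option autoImplicit false
set_option linter.unusedVariables false

namespace Fermat.Agent.S52

variable {R : Type*} [CommRing R]

/-- coefficient of `t^0` in `famC4` -/
def famC4k0 (c4 c6 : R) : R := c4

/-- coefficient of `t^1` in `famC4` -/
def famC4k1 (c4 c6 : R) : R := 20 * c6

/-- coefficient of `t^2` in `famC4` -/
def famC4k2 (c4 c6 : R) : R := 190 * c4^2

/-- coefficient of `t^3` in `famC4` -/
def famC4k3 (c4 c6 : R) : R := 1140 * c4 * c6

/-- coefficient of `t^4` in `famC4` -/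
def famC4k4 (c4 c6 : R) : R := (-855) * c4^3 + 5700 * c6^2

/-- coefficient of `t^5` in `famC4` -/
def famC4k5 (c4 c6 : R) : R := 15504 * c4^2 * c6

/-- coefficient of `t^6` in `famC4` -/
def famC4k6 (c4 c6 : R) : R := 102600 * c4^4 + (-63840) * c4 * c6^2

/-- coefficient of `t^7` in `famC4` -/
def famC4k7 (c4 c6 : R) : R := 259920 * c4^3 * c6 + (-182400) * c6^3

/-- coefficient of `t^8` in `famC4` -/
def famC4k8 (c4 c6 : R) : R := (-1000350) * c4^5 + 1126320 * c4^2 * c6^2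

/-- coefficient of `t^9` in `famC4` -/
def famC4k9 (c4 c6 : R) : R := (-7736040) * c4^4 * c6 + 7904000 * c4 * c6^3

/-- coefficient of `t^10` in `famC4` -/
def famC4k10 (c4 c6 : R) : R := (-10003500) * c4^6 + (-5619744) * c4^3 * c6^2 + 15808000 * c6^4

/-- coefficient of `t^11` in `famC4` -/
def famC4k11 (c4 c6 : R) : R := (-54685800) * c4^5 * c6 + 54853760 * c4^2 * c6^3

/-- coefficient of `t^12` in `famC4` -/
def famC4k12 (c4 c6 : R) : R := (-45015750) * c4^7 + 7202520 * c4^4 * c6^2 + 37939200 * c4 * c6^4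

/-- coefficient of `t^13` in `famC4` -/
def famC4k13 (c4 c6 : R) : R := (-35089200) * c4^6 * c6 + (-23201280) * c4^3 * c6^3 + 58368000 * c6^5

/-- coefficient of `t^14` in `famC4` -/
def famC4k14 (c4 c6 : R) : R := 207765000 * c4^8 + (-495188640) * c4^5 * c6^2 + 287462400 * c4^2 * c6^4

/-- coefficient of `t^15` in `famC4` -/
def famC4k15 (c4 c6 : R) : R := 415530000 * c4^7 * c6 + (-882458496) * c4^4 * c6^3 + 466944000 * c4 * c6^5

/-- coefficient of `t^16` in `famC4` -/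
def famC4k16 (c4 c6 : R) : R := (-77911875) * c4^9 + 714711600 * c4^6 * c6^2 + (-1220474880) * c4^3 * c6^4 + 583680000 * c6^6

/-- coefficient of `t^17` in `famC4` -/
def famC4k17 (c4 c6 : R) : R := 353200500 * c4^8 * c6 + (-715080960) * c4^5 * c6^3 + 361881600 * c4^2 * c6^5

/-- coefficient of `t^18` in `famC4` -/
def famC4k18 (c4 c6 : R) : R := 779118750 * c4^10 + (-2182917600) * c4^7 * c6^2 + 2026391040 * c4^4 * c6^4 + (-622592000) * c4 * c6^6

/-- coefficient of `t^19` in `famC4` -/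
def famC4k19 (c4 c6 : R) : R := 694372500 * c4^9 * c6 + (-2044414080) * c4^6 * c6^3 + 2005401600 * c4^3 * c6^5 + (-655360000) * c6^7

/-- coefficient of `t^20` in `famC4` -/
def famC4k20 (c4 c6 : R) : R := 184528125 * c4^11 + (-549301500) * c4^8 * c6^2 + 544997376 * c4^5 * c6^4 + (-180224000) * c4^2 * c6^6

def famC4 (c4 c6 t : R) : R :=
    famC4k0 c4 c6 * t^0 +
    famC4k1 c4 c6 * t^1 +
    famC4k2 c4 c6 * t^2 +
    famC4k3 c4 c6 * t^3 +
    famC4k4 c4 c6 * t^4 +
    famC4k5 c4 c6 * t^5 +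
    famC4k6 c4 c6 * t^6 +
    famC4k7 c4 c6 * t^7 +
    famC4k8 c4 c6 * t^8 +
    famC4k9 c4 c6 * t^9 +
    famC4k10 c4 c6 * t^10 +
    famC4k11 c4 c6 * t^11 +
    famC4k12 c4 c6 * t^12 +
    famC4k13 c4 c6 * t^13 +
    famC4k14 c4 c6 * t^14 +
    famC4k15 c4 c6 * t^15 +
    famC4k16 c4 c6 * t^16 +
    famC4k17 c4 c6 * t^17 +
    famC4k18 c4 c6 * t^18 +
    famC4k19 c4 c6 * t^19 +
    famC4k20 c4 c6 * t^20

/-- coefficient of `t^0` in `famC6` -/
def famC6k0 (c4 c6 : R) : R := c6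

/-- coefficient of `t^1` in `famC6` -/
def famC6k1 (c4 c6 : R) : R := 30 * c4^2

/-- coefficient of `t^2` in `famC6` -/
def famC6k2 (c4 c6 : R) : R := 435 * c4 * c6

/-- coefficient of `t^3` in `famC6` -/
def famC6k3 (c4 c6 : R) : R := 1160 * c4^3 + 2900 * c6^2

/-- coefficient of `t^4` in `famC6` -/
def famC6k4 (c4 c6 : R) : R := 27405 * c4^2 * c6

/-- coefficient of `t^5` in `famC6` -/
def famC6k5 (c4 c6 : R) : R := 95526 * c4^4 + 46980 * c4 * c6^2

/-- coefficient of `t^6` in `famC6` -/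
def famC6k6 (c4 c6 : R) : R := 437175 * c4^3 * c6 + 156600 * c6^3

/-- coefficient of `t^7` in `famC6` -/
def famC6k7 (c4 c6 : R) : R := (-1879200) * c4^5 + 3915000 * c4^2 * c6^2

/-- coefficient of `t^8` in `famC6` -/
def famC6k8 (c4 c6 : R) : R := (-8554275) * c4^4 * c6 + 14407200 * c4 * c6^3

/-- coefficient of `t^9` in `famC6` -/
def famC6k9 (c4 c6 : R) : R := 24312150 * c4^6 + (-42021000) * c4^3 * c6^2 + 32016000 * c6^4

/-- coefficient of `t^10` in `famC6` -/
def famC6k10 (c4 c6 : R) : R := 246633255 * c4^5 * c6 + (-216588240) * c4^2 * c6^3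

/-- coefficient of `t^11` in `famC6` -/
def famC6k11 (c4 c6 : R) : R := 162081000 * c4^7 + 1352475900 * c4^4 * c6^2 + (-1459929600) * c4 * c6^4

/-- coefficient of `t^12` in `famC6` -/
def famC6k12 (c4 c6 : R) : R := 4131714825 * c4^6 * c6 + (-1612005600) * c4^3 * c6^3 + (-2433216000) * c6^5

/-- coefficient of `t^13` in `famC6` -/
def famC6k13 (c4 c6 : R) : R := 6928962750 * c4^8 + 5235216300 * c4^5 * c6^2 + (-12044419200) * c4^2 * c6^4

/-- coefficient of `t^14` in `famC6` -/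
def famC6k14 (c4 c6 : R) : R := 43190534475 * c4^7 * c6 + (-43045111800) * c4^4 * c6^3

/-- coefficient of `t^15` in `famC6` -/
def famC6k15 (c4 c6 : R) : R := 79575287760 * c4^6 * c6^2 + (-79420170240) * c4^3 * c6^4

/-- coefficient of `t^16` in `famC6` -/
def famC6k16 (c4 c6 : R) : R := (-176688550125) * c4^8 * c6 + 474659611200 * c4^5 * c6^3 + (-297825638400) * c4^2 * c6^5

/-- coefficient of `t^17` in `famC6` -/
def famC6k17 (c4 c6 : R) : R := (-311803323750) * c4^10 + 77604382800 * c4^7 * c6^2 + 935084908800 * c4^4 * c6^4 + (-700766208000) * c4 * c6^6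

/-- coefficient of `t^18` in `famC6` -/
def famC6k18 (c4 c6 : R) : R := (-1694131392375) * c4^9 * c6 + 2776512362400 * c4^6 * c6^3 + (-303665356800) * c4^3 * c6^5 + (-778629120000) * c6^7

/-- coefficient of `t^19` in `famC6` -/
def famC6k19 (c4 c6 : R) : R := (-328214025000) * c4^11 + (-3481840250100) * c4^8 * c6^2 + 8100765158400 * c4^5 * c6^4 + (-4290656256000) * c4^2 * c6^6

/-- coefficient of `t^20` in `famC6` -/
def famC6k20 (c4 c6 : R) : R := (-2874607835625) * c4^10 * c6 + 2424887357760 * c4^7 * c6^3 + 3892110842880 * c4^4 * c6^5 + (-3442360320000) * c4 * c6^7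

/-- coefficient of `t^21` in `famC6` -/
def famC6k21 (c4 c6 : R) : R := (-2215444668750) * c4^12 + 3077188825500 * c4^9 * c6^2 + (-2709129888000) * c4^6 * c6^4 + 5125838438400 * c4^3 * c6^6 + (-3278438400000) * c6^8

/-- coefficient of `t^22` in `famC6` -/
def famC6k22 (c4 c6 : R) : R := (-1403114956875) * c4^11 * c6 + (-1724509423800) * c4^8 * c6^3 + 7701051801600 * c4^5 * c6^5 + (-4573421568000) * c4^2 * c6^7

/-- coefficient of `t^23` in `famC6` -/
def famC6k23 (c4 c6 : R) : R := 7705894500000 * c4^13 + (-33414470973000) * c4^10 * c6^2 + 49888700928000 * c4^7 * c6^4 + (-30337884979200) * c4^4 * c6^6 + 6157762560000 * c4 * c6^8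

/-- coefficient of `t^24` in `famC6` -/
def famC6k24 (c4 c6 : R) : R := 5089101159375 * c4^12 * c6 + (-22687218914400) * c4^9 * c6^3 + 35246094796800 * c4^6 * c6^5 + (-22779445248000) * c4^3 * c6^7 + 5131468800000 * c6^9

/-- coefficient of `t^25` in `famC6` -/
def famC6k25 (c4 c6 : R) : R := (-17627233668750) * c4^14 + 70097953635000 * c4^11 * c6^2 + (-105528606261120) * c4^8 * c6^4 + 71274600677376 * c4^5 * c6^6 + (-18216714240000) * c4^2 * c6^8

/-- coefficient of `t^26` in `famC6` -/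
def famC6k26 (c4 c6 : R) : R := (-40985726371875) * c4^13 * c6 + 163672057566000 * c4^10 * c6^3 + (-245438120632320) * c4^7 * c6^5 + 163803539865600 * c4^4 * c6^7 + (-41051750400000) * c4 * c6^9

/-- coefficient of `t^27` in `famC6` -/
def famC6k27 (c4 c6 : R) : R := (-9632368125000) * c4^15 + 8104032382500 * c4^12 * c6^2 + 63806176396800 * c4^9 * c6^4 + (-143803576074240) * c4^6 * c6^6 + 111934439424000 * c4^3 * c6^8 + (-30408704000000) * c6^10

/-- coefficient of `t^28` in `famC6` -/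
def famC6k28 (c4 c6 : R) : R := (-21432019078125) * c4^14 * c6 + 85719228804000 * c4^11 * c6^3 + (-128580522647040) * c4^8 * c6^5 + 85731449241600 * c4^5 * c6^7 + (-21438136320000) * c4^2 * c6^9

/-- coefficient of `t^29` in `famC6` -/
def famC6k29 (c4 c6 : R) : R := (-11210083593750) * c4^16 + 49873523512500 * c4^13 * c6^2 + (-87394892457600) * c4^10 * c6^4 + 75042714746880 * c4^7 * c6^6 + (-31344427008000) * c4^4 * c6^8 + 5033164800000 * c4 * c6^10

/-- coefficient of `t^30` in `famC6` -/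
def famC6k30 (c4 c6 : R) : R := (-4110363984375) * c4^15 * c6 + 19796866155000 * c4^12 * c6^3 + (-38083944628224) * c4^9 * c6^5 + 36574189977600 * c4^6 * c6^7 + (-17532190720000) * c4^3 * c6^9 + 3355443200000 * c6^11

def famC6 (c4 c6 t : R) : R :=
    famC6k0 c4 c6 * t^0 +
    famC6k1 c4 c6 * t^1 +
    famC6k2 c4 c6 * t^2 +
    famC6k3 c4 c6 * t^3 +
    famC6k4 c4 c6 * t^4 +
    famC6k5 c4 c6 * t^5 +
    famC6k6 c4 c6 * t^6 +
    famC6k7 c4 c6 * t^7 +
    famC6k8 c4 c6 * t^8 +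
    famC6k9 c4 c6 * t^9 +
    famC6k10 c4 c6 * t^10 +
    famC6k11 c4 c6 * t^11 +
    famC6k12 c4 c6 * t^12 +
    famC6k13 c4 c6 * t^13 +
    famC6k14 c4 c6 * t^14 +
    famC6k15 c4 c6 * t^15 +
    famC6k16 c4 c6 * t^16 +
    famC6k17 c4 c6 * t^17 +
    famC6k18 c4 c6 * t^18 +
    famC6k19 c4 c6 * t^19 +
    famC6k20 c4 c6 * t^20 +
    famC6k21 c4 c6 * t^21 +
    famC6k22 c4 c6 * t^22 +
    famC6k23 c4 c6 * t^23 +
    famC6k24 c4 c6 * t^24 +
    famC6k25 c4 c6 * t^25 +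
    famC6k26 c4 c6 * t^26 +
    famC6k27 c4 c6 * t^27 +
    famC6k28 c4 c6 * t^28 +
    famC6k29 c4 c6 * t^29 +
    famC6k30 c4 c6 * t^30

/-- coefficient of `t^0` in `famD` -/
def famDk0 (c4 c6 : R) : R := 1

/-- coefficient of `t^1` in `famD` -/
def famDk1 (c4 c6 : R) : R := 0

/-- coefficient of `t^2` in `famD` -/
def famDk2 (c4 c6 : R) : R := (-66) * c4

/-- coefficient of `t^3` in `famD` -/
def famDk3 (c4 c6 : R) : R := (-440) * c6

/-- coefficient of `t^4` in `famD` -/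
def famDk4 (c4 c6 : R) : R := (-1485) * c4^2

/-- coefficient of `t^5` in `famD` -/
def famDk5 (c4 c6 : R) : R := (-3168) * c4 * c6

/-- coefficient of `t^6` in `famD` -/
def famDk6 (c4 c6 : R) : R := 5940 * c4^3 + (-10560) * c6^2

/-- coefficient of `t^7` in `famD` -/
def famDk7 (c4 c6 : R) : R := (-4752) * c4^2 * c6

/-- coefficient of `t^8` in `famD` -/
def famDk8 (c4 c6 : R) : R := (-66825) * c4^4 + 63360 * c4 * c6^2

/-- coefficient of `t^9` in `famD` -/
def famDk9 (c4 c6 : R) : R := (-142560) * c4^3 * c6 + 140800 * c6^3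

/-- coefficient of `t^10` in `famD` -/
def famDk10 (c4 c6 : R) : R := (-133650) * c4^5 + 133056 * c4^2 * c6^2

/-- coefficient of `t^11` in `famD` -/
def famDk11 (c4 c6 : R) : R := (-61560) * c4^4 * c6 + 61440 * c4 * c6^3

/-- coefficient of `t^12` in `famD` -/
def famDk12 (c4 c6 : R) : R := 91125 * c4^6 + (-193536) * c4^3 * c6^2 + 102400 * c6^4

def famD (c4 c6 t : R) : R :=
    famDk0 c4 c6 * t^0 +
    famDk1 c4 c6 * t^1 +
    famDk2 c4 c6 * t^2 +
    famDk3 c4 c6 * t^3 +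
    famDk4 c4 c6 * t^4 +
    famDk5 c4 c6 * t^5 +
    famDk6 c4 c6 * t^6 +
    famDk7 c4 c6 * t^7 +
    famDk8 c4 c6 * t^8 +
    famDk9 c4 c6 * t^9 +
    famDk10 c4 c6 * t^10 +
    famDk11 c4 c6 * t^11 +
    famDk12 c4 c6 * t^12


set_option maxHeartbeats 4000000 in
theorem fam_rel (c4 c6 t : R) :
    famC4 c4 c6 t ^ 3 - famC6 c4 c6 t ^ 2 = (c4 ^ 3 - c6 ^ 2) * famD c4 c6 t ^ 5 := by
  unfold famC4 famC6 famD famC4k0 famC4k1 famC4k2 famC4k3 famC4k4 famC4k5 famC4k6 famC4k7 famC4k8 famC4k9 famC4k10 famC4k11 famC4k12 famC4k13 famC4k14 famC4k15 famC4k16 famC4k17 famC4k18 famC4k19 famC4k20 famC6k0 famC6k1 famC6k2 famC6k3 famC6k4 famC6k5 famC6k6 famC6k7 famC6k8 famC6k9 famC6k10 famC6k11 famC6k12 famC6k13 famC6k14 famC6k15 famC6k16 famC6k17 famC6k18 famC6k19 famC6k20 famC6k21 famC6k22 famC6k23 famC6k24 famC6k25 famC6k26 famC6k27 famC6k28 famC6k29 famC6k30 famDk0 famDk1 famDk2 famDk3 famDk4 famDk5 famDk6 famDk7 famDk8 famDk9 famDk10 famDk11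 famDk12
  ring

end Fermat.Agent.S52
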