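import Fermat.Agent.S52.Defs

/-!
# S52 [WP-A]: API for the family `famC4, famC6, famD`
(compatibility with ring homs, value at `t = 0`, congruences in `t`, polynomial forms)
-/

set_option autoImplicit false
set_option linter.unusedSimpArgs false

namespace Fermat.Agent.S52

open Polynomial

variable {R S : Type*} [CommRing R] [CommRing S]

set_option maxHeartbeats 4000000 in
theorem map_famC4 (f : R →+* S) (c4 c6 t : R) :
    f (famC4 c4 c6 t) = famC4 (f c4) (f c6) (f t) := by
  simp only [famC4, famC4k0, famC4k1, famC4k2, famC4k3, famC4k4, famC4k5, famC4k6, famC4k7, famC4k8, famC4k9, famC4k10, famC4k11, famC4k12, famC4k13, famC4k14, famC4k15, famC4k16, famC4k17, famC4k18, famC4k19, famC4k20, map_add, map_mul, map_pow, map_neg, map_ofNat, map_one, map_zero]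

set_option maxHeartbeats 4000000 in
theorem map_famC6 (f : R →+* S) (c4 c6 t : R) :
    f (famC6 c4 c6 t) = famC6 (f c4) (f c6) (f t) := by
  simp only [famC6, famC6k0, famC6k1, famC6k2, famC6k3, famC6k4, famC6k5, famC6k6, famC6k7, famC6k8, famC6k9, famC6k10, famC6k11, famC6k12, famC6k13, famC6k14, famC6k15, famC6k16, famC6k17, famC6k18, famC6k19, famC6k20, famC6k21, famC6k22, famC6k23, famC6k24, famC6k25, famC6k26, famC6k27, famC6k28, famC6k29, famC6k30, map_add, map_mul, map_pow, map_neg, map_ofNat, map_one, map_zero]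

set_option maxHeartbeats 4000000 in
theorem map_famD (f : R →+* S) (c4 c6 t : R) :
    f (famD c4 c6 t) = famD (f c4) (f c6) (f t) := by
  simp only [famD, famDk0, famDk1, famDk2, famDk3, famDk4, famDk5, famDk6, famDk7, famDk8, famDk9, famDk10, famDk11, famDk12, map_add, map_mul, map_pow, map_neg, map_ofNat, map_one, map_zero]

theorem famC4_zero (c4 c6 : R) : famC4 c4 c6 0 = c4 := by
  simp [famC4, famC4k0]

theorem famC6_zero (c4 c6 : R) : famC6 c4 c6 0 = c6 := by
  simp [famC6, famC6k0]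

theorem famD_zero (c4 c6 : R) : famD c4 c6 0 = 1 := by
  simp [famD, famDk0]

/-- `famC4 c4 c6` as a polynomial in `t`. -/
noncomputable def famC4Poly (c4 c6 : R) : R[X] := famC4 (C c4) (C c6) X

/-- `famC6 c4 c6` as a polynomial in `t`. -/
noncomputable def famC6Poly (c4 c6 : R) : R[X] := famC6 (C c4) (C c6) X

/-- `famD c4 c6` as a polynomial in `t`. -/
noncomputable def famDPoly (c4 c6 : R) : R[X] := famD (C c4) (C c6) X

theorem eval_famC4Poly (c4 c6 t : R) : (famC4Poly c4 c6).eval t = famC4 c4 c6 t := by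
  have := map_famC4 (evalRingHom t) (C c4) (C c6) X
  simpa [famC4Poly] using this

theorem eval_famC6Poly (c4 c6 t : R) : (famC6Poly c4 c6).eval t = famC6 c4 c6 t := by
  have := map_famC6 (evalRingHom t) (C c4) (C c6) X
  simpa [famC6Poly] using this

theorem eval_famDPoly (c4 c6 t : R) : (famDPoly c4 c6).eval t = famD c4 c6 t := by
  have := map_famD (evalRingHom t) (C c4) (C c6) X
  simpa [famDPoly] using this

theorem aeval_famC6Poly {A : Type*} [CommRing A] [Algebra R A] (c4 c6 : R) (θ : A) :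
    aeval θ (famC6Poly c4 c6) = famC6 (algebraMap R A c4) (algebraMap R A c6) θ := by
  have := map_famC6 (aeval θ : R[X] →ₐ[R] A).toRingHom (C c4) (C c6) X
  simpa [famC6Poly] using this

theorem sub_dvd_famC4 (c4 c6 t t' : R) : t - t' ∣ famC4 c4 c6 t - famC4 c4 c6 t' := by
  rw [← eval_famC4Poly, ← eval_famC4Poly]
  exact sub_dvd_eval_sub t t' _

theorem sub_dvd_famC6 (c4 c6 t t' : R) : t - t' ∣ famC6 c4 c6 t - famC6 c4 c6 t' := by
  rw [← eval_famC6Poly, ← eval_famC6Poly]
  exact sub_dvd_eval_sub t t' _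

theorem sub_dvd_famD (c4 c6 t t' : R) : t - t' ∣ famD c4 c6 t - famD c4 c6 t' := by
  rw [← eval_famDPoly, ← eval_famDPoly]
  exact sub_dvd_eval_sub t t' _

/-- `t ∣ famC4 c4 c6 t - c4`. -/
theorem dvd_famC4_sub (c4 c6 t : R) : t ∣ famC4 c4 c6 t - c4 := by
  simpa [famC4_zero] using sub_dvd_famC4 c4 c6 t 0

theorem dvd_famC6_sub (c4 c6 t : R) : t ∣ famC6 c4 c6 t - c6 := by
  simpa [famC6_zero] using sub_dvd_famC6 c4 c6 t 0

theorem dvd_famD_sub (c4 c6 t : R) : t ∣ famD c4 c6 t - 1 := by
  simpa [famD_zero] using sub_dvd_famD c4 c6 t 0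

end Fermat.Agent.S52
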