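import Fermat.Agent.S52.Tate5

/-!
# S52 [WP-D]: from Klein's `(u,v)` to Tate's `(N,M)`

`ρ² + 11ρ - 1 = 0`, `g² = 11ρ + 123`, `N = g (u⁵ - ρ v⁵)/5`, `M = g (ρ u⁵ + v⁵)/5`.
-/

set_option autoImplicit false

namespace Fermat.Agent.S52

variable {K : Type*} [Field K]

/-- Tate's parameter `N`. -/
def kN (ρ g u v : K) : K := g * (u ^ 5 - ρ * v ^ 5) / 5

/-- Tate's parameter `M`. -/
def kM (ρ g u v : K) : K := g * (ρ * u ^ 5 + v ^ 5) / 5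

theorem tq4_scale (c a b : K) : tq4 (c * a) (c * b) = c ^ 4 * tq4 a b := by
  unfold tq4; ring

theorem tq6_scale (c a b : K) : tq6 (c * a) (c * b) = c ^ 6 * tq6 a b := by
  unfold tq6; ring

theorem tq4_klein_aux {ρ : K} (hρ : ρ ^ 2 + 11 * ρ - 1 = 0) (u v : K) :
    (11 * ρ + 123) ^ 2 * tq4 (u ^ 5 - ρ * v ^ 5) (ρ * u ^ 5 + v ^ 5) = 625 * -kH u v := by
  unfold tq4 kH
  linear_combination
    ((121)*ρ^4*(u^5)^4 + (-1452)*ρ^4*(u^5)^3*(v^5) + (1694)*ρ^4*(u^5)^2*(v^5)^2 +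
      (1452)*ρ^4*(u^5)*(v^5)^3 + (121)*ρ^4*(v^5)^4 + (2827)*ρ^3*(u^5)^4 +
      (-19404)*ρ^3*(u^5)^3*(v^5) + (10538)*ρ^3*(u^5)^2*(v^5)^2 + (19404)*ρ^3*(u^5)*(v^5)^3 +
      (2827)*ρ^3*(v^5)^4 + (18319)*ρ^2*(u^5)^4 + (-25788)*ρ^2*(u^5)^3*(v^5) +
      (-102574)*ρ^2*(u^5)^2*(v^5)^2 + (25788)*ρ^2*(u^5)*(v^5)^3 + (18319)*ρ^2*(v^5)^4 +
      (19298)*ρ*(u^5)^4 + (98904)*ρ*(u^5)^3*(v^5) + (-60788)*ρ*(u^5)^2*(v^5)^2 +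
      (-98904)*ρ*(u^5)*(v^5)^3 + (19298)*ρ*(v^5)^4 + (-14504)*(u^5)^4 +
      (39048)*(u^5)^3*(v^5) + (96944)*(u^5)^2*(v^5)^2 + (-39048)*(u^5)*(v^5)^3 +
      (-14504)*(v^5)^4) * hρ

theorem tq6_klein_aux {ρ : K} (hρ : ρ ^ 2 + 11 * ρ - 1 = 0) (u v : K) :
    (11 * ρ + 123) ^ 3 * tq6 (u ^ 5 - ρ * v ^ 5) (ρ * u ^ 5 + v ^ 5) = 15625 * kT u v := by
  unfold tq6 kT
  linear_combination
    ((-1331)*ρ^7*(u^5)^6 + (23958)*ρ^7*(u^5)^5*(v^5) + (-99825)*ρ^7*(u^5)^4*(v^5)^2 +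
      (-99825)*ρ^7*(u^5)^2*(v^5)^4 + (-23958)*ρ^7*(u^5)*(v^5)^5 + (-1331)*ρ^7*(v^5)^6 +
      (-53966)*ρ^6*(u^5)^6 + (731808)*ρ^6*(u^5)^5*(v^5) + (-2130810)*ρ^6*(u^5)^4*(v^5)^2 +
      (-2130810)*ρ^6*(u^5)^2*(v^5)^4 + (-731808)*ρ^6*(u^5)*(v^5)^5 + (-53966)*ρ^6*(v^5)^6 +
      (-810469)*ρ^5*(u^5)^6 + (7270362)*ρ^5*(u^5)^5*(v^5) + (-9907095)*ρ^5*(u^5)^4*(v^5)^2 +
      (-9907095)*ρ^5*(u^5)^2*(v^5)^4 + (-7270362)*ρ^5*(u^5)*(v^5)^5 + (-810469)*ρ^5*(v^5)^6 +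
      (-5334975)*ρ^4*(u^5)^6 + (22128030)*ρ^4*(u^5)^5*(v^5) + (18242955)*ρ^4*(u^5)^4*(v^5)^2 +
      (18242955)*ρ^4*(u^5)^2*(v^5)^4 + (-22128030)*ρ^4*(u^5)*(v^5)^5 +
      (-5334975)*ρ^4*(v^5)^6 + (-13165450)*ρ^3*(u^5)^6 + (-13226040)*ρ^3*(u^5)^5*(v^5) +
      (24477810)*ρ^3*(u^5)^4*(v^5)^2 + (24477810)*ρ^3*(u^5)^2*(v^5)^4 +
      (13226040)*ρ^3*(u^5)*(v^5)^5 + (-13165450)*ρ^3*(v^5)^6 + (-3404767)*ρ^2*(u^5)^6 +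
      (-4073634)*ρ^2*(u^5)^5*(v^5) + (6111915)*ρ^2*(u^5)^4*(v^5)^2 +
      (6111915)*ρ^2*(u^5)^2*(v^5)^4 + (4073634)*ρ^2*(u^5)*(v^5)^5 + (-3404767)*ρ^2*(v^5)^6 +
      (-12354937)*ρ*(u^5)^6 + (-19754694)*ρ*(u^5)^5*(v^5) + (20528205)*ρ*(u^5)^4*(v^5)^2 +
      (20528205)*ρ*(u^5)^2*(v^5)^4 + (19754694)*ρ*(u^5)*(v^5)^5 + (-12354937)*ρ*(v^5)^6 +
      (1876492)*(u^5)^6 + (-25339356)*(u^5)^5*(v^5) + (-16763100)*(u^5)^4*(v^5)^2 +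
      (-16763100)*(u^5)^2*(v^5)^4 + (25339356)*(u^5)*(v^5)^5 + (1876492)*(v^5)^6) * hρ

theorem tq4_klein (h5 : (5 : K) ≠ 0) {ρ g : K} (hρ : ρ ^ 2 + 11 * ρ - 1 = 0)
    (hg : g ^ 2 = 11 * ρ + 123) (u v : K) : tq4 (kN ρ g u v) (kM ρ g u v) = -kH u v := by
  have e1 : kN ρ g u v = (g / 5) * (u ^ 5 - ρ * v ^ 5) := by unfold kN; ring
  have e2 : kM ρ g u v = (g / 5) * (ρ * u ^ 5 + v ^ 5) := by unfold kM; ring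
  have h625 : (625 : K) ≠ 0 := by
    have : (625 : K) = 5 ^ 4 := by norm_num
    rw [this]; exact pow_ne_zero 4 h5
  rw [e1, e2, tq4_scale]
  apply mul_left_cancel₀ h625
  rw [← tq4_klein_aux hρ u v, ← hg]
  field_simp
  ring

theorem tq6_klein (h5 : (5 : K) ≠ 0) {ρ g : K} (hρ : ρ ^ 2 + 11 * ρ - 1 = 0)
    (hg : g ^ 2 = 11 * ρ + 123) (u v : K) : tq6 (kN ρ g u v) (kM ρ g u v) = kT u v := by
  have e1 : kN ρ g u v = (g / 5) * (u ^ 5 - ρ * v ^ 5) := by unfold kN; ring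
  have e2 : kM ρ g u v = (g / 5) * (ρ * u ^ 5 + v ^ 5) := by unfold kM; ring
  have h15625 : (15625 : K) ≠ 0 := by
    have : (15625 : K) = 5 ^ 6 := by norm_num
    rw [this]; exact pow_ne_zero 6 h5
  rw [e1, e2, tq6_scale]
  apply mul_left_cancel₀ h15625
  rw [← tq6_klein_aux hρ u v, ← hg]
  field_simp
  ring

/-- `u⁵` and `v⁵` are recovered from `N, M`. -/
theorem u5_eq (h5 : (5 : K) ≠ 0) {ρ g : K} (hρ : ρ ^ 2 + 11 * ρ - 1 = 0) (u v : K) :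
    g * (2 - 11 * ρ) * u ^ 5 = 5 * (kN ρ g u v + ρ * kM ρ g u v) := by
  unfold kN kM
  field_simp
  linear_combination (-(g * u ^ 5)) * hρ

theorem v5_eq (h5 : (5 : K) ≠ 0) {ρ g : K} (hρ : ρ ^ 2 + 11 * ρ - 1 = 0) (u v : K) :
    g * (2 - 11 * ρ) * v ^ 5 = 5 * (kM ρ g u v - ρ * kN ρ g u v) := by
  unfold kN kM
  field_simp
  linear_combination (-(g * v ^ 5)) * hρ

/-- `g (2 - 11ρ) ≠ 0` : `(2 - 11ρ)(11ρ + 123) = 125`. -/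
theorem g_mul_ne_zero (h5 : (5 : K) ≠ 0) {ρ g : K} (hρ : ρ ^ 2 + 11 * ρ - 1 = 0)
    (hg : g ^ 2 = 11 * ρ + 123) : g * (2 - 11 * ρ) ≠ 0 := by
  intro h
  have h125 : (125 : K) = 0 := by
    have : (125 : K) = (g * (2 - 11 * ρ)) * g + 121 * (ρ ^ 2 + 11 * ρ - 1) := by
      linear_combination (-(2 - 11 * ρ)) * hg
    rw [this, h, hρ]; ring
  have : (125 : K) = 5 ^ 3 := by norm_num
  rw [this] at h125
  exact h5 (pow_eq_zero_iff (by norm_num) |>.1 h125)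

/-- **Sign-free version**: if `c4 = -H(u,v)` and `c6² = T(u,v)²` there are Tate parameters for
`(c4, c6)` (replace `(N,M)` by `(iN, iM)` if `c6 = -T(u,v)`). -/
theorem exists_NM (h5 : (5 : K) ≠ 0) {ρ g i : K} (hρ : ρ ^ 2 + 11 * ρ - 1 = 0)
    (hg : g ^ 2 = 11 * ρ + 123) (hi : i ^ 2 = -1) (u v c4 c6 : K) (h4 : c4 = -kH u v)
    (h6 : c6 ^ 2 = kT u v ^ 2) : ∃ N M : K, c4 = tq4 N M ∧ c6 = tq6 N M := by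
  rcases sq_eq_sq_iff_eq_or_eq_neg.1 h6 with h | h
  · exact ⟨kN ρ g u v, kM ρ g u v, by rw [tq4_klein h5 hρ hg, h4], by rw [tq6_klein h5 hρ hg, h]⟩
  · refine ⟨i * kN ρ g u v, i * kM ρ g u v, ?_, ?_⟩
    · rw [tq4_scale, tq4_klein h5 hρ hg, h4]
      have : i ^ 4 = 1 := by
        have : i ^ 4 = (i ^ 2) ^ 2 := by ring
        rw [this, hi]; ring
      rw [this, one_mul]
    · rw [tq6_scale, tq6_klein h5 hρ hg, h]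
      have : i ^ 6 = -1 := by
        have : i ^ 6 = (i ^ 2) ^ 3 := by ring
        rw [this, hi]; ring
      rw [this]; ring

end Fermat.Agent.S52
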