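import Fermat.Agent.S52.Defs
import Fermat.Agent.S05.Formulas

/-!
# S52 [WP-F]: a ring endomorphism fixing the coefficients acts on the points

(copy the proof of Mathlib's `WeierstrassCurve.Affine.Point.map` with `map_slope`, `map_addX`,
`map_addY`, `map_negY`, `map_nonsingular` instead of the `baseChange_` lemmas.)
-/

set_option autoImplicit false

namespace Fermat.Agent.S52

open WeierstrassCurve WeierstrassCurve.Affine Fermat.Agent.S05

variable {K : Type*} [Field K] [DecidableEq K]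

theorem exists_pointMap (W : WeierstrassCurve.Affine K) (σ : K →+* K) (hW : W.map σ = W) :
    ∃ s : W.Point →+ W.Point, ∀ P : W.Point, P ≠ 0 →
      s P ≠ 0 ∧ xc (s P) = σ (xc P) ∧ yc (s P) = σ (yc P) := by
  have hns : ∀ x y, W.Nonsingular x y → W.Nonsingular (σ x) (σ y) := by
    intro x y h
    have := (W.map_nonsingular σ.injective x y).mpr h
    rwa [hW] at this
  have hneg : ∀ x y, W.negY (σ x) (σ y) = σ (W.negY x y) := by
    intro x y
    have := W.map_negY σ x y
    rwa [hW] at this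
  have hslope : ∀ x₁ x₂ y₁ y₂, W.slope (σ x₁) (σ x₂) (σ y₁) (σ y₂) = σ (W.slope x₁ x₂ y₁ y₂) := by
    intro x₁ x₂ y₁ y₂
    have := W.map_slope σ x₁ x₂ y₁ y₂
    rwa [hW] at this
  have haddX : ∀ x₁ x₂ l, W.addX (σ x₁) (σ x₂) (σ l) = σ (W.addX x₁ x₂ l) := by
    intro x₁ x₂ l
    have := W.map_addX σ x₁ x₂ l
    rwa [hW] at this
  have haddY : ∀ x₁ x₂ y₁ l, W.addY (σ x₁) (σ x₂) (σ y₁) (σ l) = σ (W.addY x₁ x₂ y₁ l) := by
    intro x₁ x₂ y₁ l
    have := W.map_addY σ x₁ y₁ x₂ l
    rwa [hW] at this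
  let s : W.Point →+ W.Point :=
    { toFun := fun P => match P with
        | 0 => 0
        | .some x y h => .some (σ x) (σ y) (hns x y h)
      map_zero' := rfl
      map_add' := by
        rintro (_ | ⟨x₁, y₁, h₁⟩) (_ | ⟨x₂, y₂, h₂⟩)
        any_goals rfl
        by_cases hxy : x₁ = x₂ ∧ y₁ = W.negY x₂ y₂
        · rw [Point.add_of_Y_eq hxy.left hxy.right]
          exact (Point.add_of_Y_eq (congr_arg _ hxy.left) (by rw [hxy.right, hneg])).symm
        · rw [Point.add_some hxy]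
          have h' : ¬ (σ x₁ = σ x₂ ∧ σ y₁ = W.negY (σ x₂) (σ y₂)) := fun h =>
            hxy ⟨σ.injective h.1, σ.injective (by rw [h.2, hneg])⟩
          refine Eq.trans ?_ (Point.add_some h').symm
          simp only [hslope, haddX, haddY] }
  refine ⟨s, ?_⟩
  rintro (_ | ⟨x, y, h⟩) hP
  · exact absurd rfl hP
  · exact ⟨Point.some_ne_zero _, rfl, rfl⟩

end Fermat.Agent.S52
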