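import Fermat.Agent.S52.Defs
import Fermat.Agent.HW.Red

/-!
# S52 [WP-E]: specialisation `t ↦ a` on `RatFunc k`

The valuation subring of `RatFunc k` of functions regular at `a`, the evaluation hom, and the
coefficientwise extension of a ring hom `f : k →+* k` (Frobenius).
-/

set_option autoImplicit false

namespace Fermat.Agent.S52

open Polynomial nonZeroDivisors

variable (k : Type*) [Field k]

/-- rational functions regular at `a`. -/
noncomputable def evalVS (a : k) : ValuationSubring (RatFunc k) where
  carrier := {r | r.denom.eval a ≠ 0}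
  mul_mem' := by
    intro x y hx hy h
    have := Polynomial.eval_eq_zero_of_dvd_of_eval_eq_zero (RatFunc.denom_mul_dvd x y) h
    rw [Polynomial.eval_mul] at this
    rcases mul_eq_zero.mp this with h | h
    · exact hx h
    · exact hy h
  one_mem' := by simp
  add_mem' := by
    intro x y hx hy h
    have := Polynomial.eval_eq_zero_of_dvd_of_eval_eq_zero (RatFunc.denom_add_dvd x y) h
    rw [Polynomial.eval_mul] at this
    rcases mul_eq_zero.mp this with h | h
    · exact hx h
    · exact hy h
  zero_mem' := by simp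
  neg_mem' := by
    intro x hx h
    have h1 : (-x).denom ∣ x.denom := by
      rw [RatFunc.denom_dvd x.denom_ne_zero]
      refine ⟨-x.num, ?_⟩
      rw [map_neg, neg_div, RatFunc.num_div_denom]
    exact hx (Polynomial.eval_eq_zero_of_dvd_of_eval_eq_zero h1 h)
  mem_or_inv_mem' := by
    intro x
    by_cases hx : x.denom.eval a = 0
    · right
      have hx0 : x ≠ 0 := by
        rintro rfl
        simp at hx
      intro h
      have h1 := Polynomial.eval_eq_zero_of_dvd_of_eval_eq_zero (RatFunc.denom_inv_dvd hx0) h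
      obtain ⟨u, v, huv⟩ := RatFunc.isCoprime_num_denom x
      have := congrArg (Polynomial.eval a) huv
      simp [h1, hx] at this
    · exact Or.inl hx

theorem mem_evalVS_iff (a : k) (r : RatFunc k) : r ∈ evalVS k a ↔ r.denom.eval a ≠ 0 := Iff.rfl

/-- evaluation at `a`. -/
noncomputable def evalHom (a : k) : evalVS k a →+* k where
  toFun r := RatFunc.eval (RingHom.id k) a (r : RatFunc k)
  map_one' := by simp
  map_mul' := by
    intro x y
    exact RatFunc.eval_mul (RingHom.id k) a
      (by rw [Polynomial.eval₂_id]; exact (mem_evalVS_iff k a _).mp x.2)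
      (by rw [Polynomial.eval₂_id]; exact (mem_evalVS_iff k a _).mp y.2)
  map_zero' := by simp
  map_add' := by
    intro x y
    exact RatFunc.eval_add (RingHom.id k) a
      (by rw [Polynomial.eval₂_id]; exact (mem_evalVS_iff k a _).mp x.2)
      (by rw [Polynomial.eval₂_id]; exact (mem_evalVS_iff k a _).mp y.2)

theorem evalHom_apply (a : k) (r : evalVS k a) :
    evalHom k a r = (r : RatFunc k).num.eval a / (r : RatFunc k).denom.eval a := by
  show RatFunc.eval (RingHom.id k) a (r : RatFunc k) = _
  simp [RatFunc.eval, Polynomial.eval₂_id]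

theorem evalHom_isResidueMap (a : k) : HW.IsResidueMap (evalHom k a) := by
  intro x
  rw [← ValuationSubring.valuation_lt_one_iff, IsLocalRing.mem_maximalIdeal, mem_nonunits_iff]
  constructor
  · intro h hu
    exact (hu.map (evalHom k a)).ne_zero h
  · intro h
    by_contra h0
    apply h
    rw [evalHom_apply] at h0
    have hn : (x : RatFunc k).num.eval a ≠ 0 := fun h' => h0 (by rw [h', zero_div])
    have hx0 : (x : RatFunc k) ≠ 0 := by
      intro h'
      rw [h'] at hn
      simp at hn
    have hinv : (x : RatFunc k)⁻¹ ∈ evalVS k a := by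
      intro h'
      exact hn (Polynomial.eval_eq_zero_of_dvd_of_eval_eq_zero (RatFunc.denom_inv_dvd hx0) h')
    refine IsUnit.of_mul_eq_one ⟨_, hinv⟩ ?_
    ext
    exact mul_inv_cancel₀ hx0

theorem algebraMap_mem_evalVS (a : k) (p : k[X]) :
    algebraMap k[X] (RatFunc k) p ∈ evalVS k a := by
  rw [mem_evalVS_iff, RatFunc.denom_algebraMap]
  simp

theorem evalHom_algebraMap (a : k) (p : k[X]) :
    evalHom k a ⟨algebraMap k[X] (RatFunc k) p, algebraMap_mem_evalVS k a p⟩ = p.eval a := by
  rw [evalHom_apply]
  simp [RatFunc.num_algebraMap, RatFunc.denom_algebraMap]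

theorem div_mem_evalVS (a : k) (p q : k[X]) (hq : q.eval a ≠ 0) :
    algebraMap k[X] (RatFunc k) p / algebraMap k[X] (RatFunc k) q ∈ evalVS k a := by
  intro h
  exact hq (Polynomial.eval_eq_zero_of_dvd_of_eval_eq_zero (RatFunc.denom_div_dvd p q) h)

theorem evalHom_div (a : k) (p q : k[X]) (hq : q.eval a ≠ 0) :
    evalHom k a ⟨_, div_mem_evalVS k a p q hq⟩ = p.eval a / q.eval a := by
  rw [eq_div_iff hq, ← evalHom_algebraMap k a q, ← map_mul, ← evalHom_algebraMap k a p]
  congr 1
  ext
  have hq0 : algebraMap k[X] (RatFunc k) q ≠ 0 := by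
    apply RatFunc.algebraMap_ne_zero
    rintro rfl
    simp at hq
  exact div_mul_cancel₀ _ hq0

/-- there is a coefficientwise extension of `f` to `RatFunc k` (`X ↦ X`), compatible with
evaluation at the fixed points of `f`. -/
theorem exists_coeffMap (f : k →+* k) :
    ∃ Φ : RatFunc k →+* RatFunc k,
      (∀ p : k[X], Φ (algebraMap k[X] (RatFunc k) p) = algebraMap k[X] (RatFunc k) (p.map f)) ∧
      ∀ a : k, f a = a → ∀ X : evalVS k a, ∃ X' : evalVS k a,
        Φ (X : RatFunc k) = X' ∧ evalHom k a X' = f (evalHom k a X) := by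
  have hφ : k[X]⁰ ≤ k[X]⁰.comap (Polynomial.mapRingHom f) := by
    intro p hp
    rw [Submonoid.mem_comap, mem_nonZeroDivisors_iff_ne_zero] at *
    rw [Polynomial.coe_mapRingHom]
    exact (Polynomial.map_ne_zero_iff f.injective).mpr hp
  have key : ∀ x : RatFunc k, RatFunc.mapRingHom (Polynomial.mapRingHom f) hφ x =
      algebraMap k[X] (RatFunc k) (x.num.map f) / algebraMap k[X] (RatFunc k) (x.denom.map f) := by
    intro x
    rw [RatFunc.coe_mapRingHom_eq_coe_map, RatFunc.map_apply]
    rfl
  refine ⟨RatFunc.mapRingHom (Polynomial.mapRingHom f) hφ, ?_, ?_⟩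
  · intro p
    rw [key, RatFunc.num_algebraMap, RatFunc.denom_algebraMap]
    simp
  · intro a ha X
    have hev : ∀ p : k[X], (p.map f).eval a = f (p.eval a) := by
      intro p
      conv_lhs => rw [← ha]
      rw [Polynomial.eval_map, Polynomial.eval₂_hom]
    have hd : ((X : RatFunc k).denom.map f).eval a ≠ 0 := by
      rw [hev]
      exact (map_ne_zero f).mpr X.2
    refine ⟨⟨_, div_mem_evalVS k a _ _ hd⟩, key _, ?_⟩
    rw [evalHom_div k a _ _ hd, hev, hev, evalHom_apply, map_div₀]

end Fermat.Agent.S52
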