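import Fermat.Agent.S52.FamAPI
import Fermat.Agent.S52.KleinSolve
import Fermat.Agent.S52.KleinTate
import Fermat.Agent.S52.Spec
import Fermat.Agent.S52.PointMap
import Fermat.Agent.HW.Glue
import Fermat.Agent.HW.FrobQuadratic
import Fermat.Agent.S05.Main

/-!
# S52 [WP-G]: the trace of Frobenius mod 5 is constant in the family (over `𝔽_ℓ`, `ℓ ≥ 7`)

Proof.  `k = AlgebraicClosure (ZMod ℓ)`, `K = RatFunc k`, `t = X`.
* `exists_uv` gives `(u₀,v₀) ∈ k²` with `-H = c4`, `T = c6`; put `u = u₀ + t f_v(u₀,v₀)`,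
  `v = v₀ - t f_u(u₀,v₀)` in `K`.  By `famC4_klein`, `famC6_klein_sq`, `exists_NM`
  (`ρ, g, i ∈ k`) there are `N, M ∈ K` with `famC4 c4 c6 t = tq4 N M`, `famC6 c4 c6 t = tq6 N M`.
* `exists_five_torsion` for `W_K = shortW (famC4 c4 c6 t) (famC6 c4 c6 t)` (parameters `6N, 6M`
  because `(shortW c4 c6).c₄ = 6⁴ c4`) gives `P ≠ 0`, `5 • P = 0` in `W_K(K)`.
* `Φ` = coefficientwise Frobenius (`exists_coeffMap`), `s` = its action on `W_K(K)`
  (`exists_pointMap`).
* For `a ∈ 𝔽_ℓ` with `famD c4 c6 a ≠ 0`: `HW.TorsHyp.frob_relation` for `A = evalVS k a`,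
  `π = evalHom k a`, `p = 5`, `q = ℓ` and `HW.frob_quadratic` give
  `s (s P) - a_ℓ(E_a) • s P + ℓ • P = 0`.
* Subtract the relations for `a = t₀` and `a = 0`: `(a_ℓ(E_{t₀}) - a_ℓ(E_0)) • s P = 0`, and `s P`
  has order 5.
-/

set_option autoImplicit false

namespace Fermat.Agent.S52

open WeierstrassCurve Polynomial Fermat.Agent.S05
open scoped WeierstrassCurve.Affine

section maps

variable {R S : Type*} [CommRing R] [CommRing S]

theorem map_kH (f : R →+* S) (u v : R) : f (kH u v) = kH (f u) (f v) := by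
  simp only [kH, map_add, map_sub, map_mul, map_pow, map_neg, map_ofNat]

theorem map_kT (f : R →+* S) (u v : R) : f (kT u v) = kT (f u) (f v) := by
  simp only [kT, map_add, map_sub, map_mul, map_pow, map_ofNat]

end maps

section generic

variable (k : Type*) [Field k]

/-- constants in `RatFunc k`. -/
noncomputable def embK : k →+* RatFunc k := (algebraMap k[X] (RatFunc k)).comp C

/-- the variable of `RatFunc k`. -/
noncomputable def XK : RatFunc k := algebraMap k[X] (RatFunc k) X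

/-- the generic member of the family. -/
noncomputable def WK (c4 c6 : k) : WeierstrassCurve (RatFunc k) :=
  shortW (famC4 (embK k c4) (embK k c6) (XK k)) (famC6 (embK k c4) (embK k c6) (XK k))

variable {k}

theorem embK_injective : Function.Injective (embK k) := (embK k).injective

theorem famD_XK_ne_zero (c4 c6 : k) : famD (embK k c4) (embK k c6) (XK k) ≠ 0 := by
  have h : famD (embK k c4) (embK k c6) (XK k) = algebraMap k[X] (RatFunc k) (famDPoly c4 c6) := by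
    rw [famDPoly, map_famD]; rfl
  rw [h]
  intro h0
  have h1 : famDPoly c4 c6 = 0 :=
    (map_eq_zero_iff _ (IsFractionRing.injective k[X] (RatFunc k))).1 h0
  have h2 := eval_famDPoly c4 c6 0
  rw [h1, famD_zero] at h2
  simp at h2

theorem WK_Δ_ne_zero (h6 : (6 : k) ≠ 0) (c4 c6 : k) (hΔ : c4 ^ 3 - c6 ^ 2 ≠ 0) :
    (WK k c4 c6).Δ ≠ 0 := by
  rw [WK, shortW_Δ, fam_rel]
  have h2 : (2 : RatFunc k) ≠ 0 := by
    intro h
    have : embK k 2 = 0 := by rw [map_ofNat]; exact h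
    have h2' : (2 : k) = 0 := (map_eq_zero (embK k)).1 this
    apply h6
    have : (6 : k) = 2 * 3 := by norm_num
    rw [this, h2', zero_mul]
  have h3 : (3 : RatFunc k) ≠ 0 := by
    intro h
    have : embK k 3 = 0 := by rw [map_ofNat]; exact h
    have h3' : (3 : k) = 0 := (map_eq_zero (embK k)).1 this
    apply h6
    have : (6 : k) = 2 * 3 := by norm_num
    rw [this, h3', mul_zero]
  have h4 : embK k c4 ^ 3 - embK k c6 ^ 2 ≠ 0 := by
    rw [← map_pow, ← map_pow, ← map_sub]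
    exact fun h => hΔ ((map_eq_zero (embK k)).1 h)
  exact mul_ne_zero (mul_ne_zero (pow_ne_zero _ h2) (pow_ne_zero _ h3))
    (mul_ne_zero h4 (pow_ne_zero _ (famD_XK_ne_zero c4 c6)))

/-- a point of order 5 on the generic member. -/
theorem exists_generic_five_torsion [IsAlgClosed k] [DecidableEq (RatFunc k)] (h30 : (30 : k) ≠ 0)
    (c4 c6 : k) (hΔ : c4 ^ 3 - c6 ^ 2 ≠ 0) :
    ∃ P : (WK k c4 c6).toAffine.Point, P ≠ 0 ∧ 5 • P = 0 := by
  have h5 : (5 : k) ≠ 0 := by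
    intro h; apply h30
    have : (30 : k) = 5 * 6 := by norm_num
    rw [this, h, zero_mul]
  have h6 : (6 : k) ≠ 0 := by
    intro h; apply h30
    have : (30 : k) = 5 * 6 := by norm_num
    rw [this, h, mul_zero]
  have h5K : (5 : RatFunc k) ≠ 0 := by
    intro h
    have : embK k 5 = 0 := by rw [map_ofNat]; exact h
    exact h5 ((map_eq_zero (embK k)).1 this)
  have h6K : (6 : RatFunc k) ≠ 0 := by
    intro h
    have : embK k 6 = 0 := by rw [map_ofNat]; exact h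
    exact h6 ((map_eq_zero (embK k)).1 this)
  obtain ⟨u₀, v₀, hu4, hu6⟩ := exists_uv h30 c4 c6 hΔ
  -- constants
  obtain ⟨z, hz⟩ := IsAlgClosed.exists_pow_nat_eq (125 : k) (n := 2) (by norm_num)
  obtain ⟨i, hi⟩ := IsAlgClosed.exists_pow_nat_eq (-1 : k) (n := 2) (by norm_num)
  have h2 : (2 : k) ≠ 0 := by
    intro h; apply h6
    have : (6 : k) = 2 * 3 := by norm_num
    rw [this, h, zero_mul]
  set ρ : k := (z - 11) / 2 with hρdef
  have hρ : ρ ^ 2 + 11 * ρ - 1 = 0 := by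
    rw [hρdef]; field_simp; linear_combination hz
  obtain ⟨g, hg⟩ := IsAlgClosed.exists_pow_nat_eq (11 * ρ + 123 : k) (n := 2) (by norm_num)
  have hρK : embK k ρ ^ 2 + 11 * embK k ρ - 1 = 0 := by
    have := congrArg (embK k) hρ
    simpa only [map_add, map_sub, map_mul, map_pow, map_ofNat, map_one, map_zero] using this
  have hgK : embK k g ^ 2 = 11 * embK k ρ + 123 := by
    have := congrArg (embK k) hg
    simpa only [map_add, map_mul, map_pow, map_ofNat] using this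
  have hiK : embK k i ^ 2 = -1 := by
    have := congrArg (embK k) hi
    simpa only [map_pow, map_neg, map_one] using this
  have e4 : embK k c4 = -kH (embK k u₀) (embK k v₀) := by
    rw [← map_kH, ← map_neg, hu4]
  have e6 : embK k c6 = kT (embK k u₀) (embK k v₀) := by
    rw [← map_kT, hu6]
  obtain ⟨N, M, hN4, hN6⟩ := exists_NM h5K hρK hgK hiK
    (embK k u₀ + XK k * kfv (embK k u₀) (embK k v₀))
    (embK k v₀ - XK k * kfu (embK k u₀) (embK k v₀))
    (famC4 (embK k c4) (embK k c6) (XK k)) (famC6 (embK k c4) (embK k c6) (XK k))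
    (by rw [e4, e6, famC4_klein]) (by rw [e4, e6, famC6_klein_sq])
  obtain ⟨P, hP0, hP5, -⟩ := exists_five_torsion (WK k c4 c6).toAffine h6K
    (WK_Δ_ne_zero h6 c4 c6 hΔ) (6 * N) (6 * M)
    (by
      show (WK k c4 c6).c₄ = _
      rw [WK, shortW_c₄, tq4_scale, hN4])
    (by
      show (WK k c4 c6).c₆ = _
      rw [WK, shortW_c₆, tq6_scale, hN6])
  exact ⟨P, hP0, hP5⟩

end generic

section relation

variable {ℓ : ℕ} [Fact ℓ.Prime]

/-- the integral model over the valuation ring at `a`. -/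
noncomputable def WA (k : Type*) [Field k] (c4 c6 a : k) : WeierstrassCurve (evalVS k a) :=
  shortW
    (famC4 ⟨_, algebraMap_mem_evalVS k a (C c4)⟩ ⟨_, algebraMap_mem_evalVS k a (C c6)⟩
      ⟨_, algebraMap_mem_evalVS k a X⟩)
    (famC6 ⟨_, algebraMap_mem_evalVS k a (C c4)⟩ ⟨_, algebraMap_mem_evalVS k a (C c6)⟩
      ⟨_, algebraMap_mem_evalVS k a X⟩)

theorem WA_map_subtype (k : Type*) [Field k] (c4 c6 a : k) :
    (WA k c4 c6 a).map (evalVS k a).subtype = WK k c4 c6 := by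
  rw [WA, shortW_map, map_famC4, map_famC6]
  rfl

theorem WA_map_evalHom (k : Type*) [Field k] (c4 c6 a : k) :
    (WA k c4 c6 a).map (evalHom k a) = shortW (famC4 c4 c6 a) (famC6 c4 c6 a) := by
  rw [WA, shortW_map, map_famC4, map_famC6]
  simp only [evalHom_algebraMap, eval_C, eval_X]

theorem rel_at (hℓ : 7 ≤ ℓ) (c4 c6 a : ZMod ℓ) (hΔ : c4 ^ 3 - c6 ^ 2 ≠ 0)
    (hD : famD c4 c6 a ≠ 0) {k : Type*} [Field k] [Algebra (ZMod ℓ) k]
    [DecidableEq k] [DecidableEq (RatFunc k)] (f : k →+* k) (hf : ∀ x, f x = x ^ ℓ)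
    (Φ : RatFunc k →+* RatFunc k)
    (hΦ : ∀ b : k, f b = b → ∀ X : evalVS k b, ∃ X' : evalVS k b,
        Φ (X : RatFunc k) = X' ∧ evalHom k b X' = f (evalHom k b X))
    (s : (WK k (algebraMap _ _ c4) (algebraMap _ _ c6)).toAffine.Point →+
      (WK k (algebraMap _ _ c4) (algebraMap _ _ c6)).toAffine.Point)
    (hs : ∀ P, P ≠ 0 → s P ≠ 0 ∧ xc (s P) = Φ (xc P) ∧ yc (s P) = Φ (yc P))
    (P : (WK k (algebraMap _ _ c4) (algebraMap _ _ c6)).toAffine.Point)
    (hP : 5 • P = 0) :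
    s (s P) - (shortW (famC4 c4 c6 a) (famC6 c4 c6 a)).traceOfFrobenius • s P + (ℓ : ℤ) • P = 0 := by
  have hp : ℓ.Prime := Fact.out
  obtain ⟨ι, hι⟩ : ∃ ι : ZMod ℓ →+* k, ι = algebraMap (ZMod ℓ) k := ⟨_, rfl⟩
  obtain ⟨W₀, hW₀⟩ : ∃ W₀ : WeierstrassCurve (ZMod ℓ),
    W₀ = shortW (famC4 c4 c6 a) (famC6 c4 c6 a) := ⟨_, rfl⟩
  rw [← hW₀]
  -- discriminant of the special fibre
  have hn : ∀ n : ℕ, 0 < n → n < 7 → (n : ZMod ℓ) ≠ 0 := by
    intro n h0 h7 h
    rw [ZMod.natCast_eq_zero_iff] at h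
    have := Nat.le_of_dvd h0 h
    omega
  have hΔ₀ : W₀.Δ ≠ 0 := by
    rw [hW₀, shortW_Δ, fam_rel]
    have h2 : (2 : ZMod ℓ) ≠ 0 := by simpa using hn 2 (by norm_num) (by norm_num)
    have h3 : (3 : ZMod ℓ) ≠ 0 := by simpa using hn 3 (by norm_num) (by norm_num)
    exact mul_ne_zero (mul_ne_zero (pow_ne_zero _ h2) (pow_ne_zero _ h3))
      (mul_ne_zero hΔ (pow_ne_zero _ hD))
  have hW' : (W₀.toAffine⁄k) = (WA k (algebraMap _ _ c4) (algebraMap _ _ c6)
      (algebraMap _ _ a)).map (evalHom k (algebraMap _ _ a)) := by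
    rw [WA_map_evalHom, ← map_famC4, ← map_famC6, ← shortW_map, ← hW₀]
    rfl
  have H : HW.TorsHyp (evalHom k (algebraMap _ _ a)) (WA k (algebraMap _ _ c4) (algebraMap _ _ c6)
      (algebraMap (ZMod ℓ) k a)) 5 ℓ := by
    refine ⟨evalHom_isResidueMap k _, ?_, Nat.prime_five, by norm_num, hp, by omega, ?_⟩
    · have h1 : evalHom k (algebraMap _ _ a) (WA k (algebraMap _ _ c4) (algebraMap _ _ c6)
          (algebraMap (ZMod ℓ) k a)).Δ ≠ 0 := by
        rw [← map_Δ, ← hW']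
        show (W₀.map (algebraMap (ZMod ℓ) k)).Δ ≠ 0
        rw [map_Δ]
        exact fun h => hΔ₀ ((map_eq_zero _).1 h)
      obtain ⟨U, hU⟩ := (evalHom_isResidueMap k _).exists_inv h1
      exact IsUnit.of_mul_eq_one U hU
    · have : ((ℓ : ℕ) : RatFunc k) = 0 := by
        have h1 : ((ℓ : ℕ) : ZMod ℓ) = 0 := CharP.cast_eq_zero (ZMod ℓ) ℓ
        have h2 := congrArg ((embK k).comp (algebraMap (ZMod ℓ) k)) h1
        rwa [map_natCast, map_zero] at h2
      rw [this, map_zero]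
      exact zero_lt_one
  have hfa : f (algebraMap (ZMod ℓ) k a) = algebraMap (ZMod ℓ) k a := by
    rw [hf, ← map_pow, ZMod.pow_card]
  have hFD := HW.frobData W₀ k
  have htr : W₀.traceOfFrobenius = (ℓ : ℤ) + 1 - (Nat.card W₀.toAffine.Point : ℤ) := by
    rw [traceOfFrobenius, card, Nat.card_zmod]
  rw [htr]
  refine H.frob_relation (WK k (algebraMap _ _ c4) (algebraMap _ _ c6)).toAffine (W₀.toAffine⁄k)
    (WA_map_subtype k _ _ _).symm hW' s Φ hs ?_ (HW.frob W₀ k) ?_ _ ?_ P hP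
  · intro X
    obtain ⟨X', h1, h2⟩ := hΦ _ hfa X
    exact ⟨X', h1, by rw [h2, hf]⟩
  · intro Q hQ
    exact ⟨hFD.ne Q hQ, hFD.hx Q, hFD.hy Q⟩
  · intro Q
    have := HW.frob_quadratic W₀ (by omega) hΔ₀ Q
    rw [← this, ← natCast_zsmul]
    rfl

end relation

theorem trace_family (ℓ : ℕ) [Fact ℓ.Prime] (hℓ : 7 ≤ ℓ) (c4 c6 t₀ : ZMod ℓ)
    (hΔ : c4 ^ 3 - c6 ^ 2 ≠ 0) (hD : famD c4 c6 t₀ ≠ 0) :
    (5 : ℤ) ∣ (shortW (famC4 c4 c6 t₀) (famC6 c4 c6 t₀)).traceOfFrobenius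
      - (shortW c4 c6).traceOfFrobenius := by
  classical
  have h30 : (30 : AlgebraicClosure (ZMod ℓ)) ≠ 0 := by
    intro h
    have h1 : algebraMap (ZMod ℓ) (AlgebraicClosure (ZMod ℓ)) ((30 : ℕ) : ZMod ℓ) = 0 := by
      rw [map_natCast]; exact_mod_cast h
    have h2 : ((30 : ℕ) : ZMod ℓ) = 0 := (map_eq_zero _).1 h1
    rw [ZMod.natCast_eq_zero_iff] at h2
    have hp : ℓ.Prime := Fact.out
    have h3 : ℓ ∣ 2 * 3 * 5 := by simpa using h2
    rcases (Nat.Prime.dvd_mul hp).1 h3 with h | h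
    · rcases (Nat.Prime.dvd_mul hp).1 h with h | h
      · have := Nat.le_of_dvd (by norm_num) h; omega
      · have := Nat.le_of_dvd (by norm_num) h; omega
    · have := Nat.le_of_dvd (by norm_num) h; omega
  have hΔk : (algebraMap (ZMod ℓ) (AlgebraicClosure (ZMod ℓ)) c4) ^ 3
      - (algebraMap (ZMod ℓ) (AlgebraicClosure (ZMod ℓ)) c6) ^ 2 ≠ 0 := by
    rw [← map_pow, ← map_pow, ← map_sub]
    exact fun h => hΔ ((map_eq_zero _).1 h)
  obtain ⟨P, hP0, hP5⟩ := exists_generic_five_torsion h30 _ _ hΔk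
  obtain ⟨Φ, hΦ1, hΦ2⟩ := exists_coeffMap (AlgebraicClosure (ZMod ℓ))
    (frobenius (AlgebraicClosure (ZMod ℓ)) ℓ)
  have hΦc : ∀ c : ZMod ℓ, Φ (embK _ (algebraMap (ZMod ℓ) (AlgebraicClosure (ZMod ℓ)) c))
      = embK _ (algebraMap (ZMod ℓ) (AlgebraicClosure (ZMod ℓ)) c) := by
    intro c
    rw [embK, RingHom.comp_apply, hΦ1, Polynomial.map_C, frobenius_def, ← map_pow, ZMod.pow_card]
  have hΦX : Φ (XK (AlgebraicClosure (ZMod ℓ))) = XK (AlgebraicClosure (ZMod ℓ)) := by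
    rw [XK, hΦ1, Polynomial.map_X]
  have hWΦ : (WK (AlgebraicClosure (ZMod ℓ)) (algebraMap _ _ c4) (algebraMap _ _ c6)).map Φ
      = WK (AlgebraicClosure (ZMod ℓ)) (algebraMap _ _ c4) (algebraMap _ _ c6) := by
    rw [WK, shortW_map, map_famC4, map_famC6, hΦc, hΦc, hΦX]
  obtain ⟨s, hs⟩ := exists_pointMap
    (WK (AlgebraicClosure (ZMod ℓ)) (algebraMap _ _ c4) (algebraMap _ _ c6)).toAffine Φ hWΦ
  have r1 := rel_at hℓ c4 c6 t₀ hΔ hD (frobenius (AlgebraicClosure (ZMod ℓ)) ℓ)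
    (fun x => frobenius_def ℓ x) Φ hΦ2 s hs P hP5
  have r0 := rel_at hℓ c4 c6 0 hΔ (by rw [famD_zero]; exact one_ne_zero)
    (frobenius (AlgebraicClosure (ZMod ℓ)) ℓ) (fun x => frobenius_def ℓ x) Φ hΦ2 s hs P hP5
  rw [famC4_zero, famC6_zero] at r0
  have hsP := (hs P hP0).1
  have h5s : 5 • s P = 0 := by rw [← map_nsmul, hP5, map_zero]
  refine (zsmul_eq_zero_iff_dvd Nat.prime_five hsP h5s _).1 ?_
  rw [sub_smul]
  have := congrArg₂ (· - ·) r0 r1
  simp only [sub_zero] at this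
  rw [← this]
  abel

end Fermat.Agent.S52
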