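import Fermat.Agent.S52.Inertia3
import Fermat.Agent.S05.Main
import Fermat.Agent.S13.WPD

/-!
# S52 [WP-N]: for a model semistable at 3, the fifth power of an inertia element at 3 fixes `E[5]`

`E = W` over `Qbar`, `A` a place over `3`, `σ ∈ I_A`, `h = σ⁵ ∈ I_A`.

* Good reduction (`3 ∤ Δ`): `S05.fixed_good`.
* Multiplicative reduction (`3 ∣ Δ`, `3 ∤ c₄`).  `g(x) = 4x³ + b₂x² + 2b₄x + b₆` has a root `x0 ∈ A`
  with `c := g'(x0)/4 ∈ 𝔪_A` (`exists_shiftData`); `b' = b₂ + 12 x0` is a unit since `c₄ ≡ b₂² mod 3`;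
  `Δ = c² (b'² - 64 c)` (`shiftData_disc`), so `v(c)² = v(Δ) = v(e)⁵` for `e` with `e⁵ = Δ`, and `h`
  fixes `e` (`inertia_pow_fix_of_pow`).  `h` need not fix `x0`, but `h x0` is a root of `g` congruent to
  `x0`, so `v(h x0 - x0) ≤ v(c)` (`val_sub_le_of_shiftData`).  This is enough for the slope argument of
  `S05` : `fixed_of_val_eq'`, `fixed_mult'` are the corresponding variants of `S05.fixed_of_val_eq`,
  `S05.fixed_mult` (same proofs).
-/

set_option autoImplicit false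

namespace Fermat.Agent.S52

open WeierstrassCurve WeierstrassCurve.Affine WeierstrassCurve.Affine.Point
open Fermat.Agent.S05

section Slope

variable {K : Type*} [Field K] {Γ₀ : Type*} [LinearOrderedCommGroupWithZero Γ₀]
  (v : Valuation K Γ₀) {W : WeierstrassCurve.Affine K} {x0 c b' : K}

variable [DecidableEq K]

/-- variant of `S05.fixed_of_val_eq`: `σ` is only supposed to move `x0` by less than `x(P) - x0`. -/
theorem fixed_of_val_eq' (H : ShiftData W x0 c b') (σ : K →+* K) (s : W.Point →+ W.Point)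
    (hs : ∀ P : W.Point, P ≠ 0 → s P ≠ 0 ∧ xc (s P) = σ (xc P) ∧ yc (s P) = σ (yc P))
    (hσ : ∀ x, v x ≤ 1 → v (σ x - x) < 1)
    (h₁ : v W.a₁ ≤ 1) (h₂ : v W.a₂ ≤ 1) (hσ₁ : σ W.a₁ = W.a₁) (hσ₃ : σ W.a₃ = W.a₃)
    (hx0 : v x0 ≤ 1) (h2 : v (2 : K) = 1) (hb' : v b' = 1)
    {e : K} (he : e ≠ 0) (hσe : σ e = e)
    {P : W.Point} (hP : P ≠ 0) (hσx0 : v (σ x0 - x0) < v (xc P - x0))
    (hXe : v (xc P - x0) = v e) (hXlt : v (xc P - x0) < 1) (hcX : v c < v (xc P - x0))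
    (hint : s P - P = 0 ∨ v (xc (s P - P)) ≤ 1) :
    s P = P := by
  obtain ⟨hsP, hx1, hy1⟩ := hs P hP
  obtain ⟨x2, hx2⟩ : ∃ x2, x2 = xc P := ⟨_, rfl⟩
  obtain ⟨y2, hy2⟩ : ∃ y2, y2 = yc P := ⟨_, rfl⟩
  obtain ⟨x1, hx1'⟩ : ∃ x1, x1 = xc (s P) := ⟨_, rfl⟩
  obtain ⟨y1, hy1'⟩ : ∃ y1, y1 = yc (s P) := ⟨_, rfl⟩
  obtain ⟨X2, hX2⟩ : ∃ X2, X2 = x2 - x0 := ⟨_, rfl⟩
  obtain ⟨X1, hX1⟩ : ∃ X1, X1 = x1 - x0 := ⟨_, rfl⟩
  obtain ⟨Y1, hY1⟩ : ∃ Y1, Y1 = σ X2 := ⟨_, rfl⟩
  have hve : v e ≠ 0 := (v.ne_zero_iff).2 he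
  have hvX2 : v X2 = v e := by rw [hX2, hx2]; exact hXe
  have hX2lt : v X2 < 1 := by rw [hX2, hx2]; exact hXlt
  have hcX2 : v c < v X2 := by rw [hX2, hx2]; exact hcX
  have hδ : v (σ x0 - x0) < v X2 := by rw [hX2, hx2]; exact hσx0
  have hX2ne : X2 ≠ 0 := (v.ne_zero_iff).1 (hvX2 ▸ hve)
  have hvX2pos : 0 < v X2 := zero_lt_iff.2 (hvX2 ▸ hve)
  have hσX : Y1 = X1 - (σ x0 - x0) := by
    rw [hY1, hX2, hX1, map_sub, hx2, hx1', hx1]; ring
  -- `v (Y1 - X2) < v X2`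
  have hdiffY : v (Y1 - X2) < v X2 := by
    have hu : v (X2 / e) ≤ 1 := by
      rw [map_div₀, hvX2, div_self hve]
    have h := hσ _ hu
    rw [map_div₀, ← hY1, hσe, ← sub_div, map_div₀, div_lt_one₀ (zero_lt_iff.2 hve)] at h
    rwa [hvX2]
  have hdiff : v (X1 - X2) < v X2 := by
    have : X1 - X2 = (Y1 - X2) + (σ x0 - x0) := by rw [hσX]; ring
    rw [this]
    exact v.map_add_lt hdiffY hδ
  have hvX1 : v X1 = v X2 := by
    have : X1 = (X1 - X2) + X2 := by ring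
    rw [this]
    exact v.map_add_eq_of_lt_right hdiff
  have hvY1 : v Y1 = v X2 := by
    have : Y1 = (Y1 - X2) + X2 := by ring
    rw [this]
    exact v.map_add_eq_of_lt_right hdiffY
  have hY1ne : Y1 ≠ 0 := (v.ne_zero_iff).1 (hvY1 ▸ hvX2pos.ne')
  obtain ⟨η2, hη2⟩ : ∃ η2, η2 = 2 * y2 + W.a₁ * x2 + W.a₃ := ⟨_, rfl⟩
  obtain ⟨η1, hη1⟩ : ∃ η1, η1 = 2 * y1 + W.a₁ * x1 + W.a₃ := ⟨_, rfl⟩
  have hση : σ η2 = η1 := by
    rw [hη2, hη1, map_add, map_add, map_mul, map_mul, hσ₁, hσ₃, map_ofNat, hx2, hy2, hx1', hy1',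
      hx1, hy1]
  have hsq : η2 ^ 2 = X2 * (4 * X2 ^ 2 + b' * X2 + 4 * c) := by
    rw [hη2, hX2, hx2, hy2]; exact H.eta_sq hP
  have h4 : v (4 : K) = 1 := by
    have : (4 : K) = 2 * 2 := by norm_num
    rw [this, map_mul, h2, one_mul]
  obtain ⟨w, hw⟩ : ∃ w, w = η2 / X2 := ⟨_, rfl⟩
  have hwsq : w ^ 2 = b' + (4 * X2 + 4 * c / X2) := by
    rw [hw, div_pow, hsq]
    field_simp
    ring
  have hvw : v w = 1 := by
    have h1 : v (4 * X2 + 4 * c / X2) < 1 := by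
      apply v.map_add_lt
      · rw [map_mul, h4, one_mul]; exact hX2lt
      · rw [map_div₀, map_mul, h4, one_mul, div_lt_one₀ hvX2pos]; exact hcX2
    have h3 : v (w ^ 2) = 1 := by
      rw [hwsq, ← hb']
      exact v.map_add_eq_of_lt_left (by rw [hb']; exact h1)
    rw [map_pow] at h3
    exact (pow_eq_one_iff_of_nonneg zero_le (by norm_num)).1 h3
  have hσw : σ w = η1 / Y1 := by rw [hw, map_div₀, hση, hY1]
  have hdw : v (σ w - w) < 1 := hσ w hvw.le
  have hsum : η1 + η2 = ((σ w - w) * Y1 + w * (Y1 - X2)) + 2 * w * X2 := by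
    rw [hσw, hw]
    field_simp
    ring
  have hvsum : v (η1 + η2) = v X2 := by
    have h3 : v (2 * w * X2) = v X2 := by rw [map_mul, map_mul, h2, hvw, one_mul, one_mul]
    rw [hsum, ← h3]
    apply v.map_add_eq_of_lt_right
    rw [h3]
    apply v.map_add_lt
    · rw [map_mul, hvY1]
      exact mul_lt_of_lt_one_left hvX2pos hdw
    · rw [map_mul, hvw, one_mul]; exact hdiffY
  have hsumne : η1 + η2 ≠ 0 := (v.ne_zero_iff).1 (hvsum ▸ hvX2pos.ne')
  have hvx2 : v x2 ≤ 1 := by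
    have : x2 = X2 + x0 := by rw [hX2]; ring
    rw [this]; exact v.map_add_le hX2lt.le hx0
  have hvx1 : v x1 ≤ 1 := by
    have : x1 = X1 + x0 := by rw [hX1]; ring
    rw [this]; exact v.map_add_le (hvX1 ▸ hX2lt.le) hx0
  by_cases hxx : x1 = x2
  · rcases (xc_eq_iff hsP hP).1 (by rw [← hx1', ← hx2, hxx]) with h | h
    · exact h
    · exfalso
      apply hsumne
      have hy : y1 = W.negY x2 y2 := by rw [hy1', h, yc_neg hP, hx2, hy2]
      rw [hη1, hη2, hy, hxx]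
      simp only [negY]
      ring
  · exfalso
    have hne0 : s P - P ≠ 0 := by
      intro h
      apply hxx
      rw [hx1', hx2, sub_eq_zero.1 h]
    have hle : v (xc (s P - P)) ≤ 1 := hint.resolve_left hne0
    have hxx' : xc (s P) ≠ xc P := by rwa [← hx1', ← hx2]
    rw [xc_sub_of_xc_ne hsP hP hxx'] at hle
    simp only [addX, ← hx1', ← hx2, ← hy1', ← hy2] at hle
    obtain ⟨l, hl⟩ : ∃ l, l = W.slope x1 x2 y1 (W.negY x2 y2) := ⟨_, rfl⟩
    rw [← hl] at hle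
    have hd : x1 - x2 ≠ 0 := sub_ne_zero.2 hxx
    have h2ne : (2 : K) ≠ 0 := H.h2
    have hslope : l * (x1 - x2) = (η1 + η2) / 2 - W.a₁ * (x1 - x2) / 2 := by
      rw [hl, slope_of_X_ne hxx, hη1, hη2]
      simp only [negY]
      field_simp
      ring
    have hlint : v l ≤ 1 := by
      refine val_le_one_of_quadratic v h₁ (c := (l ^ 2 + W.a₁ * l - W.a₂ - x1 - x2) + W.a₂ + x1 + x2)
        ?_ (by ring)
      exact val_add_le_one v (val_add_le_one v (val_add_le_one v hle h₂) hvx1) hvx2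
    have hdx : x1 - x2 = X1 - X2 := by rw [hX1, hX2]; ring
    have hvd : v (x1 - x2) < v X2 := by rw [hdx]; exact hdiff
    have hL : v (l * (x1 - x2)) < v X2 := by
      rw [map_mul]
      exact lt_of_le_of_lt (mul_le_of_le_one_left' hlint) hvd
    have hRv : v ((η1 + η2) / 2 - W.a₁ * (x1 - x2) / 2) = v X2 := by
      have h3 : v ((η1 + η2) / 2) = v X2 := by rw [map_div₀, h2, div_one, hvsum]
      rw [← h3]
      apply v.map_sub_eq_of_lt_left
      rw [h3, map_div₀, h2, div_one, map_mul]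
      exact lt_of_le_of_lt (mul_le_of_le_one_left' h₁) hvd
    rw [hslope, hRv] at hL
    exact lt_irrefl _ hL

end Slope

section Mult

variable {K : Type*} [Field K] [DecidableEq K] {A : ValuationSubring K}
  {W : WeierstrassCurve.Affine K} {p q : ℕ} {σ : K →+* K} {s : W.Point →+ W.Point}

/-- variant of `S05.fixed_mult`: `σ` may move the node parameter `x0` (by at most `v c`), and only
`v c ^ 2` has to be the `p`-th power of the valuation of a fixed element. -/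
theorem fixed_mult' (I : IntData A W) (D : PrimeData A p q) (G : GalData A W σ s) (hq2 : q ≠ 2)
    {x0 c b' e : K} (H : ShiftData W x0 c b')
    (hσ₁ : σ W.a₁ = W.a₁) (hσ₃ : σ W.a₃ = W.a₃)
    (hσx0 : A.valuation (σ x0 - x0) ≤ A.valuation c)
    (hx0 : A.valuation x0 ≤ 1) (hb' : A.valuation b' = 1) (hc0 : c ≠ 0) (he : e ≠ 0)
    (hσe : σ e = e) (hcv : A.valuation c ^ 2 = A.valuation e ^ p) (hc1 : A.valuation c < 1)
    {P : W.Point} (hpP : p • P = 0) : s P = P := by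
  by_cases hP : P = 0
  · rw [hP, _root_.map_zero]
  have hp := D.hp
  have hp3 : 3 ≤ p := by
    have := hp.two_le; have := D.hp2; omega
  have h2 : A.valuation (2 : K) = 1 := by
    have := valuation_natCast_eq_one A D.hq D.hqA (n := 2) (by
      intro h; exact hq2 ((Nat.prime_dvd_prime_iff_eq D.hq Nat.prime_two).1 h))
    simpa using this
  have v₁ := (A.valuation_le_one_iff _).2 I.h₁
  have v₂ := (A.valuation_le_one_iff _).2 I.h₂
  have v₃ := (A.valuation_le_one_iff _).2 I.h₃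
  have v₄ := (A.valuation_le_one_iff _).2 I.h₄
  have hz := zsmul_eq_zero_iff_dvd hp hP hpP
  have hpj : ∀ j : ℤ, p • (j • P) = 0 := fun j => by rw [smul_comm, hpP, smul_zero]
  by_cases hex : ∃ j : ℤ, ¬ (p : ℤ) ∣ j ∧ A.valuation (xc (j • P) - x0) = 1
  · obtain ⟨j, hj, hX⟩ := hex
    have hj0 : j • P ≠ 0 := fun h => hj ((hz j).1 h)
    apply fixed_of_multiple hp hpP hj
    exact fixed_of_nonsingular_red I D G hj0 (hpj j)
      (nonsingular_of_not_node A.valuation H v₁ v₂ v₃ v₄ h2 hb' hc1 hj0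
        (tors_x I D hj0 (hpj j)) (tors_y I D hj0 (hpj j)) hX)
  · have hlt : ∀ j : ℤ, ¬ (p : ℤ) ∣ j → A.valuation (xc (j • P) - x0) < 1 := by
      intro j hj
      have hj0 : j • P ≠ 0 := fun h => hj ((hz j).1 h)
      refine lt_of_le_of_ne (Valuation.map_sub_le _ (tors_x I D hj0 (hpj j)) hx0) ?_
      intro h
      exact hex ⟨j, hj, h⟩
    obtain ⟨j0, hj0, hmax⟩ := Finset.exists_max_image (Finset.Icc 1 (p - 1))
      (fun j : ℕ => A.valuation (xc (j • P) - x0)) ⟨1, by simp; omega⟩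
    rw [Finset.mem_Icc] at hj0
    have hj0nd : ¬ (p : ℤ) ∣ (j0 : ℤ) := by
      intro h
      have := Nat.le_of_dvd (by omega) (Int.natCast_dvd_natCast.1 h)
      omega
    apply fixed_of_multiple hp hpP hj0nd
    obtain ⟨P', hP'⟩ : ∃ P', P' = (j0 : ℤ) • P := ⟨_, rfl⟩
    rw [← hP']
    have hP'0 : P' ≠ 0 := by rw [hP']; exact fun h => hj0nd ((hz _).1 h)
    have hpP' : p • P' = 0 := by rw [hP']; exact hpj _
    have hz' := zsmul_eq_zero_iff_dvd hp hP'0 hpP'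
    have hpi : Prime (p : ℤ) := Nat.prime_iff_prime_int.1 hp
    have hmulnd : ∀ j : ℤ, ¬ (p : ℤ) ∣ j → ¬ (p : ℤ) ∣ j * j0 := by
      intro j hj h
      rcases hpi.dvd_or_dvd h with h | h
      · exact hj h
      · exact hj0nd h
    have h2nd : ∀ j : ℤ, ¬ (p : ℤ) ∣ j → ¬ (p : ℤ) ∣ 2 * j := by
      intro j hj h
      rcases hpi.dvd_or_dvd h with h | h
      · have := Int.le_of_dvd (by norm_num) h
        omega
      · exact hj h
    have hsm : ∀ j : ℤ, j • P' = (j * j0) • P := fun j => by rw [hP', mul_smul]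
    have hne0 : ∀ j : ℤ, ¬ (p : ℤ) ∣ j → j • P' ≠ 0 := fun j hj h => hj ((hz' j).1 h)
    have heta : ∀ j : ℤ, ¬ (p : ℤ) ∣ j →
        2 * yc (j • P') + W.a₁ * xc (j • P') + W.a₃ ≠ 0 := by
      intro j hj h
      have h1 := (add_self_eq_zero_iff (hne0 j hj)).2 h
      rw [← two_zsmul, smul_smul] at h1
      exact h2nd j hj ((hz' _).1 h1)
    have hprod : ∀ j : ℤ, ¬ (p : ℤ) ∣ j →
        (xc (j • P') - x0) * (4 * (xc (j • P') - x0) ^ 2 + b' * (xc (j • P') - x0) + 4 * c) ≠ 0 := by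
      intro j hj
      rw [← H.eta_sq (hne0 j hj)]
      exact pow_ne_zero 2 (heta j hj)
    have hxne : ∀ i j : ℤ, ¬ (p : ℤ) ∣ i → ¬ (p : ℤ) ∣ j → ¬ (p : ℤ) ∣ i + j → ¬ (p : ℤ) ∣ i - j →
        xc (i • P') ≠ xc (j • P') := by
      intro i j hi hj hij hij'
      apply xc_ne_of_add_sub_ne_zero (hne0 i hi) (hne0 j hj)
      · rw [← add_smul]; exact hne0 _ hij
      · rw [← sub_smul]; exact hne0 _ hij'
    have key := mult_val A.valuation p hp D.hp2 (fun j => xc (j • P') - x0) c b' hc0 hb' h2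
      (fun j hj => left_ne_zero_of_mul (hprod j hj))
      (fun j hj => by
        rw [hsm]; exact hlt _ (hmulnd j hj))
      (fun i j hij => by
        have : i • P' = -(j • P') := by
          rw [eq_neg_iff_add_eq_zero, ← add_smul]; exact (hz' _).2 hij
        rw [this, xc_neg])
      (fun j hj => by
        obtain ⟨m, hm1, hm2, hm⟩ := exists_nat_rep hp hpP (j * j0) (hmulnd j hj)
        rw [hsm, hm, one_smul, hP', natCast_zsmul]
        exact hmax m (by rw [Finset.mem_Icc]; exact ⟨hm1, hm2⟩))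
      (fun i j hi hj hij hij' h => hxne i j hi hj hij hij' (by simpa using h))
      (fun i j hi hj hij hij' => by
        rw [add_smul, sub_smul]
        exact H.prod (hne0 i hi) (hne0 j hj) (hxne i j hi hj hij hij'))
      (fun j hj => right_ne_zero_of_mul (hprod j hj))
      (fun j hj => by
        have h1 : (2 * j) • P' = j • P' + j • P' := by rw [two_mul, add_smul]
        rw [h1]
        refine H.dbl (hne0 j hj) ?_
        rw [← h1]; exact hne0 _ (h2nd j hj))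
    simp only [one_smul] at key
    have hXe : A.valuation (xc P' - x0) = A.valuation e := by
      have h1 : A.valuation (xc P' - x0) ^ p = (A.valuation e) ^ p := by
        rw [key, hcv]
      exact (pow_left_inj₀ zero_le zero_le (by omega)).1 h1
    have hXlt : A.valuation (xc P' - x0) < 1 := by
      have := hlt j0 hj0nd
      rwa [← hP'] at this
    have hcX : A.valuation c < A.valuation (xc P' - x0) := by
      by_contra hle
      rw [not_lt] at hle
      have h1 : A.valuation (xc P' - x0) ^ p ≤ A.valuation c ^ p := pow_le_pow_left₀ zero_le hle p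
      have h2' : A.valuation c ^ p < A.valuation c ^ 2 :=
        pow_lt_pow_right_of_lt_one₀ (zero_lt_iff.2 ((A.valuation.ne_zero_iff).2 hc0)) hc1 (by omega)
      rw [key] at h1
      exact absurd h1 (not_le.2 h2')
    refine fixed_of_val_eq' A.valuation H σ s G.hs G.hσ v₁ v₂ hσ₁ hσ₃ hx0 h2 hb'
      he hσe hP'0 (lt_of_le_of_lt hσx0 hcX) hXe hXlt hcX ?_
    by_cases h0 : s P' - P' = 0
    · exact Or.inl h0
    · refine Or.inr (tors_x I D h0 ?_)
      rw [smul_sub, ← map_nsmul, hpP', _root_.map_zero, sub_zero]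


end Mult

section Node

variable {K : Type*} [Field K] {Γ₀ : Type*} [LinearOrderedCommGroupWithZero Γ₀]
  (v : Valuation K Γ₀) {W : WeierstrassCurve.Affine K} {x0 c b' : K}

omit [LinearOrderedCommGroupWithZero Γ₀] in
/-- the discriminant in terms of the shifted invariants -/
lemma shiftData_disc (H : ShiftData W x0 c b') : W.Δ = c ^ 2 * (b' ^ 2 - 64 * c) := by
  have hb2 : W.b₂ = b' - 12 * x0 := by rw [H.hb]; ring
  have hb4 : W.b₄ = 2 * c - (b' - 12 * x0) * x0 - 6 * x0 ^ 2 := by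
    rw [H.hc, hb2]; ring
  have hb6 : W.b₆ = -(4 * x0 ^ 3 + (b' - 12 * x0) * x0 ^ 2
      + 2 * (2 * c - (b' - 12 * x0) * x0 - 6 * x0 ^ 2) * x0) := by
    have := H.h0
    rw [hb4, hb2] at this
    linear_combination this
  have hb8 := H.b₈_eq
  rw [WeierstrassCurve.Δ, hb8, hb6, hb4, hb2]
  ring

/-- roots of `4x³ + b₂x² + 2b₄x + b₆` are integral -/
lemma root_integral (h2 : v (2 : K) = 1) (hb2 : v W.b₂ ≤ 1) (hb4 : v W.b₄ ≤ 1) (hb6 : v W.b₆ ≤ 1)
    {x : K} (hx : 4 * x ^ 3 + W.b₂ * x ^ 2 + 2 * W.b₄ * x + W.b₆ = 0) : v x ≤ 1 := by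
  by_contra hcon
  rw [not_le] at hcon
  have h4 : v (4 : K) = 1 := by
    have : (4 : K) = 2 * 2 := by norm_num
    rw [this, map_mul, h2, one_mul]
  have e : 4 * x ^ 3 = -(W.b₂ * x ^ 2 + 2 * W.b₄ * x + W.b₆) := by linear_combination hx
  have h1 : v (4 * x ^ 3) = v x ^ 3 := by rw [map_mul, h4, one_mul, map_pow]
  have hx2 : v x ^ 2 < v x ^ 3 := pow_lt_pow_right₀ hcon (by norm_num)
  have hx1 : v x < v x ^ 3 := by
    calc v x = v x ^ 1 := (pow_one _).symm
      _ < v x ^ 3 := pow_lt_pow_right₀ hcon (by norm_num)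
  have hx0 : 1 < v x ^ 3 := one_lt_pow₀ hcon (by norm_num)
  have h3 : v (-(W.b₂ * x ^ 2 + 2 * W.b₄ * x + W.b₆)) < v x ^ 3 := by
    rw [Valuation.map_neg]
    refine v.map_add_lt (v.map_add_lt ?_ ?_) (lt_of_le_of_lt hb6 hx0)
    · rw [map_mul, map_pow]
      exact lt_of_le_of_lt (mul_le_of_le_one_left' hb2) hx2
    · rw [map_mul, map_mul, h2, one_mul]
      exact lt_of_le_of_lt (mul_le_of_le_one_left' hb4) hx1
  rw [← e, h1] at h3
  exact lt_irrefl _ h3

/-- the shift data attached to a root -/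
lemma shiftData_of_root (h2 : v (2 : K) = 1) (h3 : v (3 : K) < 1) (hb2 : v W.b₂ = 1)
    (hb4 : v W.b₄ ≤ 1) (hb6 : v W.b₆ ≤ 1)
    {x : K} (hx : 4 * x ^ 3 + W.b₂ * x ^ 2 + 2 * W.b₄ * x + W.b₆ = 0) :
    ShiftData W x ((W.b₄ + W.b₂ * x + 6 * x ^ 2) / 2) (W.b₂ + 12 * x) ∧ v x ≤ 1 ∧
      v (W.b₂ + 12 * x) = 1 ∧ v ((W.b₄ + W.b₂ * x + 6 * x ^ 2) / 2) ≤ 1 := by
  have n2 : (2 : K) ≠ 0 := (v.ne_zero_iff).1 (by rw [h2]; exact one_ne_zero)
  have hxi := root_integral v h2 hb2.le hb4 hb6 hx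
  have h4 : v (4 : K) = 1 := by
    have : (4 : K) = 2 * 2 := by norm_num
    rw [this, map_mul, h2, one_mul]
  refine ⟨⟨hx, by field_simp, rfl, n2⟩, hxi, ?_, ?_⟩
  · rw [← hb2]
    apply v.map_add_eq_of_lt_left
    rw [hb2]
    have : (12 : K) * x = 3 * (4 * x) := by ring
    rw [this, map_mul, map_mul, h4, one_mul]
    exact lt_of_le_of_lt (mul_le_of_le_one_right' hxi) h3
  · rw [map_div₀, h2, div_one]
    refine v.map_add_le (v.map_add_le hb4 ?_) ?_
    · rw [map_mul, hb2, one_mul]; exact hxi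
    · have : (6 : K) * x ^ 2 = 3 * (2 * x ^ 2) := by ring
      rw [this, map_mul, map_mul, h2, one_mul, map_pow]
      exact mul_le_one' h3.le (pow_le_one' hxi 2)

theorem exists_shiftData [IsAlgClosed K] (h2 : v (2 : K) = 1) (h3 : v (3 : K) < 1)
    (hb2 : v W.b₂ = 1) (hb4 : v W.b₄ ≤ 1) (hb6 : v W.b₆ ≤ 1) (hΔ : v W.Δ < 1) :
    ∃ x0 c b' : K, ShiftData W x0 c b' ∧ v x0 ≤ 1 ∧ v b' = 1 ∧ v c < 1 := by
  have n2 : (2 : K) ≠ 0 := (v.ne_zero_iff).1 (by rw [h2]; exact one_ne_zero)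
  have h4 : v (4 : K) = 1 := by
    have : (4 : K) = 2 * 2 := by norm_num
    rw [this, map_mul, h2, one_mul]
  have h8 : v (8 : K) = 1 := by
    have : (8 : K) = 2 * 4 := by norm_num
    rw [this, map_mul, h2, h4, one_mul]
  have n4 : (4 : K) ≠ 0 := (v.ne_zero_iff).1 (by rw [h4]; exact one_ne_zero)
  have n8 : (8 : K) ≠ 0 := (v.ne_zero_iff).1 (by rw [h8]; exact one_ne_zero)
  -- a root
  obtain ⟨x, hx⟩ : ∃ x : K, 4 * x ^ 3 + W.b₂ * x ^ 2 + 2 * W.b₄ * x + W.b₆ = 0 := by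
    let f : Polynomial K := Polynomial.C 4 * Polynomial.X ^ 3 + Polynomial.C W.b₂ * Polynomial.X ^ 2
      + Polynomial.C (2 * W.b₄) * Polynomial.X + Polynomial.C W.b₆
    have hdeg : f.degree = 3 := Polynomial.degree_cubic n4
    obtain ⟨x, hx⟩ := IsAlgClosed.exists_root f (by rw [hdeg]; norm_num)
    refine ⟨x, ?_⟩
    have := hx
    simp only [f, Polynomial.IsRoot.def, Polynomial.eval_add, Polynomial.eval_mul,
      Polynomial.eval_C, Polynomial.eval_pow, Polynomial.eval_X] at this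
    exact this
  obtain ⟨H, hxi, hb', hc⟩ := shiftData_of_root v h2 h3 hb2 hb4 hb6 hx
  rcases lt_or_eq_of_le hc with hc | hc
  · exact ⟨_, _, _, H, hxi, hb', hc⟩
  -- the other roots
  set c := (W.b₄ + W.b₂ * x + 6 * x ^ 2) / 2 with hcdef
  set b' := W.b₂ + 12 * x with hb'def
  have hd : v (b' ^ 2 - 64 * c) < 1 := by
    have := shiftData_disc H
    rw [this, map_mul, map_pow, hc, one_pow, one_mul] at hΔ
    exact hΔ
  obtain ⟨r, hr⟩ := IsAlgClosed.exists_pow_nat_eq (b' ^ 2 - 64 * c) (n := 2) (by norm_num)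
  have hvr : v r < 1 := by
    by_contra hcon
    rw [not_lt] at hcon
    have : 1 ≤ v (r ^ 2) := by rw [map_pow]; exact one_le_pow₀ hcon
    rw [hr] at this
    exact absurd hd (not_lt.2 this)
  obtain ⟨X, hX⟩ : ∃ X : K, X = (r - b') / 8 := ⟨_, rfl⟩
  have hXr : 8 * X + b' = r := by rw [hX]; field_simp; ring
  have hquad : 4 * X ^ 2 + b' * X + 4 * c = 0 := by
    have e : 16 * (4 * X ^ 2 + b' * X + 4 * c) = (8 * X + b') ^ 2 - (b' ^ 2 - 64 * c) := by ring
    have h16 : (16 : K) ≠ 0 := by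
      have : (16 : K) = 4 * 4 := by norm_num
      rw [this]; exact mul_ne_zero n4 n4
    apply mul_left_cancel₀ h16
    rw [e, hXr, hr]; ring
  have hx' : 4 * (x + X) ^ 3 + W.b₂ * (x + X) ^ 2 + 2 * W.b₄ * (x + X) + W.b₆ = 0 := by
    rw [H.psi (x + X)]
    have : x + X - x = X := by ring
    rw [this, hquad, mul_zero]
  obtain ⟨H', hxi', hb'', hc'⟩ := shiftData_of_root v h2 h3 hb2 hb4 hb6 hx'
  refine ⟨_, _, _, H', hxi', hb'', ?_⟩
  have hXi : v X ≤ 1 := by
    have : X = (x + X) - x := by ring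
    rw [this]; exact v.map_sub_le hxi' hxi
  have e4 : 4 * ((W.b₄ + W.b₂ * (x + X) + 6 * (x + X) ^ 2) / 2) = X * r := by
    have h1 := H.dpsi (x + X)
    have h2' : x + X - x = X := by ring
    rw [h2'] at h1
    have h3' : 4 * ((W.b₄ + W.b₂ * (x + X) + 6 * (x + X) ^ 2) / 2)
        = 12 * (x + X) ^ 2 + 2 * W.b₂ * (x + X) + 2 * W.b₄ := by field_simp; ring
    rw [h3', h1, ← hXr]
    linear_combination hquad
  have : v (4 * ((W.b₄ + W.b₂ * (x + X) + 6 * (x + X) ^ 2) / 2)) < 1 := by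
    rw [e4, map_mul]
    exact lt_of_le_of_lt (mul_le_of_le_one_left' hXi) hvr
  rwa [map_mul, h4, one_mul] at this

/-- an "inertia-like" ring endomorphism fixing the coefficients moves the node parameter by at most
`v c` -/
theorem val_sub_le_of_shiftData (H : ShiftData W x0 c b') (h2 : v (2 : K) = 1)
    (hx0 : v x0 ≤ 1) (hb' : v b' = 1) (σ : K →+* K) (hσ : ∀ x, v x ≤ 1 → v (σ x - x) < 1)
    (h₂ : σ W.b₂ = W.b₂) (h₄ : σ W.b₄ = W.b₄) (h₆ : σ W.b₆ = W.b₆) :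
    v (σ x0 - x0) ≤ v c := by
  have h4 : v (4 : K) = 1 := by
    have : (4 : K) = 2 * 2 := by norm_num
    rw [this, map_mul, h2, one_mul]
  have hroot : 4 * (σ x0) ^ 3 + W.b₂ * (σ x0) ^ 2 + 2 * W.b₄ * (σ x0) + W.b₆ = 0 := by
    have := congrArg σ H.h0
    rw [map_add, map_add, map_add, map_mul, map_mul, map_mul, map_mul, map_pow, map_pow, h₂, h₄,
      h₆, map_ofNat, map_ofNat, _root_.map_zero] at this
    exact this
  rw [H.psi (σ x0)] at hroot
  have hδ := hσ x0 hx0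
  rcases mul_eq_zero.1 hroot with h | h
  · rw [h, _root_.map_zero]; exact zero_le
  · have e : (σ x0 - x0) * (4 * (σ x0 - x0) + b') = -(4 * c) := by linear_combination h
    have hu : v (4 * (σ x0 - x0) + b') = 1 := by
      rw [← hb']
      apply v.map_add_eq_of_lt_right
      rw [hb', map_mul, h4, one_mul]
      exact hδ
    have := congrArg v e
    rw [map_mul, hu, mul_one, Valuation.map_neg, map_mul, h4, one_mul] at this
    exact this.le

end Node

local notation "Qbar" => AlgebraicClosure ℚ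
local notation "GQ" => (AlgebraicClosure ℚ ≃ₐ[ℚ] AlgebraicClosure ℚ)

/-- the curve over `Qbar`. -/
noncomputable abbrev EQ (W : WeierstrassCurve ℤ) : WeierstrassCurve.Affine Qbar :=
  (W.map (Int.castRingHom ℚ))⁄Qbar

theorem inertia3_pow5_fix (W : WeierstrassCurve ℤ) (hΔ : W.Δ ≠ 0)
    (h3 : (3 : ℤ) ∣ W.Δ → ¬ (3 : ℤ) ∣ W.c₄) (A : ValuationSubring Qbar)
    (hA : A.LiesOverPrime 3) (σ : GQ) (hσ : σ ∈ A.inertiaSubgroupIn ℚ)
    (P : (EQ W).Point) (hP : 5 • P = 0) : (σ ^ 5) • P = P := by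
  have hq : Nat.Prime 3 := by norm_num
  have hqA : A.valuation ((3 : ℕ) : Qbar) < 1 := hA
  have hh : σ ^ 5 ∈ A.inertiaSubgroupIn ℚ := Subgroup.pow_mem _ hσ 5
  have D : PrimeData A 5 3 := ⟨by norm_num, by norm_num, hq, by norm_num, hqA⟩
  have G : GalData A (EQ W) ((σ ^ 5 : GQ) : Qbar →+* Qbar)
      (Point.map (W' := W.map (Int.castRingHom ℚ)) (σ ^ 5 : GQ).toAlgHom) := by
    refine ⟨?_, ?_⟩
    · intro Q hQ
      cases Q with
      | zero => exact absurd rfl hQ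
      | some x y h =>
        rw [Point.map_some]
        exact ⟨some_ne_zero _, rfl, rfl⟩
    · intro x hx
      exact inertia_spec A (σ ^ 5) hh x hx
  have ea₁ : (EQ W).a₁ = ((W.a₁ : ℤ) : Qbar) := by simp
  have ea₂ : (EQ W).a₂ = ((W.a₂ : ℤ) : Qbar) := by simp
  have ea₃ : (EQ W).a₃ = ((W.a₃ : ℤ) : Qbar) := by simp
  have ea₄ : (EQ W).a₄ = ((W.a₄ : ℤ) : Qbar) := by simp
  have ea₆ : (EQ W).a₆ = ((W.a₆ : ℤ) : Qbar) := by simp
  have eb₂ : (EQ W).b₂ = ((W.b₂ : ℤ) : Qbar) := by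
    change ((W.map (Int.castRingHom ℚ)).map (algebraMap ℚ Qbar)).b₂ = _
    rw [WeierstrassCurve.map_b₂, WeierstrassCurve.map_b₂]
    simp
  have eb₄ : (EQ W).b₄ = ((W.b₄ : ℤ) : Qbar) := by
    change ((W.map (Int.castRingHom ℚ)).map (algebraMap ℚ Qbar)).b₄ = _
    rw [WeierstrassCurve.map_b₄, WeierstrassCurve.map_b₄]
    simp
  have eb₆ : (EQ W).b₆ = ((W.b₆ : ℤ) : Qbar) := by
    change ((W.map (Int.castRingHom ℚ)).map (algebraMap ℚ Qbar)).b₆ = _
    rw [WeierstrassCurve.map_b₆, WeierstrassCurve.map_b₆]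
    simp
  have eΔ : (EQ W).Δ = ((W.Δ : ℤ) : Qbar) := by
    change ((W.map (Int.castRingHom ℚ)).map (algebraMap ℚ Qbar)).Δ = _
    rw [WeierstrassCurve.map_Δ, WeierstrassCurve.map_Δ]
    simp
  have I : IntData A (EQ W) := by
    refine ⟨?_, ?_, ?_, ?_, ?_⟩
    · rw [ea₁]; exact intCast_mem A _
    · rw [ea₂]; exact intCast_mem A _
    · rw [ea₃]; exact intCast_mem A _
    · rw [ea₄]; exact intCast_mem A _
    · rw [ea₆]; exact intCast_mem A _
  change Point.map (W' := W.map (Int.castRingHom ℚ)) (σ ^ 5 : GQ).toAlgHom P = P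
  by_cases h3Δ : (3 : ℤ) ∣ W.Δ
  swap
  · refine fixed_good I D G ?_ hP
    rw [eΔ]
    exact valuation_intCast_eq_one A hq hqA (by exact_mod_cast h3Δ)
  have h3c := h3 h3Δ
  have h3b : ¬ (3 : ℤ) ∣ W.b₂ := by
    intro h
    apply h3c
    have e : W.c₄ = W.b₂ ^ 2 - 24 * W.b₄ := rfl
    rw [e]
    exact dvd_sub (dvd_pow h (by norm_num)) (Dvd.dvd.mul_right (by norm_num) _)
  have v2 : A.valuation (2 : Qbar) = 1 := by
    have := valuation_natCast_eq_one A hq hqA (n := 2) (by norm_num)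
    simpa using this
  have v3 : A.valuation (3 : Qbar) < 1 := by simpa using hqA
  have vb2 : A.valuation (EQ W).b₂ = 1 := by
    rw [eb₂]; exact valuation_intCast_eq_one A hq hqA (by exact_mod_cast h3b)
  have vb4 : A.valuation (EQ W).b₄ ≤ 1 := by rw [eb₄]; exact valuation_intCast_le_one A _
  have vb6 : A.valuation (EQ W).b₆ ≤ 1 := by rw [eb₆]; exact valuation_intCast_le_one A _
  have vΔ : A.valuation (EQ W).Δ < 1 := by
    rw [eΔ]; exact valuation_intCast_lt_one A hqA (by exact_mod_cast h3Δ)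
  have hΔ0 : (EQ W).Δ ≠ 0 := by rw [eΔ]; exact_mod_cast hΔ
  obtain ⟨x0, c, b', H, hx0, hb', hc1⟩ := exists_shiftData A.valuation v2 v3 vb2 vb4 vb6 vΔ
  have hdisc := shiftData_disc H
  have hc0 : c ≠ 0 := by
    rintro rfl
    apply hΔ0
    rw [hdisc]; ring
  obtain ⟨e, he⟩ := IsAlgClosed.exists_pow_nat_eq (EQ W).Δ (n := 5) (by norm_num)
  have he0 : e ≠ 0 := by
    rintro rfl
    apply hΔ0
    rw [← he]; ring
  have hσe : (σ ^ 5 : GQ) e = e := by
    refine inertia_pow_fix_of_pow A hq hA hσ (by norm_num) ?_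
    rw [he, eΔ]
    exact map_intCast σ _
  have v64 : A.valuation (b' ^ 2 - 64 * c) = 1 := by
    have h1 : A.valuation (b' ^ 2) = 1 := by rw [map_pow, hb', one_pow]
    rw [← h1]
    apply Valuation.map_sub_eq_of_lt_left
    rw [h1, map_mul]
    have h64 : A.valuation (64 : Qbar) ≤ 1 := by
      have := valuation_natCast_le_one A 64
      exact_mod_cast this
    exact lt_of_le_of_lt (mul_le_of_le_one_left' h64) hc1
  have hcv : A.valuation c ^ 2 = A.valuation e ^ 5 := by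
    rw [← map_pow, ← map_pow, he, hdisc, map_mul, v64, mul_one]
  refine fixed_mult' I D G (by norm_num) H ?_ ?_ ?_ hx0 hb' hc0 he0 hσe hcv hc1 hP
  · rw [ea₁]; exact map_intCast _ _
  · rw [ea₃]; exact map_intCast _ _
  · refine val_sub_le_of_shiftData A.valuation H v2 hx0 hb' _ G.hσ ?_ ?_ ?_
    · rw [eb₂]; exact map_intCast _ _
    · rw [eb₄]; exact map_intCast _ _
    · rw [eb₆]; exact map_intCast _ _

end Fermat.Agent.S52
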