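import Fermat.Agent.S52.Defs
import Fermat.Agent.S13.Minkowski
import Fermat.Agent.Cheb.Cyclo
import Fermat.Agent.Common.PlaceBridgeKummer

/-!
# S52 [WP-M]: inertia at 3

* `exists_inertia3`: some inertia element at a place over `3` moves `√-3`.
  Proof: otherwise the quadratic character of `ℚ(√-3)` is unramified everywhere
  (`S13.hom_eq_one_of_unramified`; at `ℓ ≠ 3` inertia fixes the cube roots of unity by
  `Cheb.apply_rootOfUnity_of_mem_inertia`, and `√-3 = 2ζ₃ + 1`), hence trivial; but `√-3 ∉ ℚ`.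
* `inertia_fix_of_pow`: inertia fixes an `A`-unit `z` as soon as it fixes `z ^ n`, `n` prime to the
  residue characteristic (`σ z / z` is an `n`-th root of unity congruent to `1`).
-/

set_option autoImplicit false

namespace Fermat.Agent.S52

local notation "Qbar" => AlgebraicClosure ℚ
local notation "GQ" => (AlgebraicClosure ℚ ≃ₐ[ℚ] AlgebraicClosure ℚ)

namespace Inertia3

/-- the stabiliser of a square root of `-3`. -/
def stab (w : Qbar) : Subgroup GQ where
  carrier := {σ | σ w = w}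
  mul_mem' := by
    intro a b ha hb
    simp only [Set.mem_ofPred_eq] at ha hb ⊢
    rw [AlgEquiv.mul_apply, hb, ha]
  one_mem' := rfl
  inv_mem' := by
    intro a ha
    simp only [Set.mem_ofPred_eq] at ha ⊢
    calc a⁻¹ w = a⁻¹ (a w) := by rw [ha]
      _ = w := by
        have : (a⁻¹ * a) w = w := by rw [inv_mul_cancel]; rfl
        exact this

theorem mem_stab {w : Qbar} {σ : GQ} : σ ∈ stab w ↔ σ w = w := Iff.rfl

theorem apply_eq_or {w : Qbar} (hw : w ^ 2 = -3) (σ : GQ) : σ w = w ∨ σ w = -w := by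
  have h : (σ w) ^ 2 = w ^ 2 := by
    rw [← map_pow, hw, map_neg, map_ofNat]
  exact sq_eq_sq_iff_eq_or_eq_neg.mp h

theorem stab_normal {w : Qbar} (hw : w ^ 2 = -3) : (stab w).Normal := by
  constructor
  intro n hn g
  rw [mem_stab] at hn ⊢
  have h1 : (g * n * g⁻¹) w = g (n (g⁻¹ w)) := rfl
  rw [h1]
  have h2 : g (g⁻¹ w) = w := by
    have : (g * g⁻¹) w = w := by rw [mul_inv_cancel]; rfl
    exact this
  rcases apply_eq_or hw g⁻¹ with h | h
  · rw [h, hn]
    rw [h] at h2
    exact h2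
  · rw [h, map_neg, hn]
    rw [h] at h2
    exact h2

end Inertia3

open Inertia3 in
theorem exists_inertia3 : ∃ (A : ValuationSubring Qbar) (σ : GQ), A.LiesOverPrime 3 ∧
    σ ∈ A.inertiaSubgroupIn ℚ ∧ ∀ w : Qbar, w ^ 2 = -3 → σ w = -w := by
  obtain ⟨w, hw⟩ : ∃ w : Qbar, w ^ 2 = -3 := IsAlgClosed.exists_pow_nat_eq (-3 : Qbar) (by norm_num)
  have hw0 : w ≠ 0 := by
    rintro rfl
    norm_num at hw
  obtain ⟨A3, hA3⟩ := Fermat.Agent.S54.exists_liesOverPrime Nat.prime_three
  by_contra hcon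
  push Not at hcon
  -- every inertia element at `A3` fixes `w`
  have hfix3 : ∀ σ ∈ A3.inertiaSubgroupIn ℚ, σ w = w := by
    intro σ hσ
    obtain ⟨w', hw', hne⟩ := hcon A3 σ hA3 hσ
    have hww : w' = w ∨ w' = -w := sq_eq_sq_iff_eq_or_eq_neg.mp (hw'.trans hw.symm)
    rcases apply_eq_or hw σ with h | h
    · exact h
    · exfalso
      rcases hww with rfl | rfl
      · exact hne h
      · apply hne
        rw [map_neg, h]
  have := stab_normal hw
  have htop : stab w = ⊤ := by
    apply Fermat.Agent.S13.eq_top_of_inertia_le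
    · refine ⟨IntermediateField.adjoin ℚ {w}, ?_, ?_⟩
      · apply IntermediateField.adjoin.finiteDimensional
        exact (Algebra.IsAlgebraic.isAlgebraic w).isIntegral
      · intro σ hσ
        rw [mem_stab]
        exact (IntermediateField.mem_fixingSubgroup_iff _ _).mp hσ w
          (IntermediateField.mem_adjoin_simple_self ℚ w)
    · intro ℓ hℓ
      by_cases h3 : ℓ = 3
      · subst h3
        exact ⟨A3, hA3, fun σ hσ => hfix3 σ hσ⟩
      · obtain ⟨A, hA⟩ := Fermat.Agent.S54.exists_liesOverPrime hℓ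
        refine ⟨A, hA, fun σ hσ => ?_⟩
        rw [mem_stab]
        have hndvd : ¬ ℓ ∣ 3 := by
          intro h
          exact h3 ((Nat.prime_dvd_prime_iff_eq hℓ Nat.prime_three).mp h)
        set μ : Qbar := (w - 1) / 2 with hμ
        have hμ3 : μ ^ 3 = 1 := by
          have : μ ^ 3 = (w ^ 2 * w - 3 * w ^ 2 + 3 * w - 1) / 8 := by
            rw [hμ]; ring
          rw [this, hw]; ring
        have h1 := Fermat.Agent.Cheb.apply_rootOfUnity_of_mem_inertia hℓ hA hndvd hσ hμ3
        have hwμ : w = 2 * μ + 1 := by rw [hμ]; ring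
        rw [hwμ, map_add, map_mul, h1, map_ofNat, map_one]
  -- so `w` is rational
  have hrat : w ∈ Set.range (algebraMap ℚ Qbar) := by
    rw [InfiniteGalois.mem_range_algebraMap_iff_fixed]
    intro σ
    have : σ ∈ stab w := by rw [htop]; exact Subgroup.mem_top σ
    exact this
  obtain ⟨r, hr⟩ := hrat
  have hr2 : r ^ 2 = -3 := by
    apply (algebraMap ℚ Qbar).injective
    rw [map_pow, hr, hw, map_neg, map_ofNat]
  nlinarith [sq_nonneg r]

theorem inertia_fix_of_pow (A : ValuationSubring Qbar) {q : ℕ} (hq : q.Prime)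
    (hA : A.LiesOverPrime q) {σ : GQ} (hσ : σ ∈ A.inertiaSubgroupIn ℚ) {n : ℕ} (hn : ¬ q ∣ n)
    {z : Qbar} (hz : A.valuation z = 1) (h : σ (z ^ n) = z ^ n) : σ z = z :=
  Fermat.Agent.Bridge.apply_eq_of_mem_inertia_of_pow hq hA
    ((Nat.Prime.coprime_iff_not_dvd hq).mpr hn) hσ (x := z ^ n) (y := z) (c := 1) rfl h
    one_ne_zero (map_one σ) (by rw [hz, map_one])

/-- without the unit hypothesis: `σ ^ n` fixes `z`. -/
theorem inertia_pow_fix_of_pow (A : ValuationSubring Qbar) {q : ℕ} (hq : q.Prime)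
    (hA : A.LiesOverPrime q) {σ : GQ} (hσ : σ ∈ A.inertiaSubgroupIn ℚ) {n : ℕ} (hn : ¬ q ∣ n)
    {z : Qbar} (h : σ (z ^ n) = z ^ n) : (σ ^ n) z = z := by
  by_cases hz : z = 0
  · rw [hz, map_zero]
  set ν : Qbar := σ z / z with hν
  have hνn : ν ^ n = 1 := by
    rw [hν, div_pow, ← map_pow, h, div_self (pow_ne_zero _ hz)]
  have hσν : σ ν = ν := Fermat.Agent.Cheb.apply_rootOfUnity_of_mem_inertia hq hA hn hσ hνn
  have hσz : σ z = ν * z := by rw [hν]; field_simp
  have key : ∀ k : ℕ, (σ ^ k) z = ν ^ k * z := by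
    intro k
    induction k with
    | zero => simp
    | succ k ih =>
      rw [pow_succ', AlgEquiv.mul_apply, ih, map_mul, map_pow, hσν, hσz]
      ring
  rw [key, hνn, one_mul]

end Fermat.Agent.S52
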