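import Fermat.Agent.S05.Main

/-!
# S52 [WP-N, part (2) = NEG]: an inertia-like automorphism never maps a nonzero `p`-torsion point to
its negative (multiplicative reduction, residue characteristic `≠ 2`)

Abstract `S05` language.  First half of the proof = first half of `S05.fixed_mult`.
-/

set_option autoImplicit false

namespace Fermat.Agent.S52

open WeierstrassCurve WeierstrassCurve.Affine WeierstrassCurve.Affine.Point Fermat.Agent.S05

variable {K : Type*} [Field K] [DecidableEq K] {A : ValuationSubring K}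
  {W : WeierstrassCurve.Affine K} {p q : ℕ} {σ : K →+* K} {s : W.Point →+ W.Point}

/-- A multiple `P'` of `P` which either does not reduce to the node or satisfies
`v(c) < v(x(P') - x0) < 1`. -/
theorem exists_good_multiple (I : IntData A W) (D : PrimeData A p q) (hq2 : q ≠ 2)
    {x0 c b' : K} (H : ShiftData W x0 c b')
    (hx0 : A.valuation x0 ≤ 1) (hb' : A.valuation b' = 1) (hc0 : c ≠ 0)
    (hc1 : A.valuation c < 1) {P : W.Point} (hP : P ≠ 0) (hpP : p • P = 0) :
    ∃ j : ℤ, ¬ (p : ℤ) ∣ j ∧ (A.valuation (xc (j • P) - x0) = 1 ∨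
      (A.valuation c < A.valuation (xc (j • P) - x0) ∧ A.valuation (xc (j • P) - x0) < 1)) := by
  have hp := D.hp
  have hp3 : 3 ≤ p := by
    have := hp.two_le; have := D.hp2; omega
  have h2 : A.valuation (2 : K) = 1 := by
    have := valuation_natCast_eq_one A D.hq D.hqA (n := 2) (by
      intro h; exact hq2 ((Nat.prime_dvd_prime_iff_eq D.hq Nat.prime_two).1 h))
    simpa using this
  have hz := zsmul_eq_zero_iff_dvd hp hP hpP
  have hpj : ∀ j : ℤ, p • (j • P) = 0 := fun j => by rw [smul_comm, hpP, smul_zero]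
  by_cases hex : ∃ j : ℤ, ¬ (p : ℤ) ∣ j ∧ A.valuation (xc (j • P) - x0) = 1
  · obtain ⟨j, hj, hX⟩ := hex
    exact ⟨j, hj, Or.inl hX⟩
  · have hlt : ∀ j : ℤ, ¬ (p : ℤ) ∣ j → A.valuation (xc (j • P) - x0) < 1 := by
      intro j hj
      have hj0 : j • P ≠ 0 := fun h => hj ((hz j).1 h)
      refine lt_of_le_of_ne (Valuation.map_sub_le _ (tors_x I D hj0 (hpj j)) hx0) ?_
      intro h
      exact hex ⟨j, hj, h⟩
    obtain ⟨j0, hj0, hmax⟩ := Finset.exists_max_image (Finset.Icc 1 (p - 1))
      (fun j : ℕ => A.valuation (xc (j • P) - x0)) ⟨1, by simp; omega⟩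
    rw [Finset.mem_Icc] at hj0
    have hj0nd : ¬ (p : ℤ) ∣ (j0 : ℤ) := by
      intro h
      have := Nat.le_of_dvd (by omega) (Int.natCast_dvd_natCast.1 h)
      omega
    refine ⟨(j0 : ℤ), hj0nd, Or.inr ?_⟩
    obtain ⟨P', hP'⟩ : ∃ P', P' = (j0 : ℤ) • P := ⟨_, rfl⟩
    rw [← hP']
    have hP'0 : P' ≠ 0 := by rw [hP']; exact fun h => hj0nd ((hz _).1 h)
    have hpP' : p • P' = 0 := by rw [hP']; exact hpj _
    have hz' := zsmul_eq_zero_iff_dvd hp hP'0 hpP'
    have hpi : Prime (p : ℤ) := Nat.prime_iff_prime_int.1 hp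
    have hmulnd : ∀ j : ℤ, ¬ (p : ℤ) ∣ j → ¬ (p : ℤ) ∣ j * j0 := by
      intro j hj h
      rcases hpi.dvd_or_dvd h with h | h
      · exact hj h
      · exact hj0nd h
    have h2nd : ∀ j : ℤ, ¬ (p : ℤ) ∣ j → ¬ (p : ℤ) ∣ 2 * j := by
      intro j hj h
      rcases hpi.dvd_or_dvd h with h | h
      · have := Int.le_of_dvd (by norm_num) h
        omega
      · exact hj h
    have hsm : ∀ j : ℤ, j • P' = (j * j0) • P := fun j => by rw [hP', mul_smul]
    have hne0 : ∀ j : ℤ, ¬ (p : ℤ) ∣ j → j • P' ≠ 0 := fun j hj h => hj ((hz' j).1 h)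
    have heta : ∀ j : ℤ, ¬ (p : ℤ) ∣ j →
        2 * yc (j • P') + W.a₁ * xc (j • P') + W.a₃ ≠ 0 := by
      intro j hj h
      have h1 := (add_self_eq_zero_iff (hne0 j hj)).2 h
      rw [← two_zsmul, smul_smul] at h1
      exact h2nd j hj ((hz' _).1 h1)
    have hprod : ∀ j : ℤ, ¬ (p : ℤ) ∣ j →
        (xc (j • P') - x0) * (4 * (xc (j • P') - x0) ^ 2 + b' * (xc (j • P') - x0) + 4 * c) ≠ 0 := by
      intro j hj
      rw [← H.eta_sq (hne0 j hj)]
      exact pow_ne_zero 2 (heta j hj)
    have hxne : ∀ i j : ℤ, ¬ (p : ℤ) ∣ i → ¬ (p : ℤ) ∣ j → ¬ (p : ℤ) ∣ i + j → ¬ (p : ℤ) ∣ i - j →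
        xc (i • P') ≠ xc (j • P') := by
      intro i j hi hj hij hij'
      apply xc_ne_of_add_sub_ne_zero (hne0 i hi) (hne0 j hj)
      · rw [← add_smul]; exact hne0 _ hij
      · rw [← sub_smul]; exact hne0 _ hij'
    have key := mult_val A.valuation p hp D.hp2 (fun j => xc (j • P') - x0) c b' hc0 hb' h2
      (fun j hj => left_ne_zero_of_mul (hprod j hj))
      (fun j hj => by
        rw [hsm]; exact hlt _ (hmulnd j hj))
      (fun i j hij => by
        have : i • P' = -(j • P') := by
          rw [eq_neg_iff_add_eq_zero, ← add_smul]; exact (hz' _).2 hij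
        rw [this, xc_neg])
      (fun j hj => by
        obtain ⟨m, hm1, hm2, hm⟩ := exists_nat_rep hp hpP (j * j0) (hmulnd j hj)
        rw [hsm, hm, one_smul, hP', natCast_zsmul]
        exact hmax m (by rw [Finset.mem_Icc]; exact ⟨hm1, hm2⟩))
      (fun i j hi hj hij hij' h => hxne i j hi hj hij hij' (by simpa using h))
      (fun i j hi hj hij hij' => by
        rw [add_smul, sub_smul]
        exact H.prod (hne0 i hi) (hne0 j hj) (hxne i j hi hj hij hij'))
      (fun j hj => right_ne_zero_of_mul (hprod j hj))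
      (fun j hj => by
        have h1 : (2 * j) • P' = j • P' + j • P' := by rw [two_mul, add_smul]
        rw [h1]
        refine H.dbl (hne0 j hj) ?_
        rw [← h1]; exact hne0 _ (h2nd j hj))
    simp only [one_smul] at key
    have hXlt : A.valuation (xc P' - x0) < 1 := by
      have := hlt j0 hj0nd
      rwa [← hP'] at this
    have hcX : A.valuation c < A.valuation (xc P' - x0) := by
      by_contra hle
      rw [not_lt] at hle
      have h1 : A.valuation (xc P' - x0) ^ p ≤ A.valuation c ^ p := pow_le_pow_left₀ zero_le hle p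
      have h2' : A.valuation c ^ p < A.valuation c ^ 2 :=
        pow_lt_pow_right_of_lt_one₀ (zero_lt_iff.2 ((A.valuation.ne_zero_iff).2 hc0)) hc1 (by omega)
      rw [key] at h1
      exact absurd h1 (not_le.2 h2')
    exact ⟨hcX, hXlt⟩

/-- **NEG**. -/
theorem neg_mult (I : IntData A W) (D : PrimeData A p q) (G : GalData A W σ s) (hq2 : q ≠ 2)
    {x0 c b' : K} (H : ShiftData W x0 c b')
    (hσ₁ : σ W.a₁ = W.a₁) (hσ₃ : σ W.a₃ = W.a₃)
    (hroot : 4 * (σ x0) ^ 3 + W.b₂ * (σ x0) ^ 2 + 2 * W.b₄ * σ x0 + W.b₆ = 0)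
    (hx0 : A.valuation x0 ≤ 1) (hb' : A.valuation b' = 1) (hc0 : c ≠ 0)
    (hc1 : A.valuation c < 1) {P : W.Point} (hpP : p • P = 0) (hneg : s P = -P) : P = 0 := by
  by_contra hP
  have hp := D.hp
  have hp3 : 3 ≤ p := by
    have := hp.two_le; have := D.hp2; omega
  have h2 : A.valuation (2 : K) = 1 := by
    have := valuation_natCast_eq_one A D.hq D.hqA (n := 2) (by
      intro h; exact hq2 ((Nat.prime_dvd_prime_iff_eq D.hq Nat.prime_two).1 h))
    simpa using this
  have h4 : A.valuation (4 : K) = 1 := by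
    have : (4 : K) = 2 * 2 := by norm_num
    rw [this, map_mul, h2, one_mul]
  have v₁ := (A.valuation_le_one_iff _).2 I.h₁
  have v₂ := (A.valuation_le_one_iff _).2 I.h₂
  have v₃ := (A.valuation_le_one_iff _).2 I.h₃
  have v₄ := (A.valuation_le_one_iff _).2 I.h₄
  have hz := zsmul_eq_zero_iff_dvd hp hP hpP
  have hpi : Prime (p : ℤ) := Nat.prime_iff_prime_int.1 hp
  obtain ⟨j, hj, hcase⟩ := exists_good_multiple I D hq2 H hx0 hb' hc0 hc1 hP hpP
  obtain ⟨Q, hQ⟩ : ∃ Q, Q = j • P := ⟨_, rfl⟩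
  rw [← hQ] at hcase
  have hQ0 : Q ≠ 0 := by rw [hQ]; exact fun h => hj ((hz j).1 h)
  have hpQ : p • Q = 0 := by rw [hQ, smul_comm, hpP, smul_zero]
  have hsQ : s Q = -Q := by rw [hQ, map_zsmul, hneg, smul_neg]
  have h2Q : Q + Q ≠ 0 := by
    intro h
    rw [hQ, ← two_zsmul, smul_smul] at h
    rcases hpi.dvd_or_dvd ((hz _).1 h) with h | h
    · have := Int.le_of_dvd (by norm_num) h
      omega
    · exact hj h
  rcases hcase with hX | ⟨hcX, hX1⟩
  · -- nonsingular reduction: fixed
    have hfix := fixed_of_nonsingular_red I D G hQ0 hpQ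
      (nonsingular_of_not_node A.valuation H v₁ v₂ v₃ v₄ h2 hb' hc1 hQ0
        (tors_x I D hQ0 hpQ) (tors_y I D hQ0 hpQ) hX)
    apply h2Q
    have : Q = -Q := by rw [← hsQ, hfix]
    exact eq_neg_iff_add_eq_zero.1 this
  · -- reduction to the node
    obtain ⟨-, hsx, hsy⟩ := G.hs Q hQ0
    rw [hsQ, xc_neg] at hsx
    rw [hsQ, yc_neg hQ0] at hsy
    set x := xc Q with hx
    set y := yc Q with hy
    set X := x - x0 with hXdef
    set η := 2 * y + W.a₁ * x + W.a₃ with hη
    have hη0 : η ≠ 0 := fun h => h2Q ((add_self_eq_zero_iff hQ0).2 h)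
    have hηsq : η ^ 2 = X * (4 * X ^ 2 + b' * X + 4 * c) := H.eta_sq hQ0
    have hX0 : X ≠ 0 := by
      intro h
      rw [h, zero_mul] at hηsq
      exact hη0 (pow_eq_zero_iff (by norm_num) |>.1 hηsq)
    have hση : σ η = -η := by
      rw [hη, map_add, map_add, map_mul, map_mul, hσ₁, hσ₃, ← hsx, ← hsy, map_ofNat,
        Affine.negY]
      ring
    -- `δ = σ x0 - x0`
    set δ := σ x0 - x0 with hδ
    have hδ1 : A.valuation δ < 1 := G.hσ x0 hx0
    have hδc : A.valuation δ ≤ A.valuation c := by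
      by_cases hδ0 : δ = 0
      · rw [hδ0, _root_.map_zero]; exact zero_le
      · have e := H.psi (σ x0)
        rw [hroot] at e
        have e2 : 4 * δ ^ 2 + b' * δ + 4 * c = 0 :=
          (mul_eq_zero.1 e.symm).resolve_left hδ0
        have e3 : δ * (4 * δ + b') = -(4 * c) := by linear_combination e2
        have hu : A.valuation (4 * δ + b') = 1 := by
          have h1 : A.valuation (4 * δ) < 1 := by rw [map_mul, h4, one_mul]; exact hδ1
          rw [add_comm, Valuation.map_add_eq_of_lt_left _ (by rw [hb']; exact h1), hb']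
        have := congrArg A.valuation e3
        rw [map_mul, hu, mul_one, Valuation.map_neg, map_mul, h4, one_mul] at this
        exact this.le
    have hδX : A.valuation δ < A.valuation X := lt_of_le_of_lt hδc hcX
    have hσX : σ X = X - δ := by rw [hXdef, map_sub, ← hsx, hδ]; ring
    have hXδ : A.valuation (X - δ) = A.valuation X :=
      Valuation.map_sub_eq_of_lt_left _ hδX
    have hXδ0 : X - δ ≠ 0 := by
      intro h
      rw [h, _root_.map_zero] at hXδ
      exact hX0 ((A.valuation.zero_iff).1 hXδ.symm)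
    -- `w = η / X` is a unit
    set w := η / X with hw
    have hvX0 : A.valuation X ≠ 0 := (A.valuation.ne_zero_iff).2 hX0
    have hw2 : w ^ 2 = 4 * X + b' + 4 * c / X := by
      rw [hw, div_pow, hηsq]; field_simp
    have hvw : A.valuation w = 1 := by
      have h1 : A.valuation (4 * X) < 1 := by rw [map_mul, h4, one_mul]; exact hX1
      have h3 : A.valuation (4 * c / X) < 1 := by
        rw [map_div₀, map_mul, h4, one_mul]
        exact (div_lt_one₀ (zero_lt_iff.2 hvX0)).2 hcX
      have h5 : A.valuation (4 * X + 4 * c / X) < 1 := Valuation.map_add_lt _ h1 h3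
      have h6 : A.valuation (w ^ 2) = 1 := by
        have : w ^ 2 = b' + (4 * X + 4 * c / X) := by rw [hw2]; ring
        rw [this, Valuation.map_add_eq_of_lt_left _ (by rw [hb']; exact h5), hb']
      rw [map_pow] at h6
      exact (pow_eq_one_iff_of_nonneg zero_le (by norm_num)).1 h6
    have hσw : σ w = -η / (X - δ) := by rw [hw, map_div₀, hση, hσX]
    have hdiff : σ w - w = -(w * ((2 * X - δ) / (X - δ))) := by
      rw [hσw, hw]; field_simp; ring
    have hnum : A.valuation (2 * X - δ) = A.valuation X := by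
      rw [Valuation.map_sub_eq_of_lt_left _ (by rw [map_mul, h2, one_mul]; exact hδX), map_mul, h2,
        one_mul]
    have hlt := G.hσ w hvw.le
    rw [hdiff, Valuation.map_neg, map_mul, hvw, one_mul, map_div₀, hnum, hXδ, div_self hvX0] at hlt
    exact lt_irrefl _ hlt

end Fermat.Agent.S52
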