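import Fermat.Agent.S52.Fix5
import Fermat.Agent.S52.FamAPI
import Fermat.Agent.S52.KleinSolve
import Fermat.Agent.S52.KleinTate

/-!
# S52 [WP-O]: a Galois element fixing a root of `famC6 c₄ c₆ t` and moving `√3`

* `(u₀,v₀) ∈ Qbar²` with `-H = c₄`, `T = c₆` (`exists_uv`), constants `ρ, g, i` in `Qbar`.
* `N₀ = kN ρ g u₀ v₀`, `M₀ = kM ρ g u₀ v₀`; `exists_five_torsion (EQ W)` gives `P ∈ E[5]` with
  `N₀ M₀ = x(2P) - x(P)`, `N₀ M₀² = -(2y + a₁x + a₃)(P)`.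
* `A, σ` from `exists_inertia3`; `σ₁ := σ⁵` fixes `P` and `2P` (`inertia3_pow5_fix`), hence `N₀ M₀`,
  `N₀ M₀²`, hence `M₀` and `N₀` (`N₀ M₀ ≠ 0` since `Δ ≠ 0`, `tq_rel`).
* `σ₁` fixes `i`, `2ρ + 11` (square `125`), `g` (`g² = 11ρ + 123` divides `125`): these are units at
  `3`: `inertia_fix_of_pow` with `n = 2`.  So `σ₁` fixes `u₀⁵`, `v₀⁵` (`u5_eq`, `v5_eq`),
  and `σ₀ := σ₁⁵ = σ²⁵` fixes `u₀, v₀` (`inertia_pow_fix_of_pow`), and `i`.
* `θ := (ε v₀ - u₀)/(f_v + ε f_u)` with `ε = ± i` such that `f_v + ε f_u ≠ 0` (not both vanish,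
  `euler_kf`).  Then `u₀ + θ f_v = ε (v₀ - θ f_u)`, so `T(u_θ, v_θ) = 0` (`u² + v² ∣ T`), and
  `famC6 c₄ c₆ θ = 0` by `famC6_klein_sq`.
* `w² = 3`: `(w i)² = -3`, `σ (w i) = - w i`, `σ i = i`, so `σ w = -w`, and `σ₀ = σ ^ 25`.
-/

set_option autoImplicit false

namespace Fermat.Agent.S52

open WeierstrassCurve WeierstrassCurve.Affine

local notation "Qbar" => AlgebraicClosure ℚ
local notation "GQ" => (AlgebraicClosure ℚ ≃ₐ[ℚ] AlgebraicClosure ℚ)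

theorem kT_factor {R : Type*} [CommRing R] (u v : R) : ∃ r : R, kT u v = (u ^ 2 + v ^ 2) * r := by
  refine ⟨u ^ 28 - u ^ 26 * v ^ 2 + u ^ 24 * v ^ 4 + 522 * u ^ 23 * v ^ 5 - u ^ 22 * v ^ 6
    - 522 * u ^ 21 * v ^ 7 + u ^ 20 * v ^ 8 + 522 * u ^ 19 * v ^ 9 - 10006 * u ^ 18 * v ^ 10
    - 522 * u ^ 17 * v ^ 11 + 10006 * u ^ 16 * v ^ 12 + 522 * u ^ 15 * v ^ 13
    - 10006 * u ^ 14 * v ^ 14 - 522 * u ^ 13 * v ^ 15 + 10006 * u ^ 12 * v ^ 16
    + 522 * u ^ 11 * v ^ 17 - 10006 * u ^ 10 * v ^ 18 - 522 * u ^ 9 * v ^ 19 + u ^ 8 * v ^ 20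
    + 522 * u ^ 7 * v ^ 21 - u ^ 6 * v ^ 22 - 522 * u ^ 5 * v ^ 23 + u ^ 4 * v ^ 24
    - u ^ 2 * v ^ 26 + v ^ 28, ?_⟩
  unfold kT
  ring

namespace SigmaTheta

/-- the root `θ` of `famC6`. -/
theorem exists_theta {K : Type*} [Field K] (h6 : (6 : K) ≠ 0) {u v i : K} (hi : i ^ 2 = -1)
    (hf : kf u v ≠ 0) :
    ∃ ε : K, (ε = i ∨ ε = -i) ∧ kfv u v + ε * kfu u v ≠ 0 ∧
      famC6 (-kH u v) (kT u v) ((ε * v - u) / (kfv u v + ε * kfu u v)) = 0 := by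
  have h2 : (2 : K) ≠ 0 := fun h => h6 (by linear_combination 3 * h)
  have h12 : (12 : K) ≠ 0 := by
    have : (12 : K) = 2 * 6 := by norm_num
    rw [this]; exact mul_ne_zero h2 h6
  have hi0 : i ≠ 0 := by
    rintro rfl
    have : (1 : K) = 0 := by linear_combination hi
    exact one_ne_zero this
  have key : ∀ ε : K, ε ^ 2 = -1 → kfv u v + ε * kfu u v ≠ 0 →
      famC6 (-kH u v) (kT u v) ((ε * v - u) / (kfv u v + ε * kfu u v)) = 0 := by
    intro ε hε hne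
    set θ := (ε * v - u) / (kfv u v + ε * kfu u v) with hθ
    have h1 : u + θ * kfv u v = ε * (v - θ * kfu u v) := by
      have : θ * (kfv u v + ε * kfu u v) = ε * v - u := div_mul_cancel₀ _ hne
      linear_combination this
    obtain ⟨r, hr⟩ := kT_factor (u + θ * kfv u v) (v - θ * kfu u v)
    have h2 : kT (u + θ * kfv u v) (v - θ * kfu u v) = 0 := by
      rw [hr, h1]
      have : (ε * (v - θ * kfu u v)) ^ 2 + (v - θ * kfu u v) ^ 2 = 0 := by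
        linear_combination (v - θ * kfu u v) ^ 2 * hε
      rw [this, zero_mul]
    have h3 := famC6_klein_sq u v θ
    rw [h2] at h3
    exact (pow_eq_zero_iff two_ne_zero).1 (by simpa using h3)
  by_cases h : kfv u v + i * kfu u v = 0
  · have hne : kfv u v + -i * kfu u v ≠ 0 := by
      intro h'
      have hfv : kfv u v = 0 := by
        have : 2 * kfv u v = 0 := by linear_combination h + h'
        exact (mul_eq_zero.1 this).resolve_left h2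
      have hfu : kfu u v = 0 := by
        have : i * kfu u v = 0 := by linear_combination h - hfv
        exact (mul_eq_zero.1 this).resolve_left hi0
      have h4 := euler_kf u v
      rw [hfu, hfv, mul_zero, mul_zero, add_zero] at h4
      exact hf ((mul_eq_zero.1 h4.symm).resolve_left h12)
    exact ⟨-i, Or.inr rfl, hne, key (-i) (by rw [neg_sq, hi]) hne⟩
  · exact ⟨i, Or.inl rfl, h, key i hi h⟩

theorem map_theta (σ : GQ) {u v ε : Qbar} (hu : σ u = u) (hv : σ v = v) (hε : σ ε = ε) :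
    σ ((ε * v - u) / (kfv u v + ε * kfu u v)) = (ε * v - u) / (kfv u v + ε * kfu u v) := by
  simp only [kfu, kfv, map_div₀, map_sub, map_add, map_mul, map_pow, hu, hv, hε, map_ofNat]

theorem pow_apply_fix (σ : GQ) {x : Qbar} (h : σ x = x) (n : ℕ) : (σ ^ n) x = x := by
  induction n with
  | zero => simp
  | succ n ih => rw [pow_succ', AlgEquiv.mul_apply, ih, h]

theorem pow_apply_neg (σ : GQ) {x : Qbar} (h : σ x = -x) (n : ℕ) : (σ ^ n) x = (-1) ^ n * x := by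
  induction n with
  | zero => simp
  | succ n ih =>
    rw [pow_succ', AlgEquiv.mul_apply, ih, map_mul, map_pow, map_neg, map_one, h]; ring

theorem coords_smul (W : WeierstrassCurve ℤ) (τ : GQ) {P : (EQ W).Point} (hP : P ≠ 0) :
    S05.xc (τ • P) = τ (S05.xc P) ∧ S05.yc (τ • P) = τ (S05.yc P) := by
  cases P with
  | zero => exact absurd rfl hP
  | some x y h =>
    rw [Point.algEquiv_smul_def, Point.map_some]
    exact ⟨rfl, rfl⟩

theorem val_eq_one_of_sq (A : ValuationSubring Qbar) {z : Qbar} (h : A.valuation (z ^ 2) = 1) :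
    A.valuation z = 1 := by
  rw [map_pow] at h
  exact (pow_eq_one_iff_of_nonneg zero_le two_ne_zero).1 h

theorem val_eq_one_of_mul (A : ValuationSubring Qbar) {x y : Qbar} (hx : A.valuation x ≤ 1)
    (hy : A.valuation y ≤ 1) (h : A.valuation (x * y) = 1) : A.valuation x = 1 := by
  refine le_antisymm hx ?_
  rw [map_mul] at h
  calc (1 : A.ValueGroup) = A.valuation x * A.valuation y := h.symm
    _ ≤ A.valuation x * 1 := mul_le_mul_right hy _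
    _ = A.valuation x := mul_one _

end SigmaTheta

open SigmaTheta in
theorem exists_sigma_theta (W : WeierstrassCurve ℤ) (hΔ : W.Δ ≠ 0)
    (h3 : (3 : ℤ) ∣ W.Δ → ¬ (3 : ℤ) ∣ W.c₄) :
    ∃ (σ : GQ) (θ w : Qbar), famC6 (W.c₄ : Qbar) (W.c₆ : Qbar) θ = 0 ∧ w ^ 2 = 3 ∧
      σ θ = θ ∧ σ w = -w := by
  -- numerical facts
  have h30 : (30 : Qbar) ≠ 0 := by norm_num
  have h6 : (6 : Qbar) ≠ 0 := by norm_num
  have h5 : (5 : Qbar) ≠ 0 := by norm_num
  have h2 : (2 : Qbar) ≠ 0 := by norm_num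
  have hΔ' : (W.c₄ : Qbar) ^ 3 - (W.c₆ : Qbar) ^ 2 ≠ 0 := by
    have h := congrArg (fun z : ℤ => (z : Qbar)) W.c_relation
    simp only [Int.cast_mul, Int.cast_sub, Int.cast_pow, Int.cast_ofNat] at h
    rw [← h]
    exact mul_ne_zero (by norm_num) (by exact_mod_cast hΔ)
  -- Klein parameters and constants
  obtain ⟨u₀, v₀, hH, hT⟩ := exists_uv h30 (W.c₄ : Qbar) (W.c₆ : Qbar) hΔ'
  have hkf : kf u₀ v₀ ≠ 0 := kf_ne_zero_of h30 hH hT hΔ'
  obtain ⟨s, hs⟩ := IsAlgClosed.exists_pow_nat_eq (125 : Qbar) (n := 2) (by norm_num)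
  set ρ : Qbar := (s - 11) / 2 with hρdef
  have hρ : ρ ^ 2 + 11 * ρ - 1 = 0 := by
    rw [hρdef]; field_simp; linear_combination hs
  obtain ⟨g, hg⟩ := IsAlgClosed.exists_pow_nat_eq (11 * ρ + 123 : Qbar) (n := 2) (by norm_num)
  obtain ⟨i, hi⟩ := IsAlgClosed.exists_pow_nat_eq (-1 : Qbar) (n := 2) (by norm_num)
  obtain ⟨w, hw⟩ := IsAlgClosed.exists_pow_nat_eq (3 : Qbar) (n := 2) (by norm_num)
  have hi0 : i ≠ 0 := by
    rintro rfl
    norm_num at hi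
  set N₀ := kN ρ g u₀ v₀ with hN₀
  set M₀ := kM ρ g u₀ v₀ with hM₀
  have h4N : tq4 N₀ M₀ = (W.c₄ : Qbar) := by rw [hN₀, hM₀, tq4_klein h5 hρ hg, hH]
  have h6N : tq6 N₀ M₀ = (W.c₆ : Qbar) := by rw [hN₀, hM₀, tq6_klein h5 hρ hg, hT]
  have hNM : N₀ * M₀ ≠ 0 := by
    intro h
    apply hΔ'
    rw [← h4N, ← h6N, tq_rel]
    have : N₀ ^ 5 * M₀ ^ 5 = 0 := by rw [← mul_pow, h]; ring
    rw [this]; ring
  -- the point of order 5
  have hc4 : (EQ W).c₄ = tq4 N₀ M₀ := by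
    rw [h4N]
    change ((W.map (Int.castRingHom ℚ)).map (algebraMap ℚ Qbar)).c₄ = _
    rw [WeierstrassCurve.map_c₄, WeierstrassCurve.map_c₄]; simp
  have hc6 : (EQ W).c₆ = tq6 N₀ M₀ := by
    rw [h6N]
    change ((W.map (Int.castRingHom ℚ)).map (algebraMap ℚ Qbar)).c₆ = _
    rw [WeierstrassCurve.map_c₆, WeierstrassCurve.map_c₆]; simp
  have hΔE : (EQ W).Δ ≠ 0 := by
    have : (EQ W).Δ = (W.Δ : Qbar) := by
      change ((W.map (Int.castRingHom ℚ)).map (algebraMap ℚ Qbar)).Δ = _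
      rw [WeierstrassCurve.map_Δ, WeierstrassCurve.map_Δ]; simp
    rw [this]; exact_mod_cast hΔ
  obtain ⟨P, hP0, hP5, hP2, -, hPy, hPx⟩ := exists_five_torsion (EQ W) h6 hΔE N₀ M₀ hc4 hc6
  -- inertia
  obtain ⟨A, σ, hA, hσ, hσw⟩ := exists_inertia3
  have hA' : A.valuation ((3 : ℕ) : Qbar) < 1 := hA
  have hq := Nat.prime_three
  have hσ₁ : σ ^ 5 ∈ A.inertiaSubgroupIn ℚ := Subgroup.pow_mem _ hσ 5
  set σ₁ := σ ^ 5 with hσ₁def
  have hfixP : σ₁ • P = P := inertia3_pow5_fix W hΔ h3 A hA σ hσ P hP5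
  have hfix2P : σ₁ • (2 • P) = 2 • P :=
    inertia3_pow5_fix W hΔ h3 A hA σ hσ (2 • P) (by rw [smul_comm, hP5, nsmul_zero])
  have hx1 : σ₁ (S05.xc P) = S05.xc P := by rw [← (coords_smul W σ₁ hP0).1, hfixP]
  have hy1 : σ₁ (S05.yc P) = S05.yc P := by rw [← (coords_smul W σ₁ hP0).2, hfixP]
  have hx2 : σ₁ (S05.xc (2 • P)) = S05.xc (2 • P) := by
    rw [← (coords_smul W σ₁ hP2).1, hfix2P]
  have ha : σ₁ (N₀ * M₀) = N₀ * M₀ := by rw [← hPx, map_sub, hx1, hx2]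
  have ha1 : σ₁ (EQ W).a₁ = (EQ W).a₁ := σ₁.commutes _
  have ha3 : σ₁ (EQ W).a₃ = (EQ W).a₃ := σ₁.commutes _
  have hb : σ₁ (N₀ * M₀ ^ 2) = N₀ * M₀ ^ 2 := by
    have : N₀ * M₀ ^ 2 = -(2 * S05.yc P + (EQ W).a₁ * S05.xc P + (EQ W).a₃) := by
      rw [hPy, neg_neg]
    rw [this]
    simp only [map_neg, map_add, map_mul, map_ofNat, hx1, hy1, ha1, ha3]
  have hM : σ₁ M₀ = M₀ := by
    have : M₀ = N₀ * M₀ ^ 2 / (N₀ * M₀) := by
      rw [eq_div_iff hNM]; ring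
    rw [this, map_div₀, ha, hb]
  have hM0 : M₀ ≠ 0 := right_ne_zero_of_mul hNM
  have hN : σ₁ N₀ = N₀ := by
    have : N₀ = N₀ * M₀ / M₀ := by rw [eq_div_iff hM0]
    rw [this, map_div₀, ha, hM]
  -- valuations of the constants
  have v2 : A.valuation (2 : Qbar) = 1 := by
    have := S05.valuation_natCast_eq_one A hq hA' (n := 2) (by norm_num)
    simpa using this
  have v125 : A.valuation (125 : Qbar) = 1 := by
    have := S05.valuation_natCast_eq_one A hq hA' (n := 125) (by norm_num)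
    simpa using this
  have vs : A.valuation s = 1 := val_eq_one_of_sq A (by rw [hs, v125])
  have vi : A.valuation i = 1 := val_eq_one_of_sq A (by rw [hi, Valuation.map_neg, map_one])
  have hsA : s ∈ A := (A.valuation_le_one_iff _).1 vs.le
  have h2A : (2 : Qbar)⁻¹ ∈ A := (A.valuation_le_one_iff _).1 (by rw [map_inv₀, v2, inv_one])
  have hnat : ∀ n : ℕ, (n : Qbar) ∈ A := fun n => natCast_mem A n
  have hρA : ρ ∈ A := by
    rw [hρdef, div_eq_mul_inv]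
    exact A.mul_mem _ _ (sub_mem hsA (by simpa using hnat 11)) h2A
  have hxA : 11 * ρ + 123 ∈ A :=
    A.add_mem _ _ (A.mul_mem _ _ (by simpa using hnat 11) hρA) (by simpa using hnat 123)
  have hyA : 2 - 11 * ρ ∈ A :=
    sub_mem (by simpa using hnat 2) (A.mul_mem _ _ (by simpa using hnat 11) hρA)
  have hxy : (11 * ρ + 123) * (2 - 11 * ρ) = 125 := by linear_combination (-121) * hρ
  have vx : A.valuation (11 * ρ + 123) = 1 :=
    val_eq_one_of_mul A ((A.valuation_le_one_iff _).2 hxA) ((A.valuation_le_one_iff _).2 hyA)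
      (by rw [hxy, v125])
  have vg : A.valuation g = 1 := val_eq_one_of_sq A (by rw [hg, vx])
  -- the constants are fixed
  have n32 : ¬ 3 ∣ 2 := by norm_num
  have n35 : ¬ 3 ∣ 5 := by norm_num
  have hσi : σ i = i := inertia_fix_of_pow A hq hA hσ n32 vi (by rw [hi]; simp)
  have hσ₁i : σ₁ i = i := pow_apply_fix σ hσi 5
  have hσ₁s : σ₁ s = s := inertia_fix_of_pow A hq hA hσ₁ n32 vs (by rw [hs]; exact map_ofNat σ₁ 125)
  have hσ₁ρ : σ₁ ρ = ρ := by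
    rw [hρdef]; simp only [map_div₀, map_sub, map_ofNat, hσ₁s]
  have hσ₁g : σ₁ g = g := inertia_fix_of_pow A hq hA hσ₁ n32 vg (by
    rw [hg]; simp only [map_add, map_mul, map_ofNat, hσ₁ρ])
  -- `u₀⁵`, `v₀⁵`
  have hG := g_mul_ne_zero h5 hρ hg
  have hu5 : σ₁ (u₀ ^ 5) = u₀ ^ 5 := by
    have : u₀ ^ 5 = 5 * (N₀ + ρ * M₀) / (g * (2 - 11 * ρ)) := by
      rw [eq_div_iff hG]; linear_combination u5_eq h5 hρ (g := g) u₀ v₀
    rw [this]
    simp only [map_div₀, map_add, map_sub, map_mul, map_ofNat, hσ₁ρ, hσ₁g, hN, hM]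
  have hv5 : σ₁ (v₀ ^ 5) = v₀ ^ 5 := by
    have : v₀ ^ 5 = 5 * (M₀ - ρ * N₀) / (g * (2 - 11 * ρ)) := by
      rw [eq_div_iff hG]; linear_combination v5_eq h5 hρ (g := g) u₀ v₀
    rw [this]
    simp only [map_div₀, map_add, map_sub, map_mul, map_ofNat, hσ₁ρ, hσ₁g, hN, hM]
  have hu : (σ₁ ^ 5) u₀ = u₀ := inertia_pow_fix_of_pow A hq hA hσ₁ n35 hu5
  have hv : (σ₁ ^ 5) v₀ = v₀ := inertia_pow_fix_of_pow A hq hA hσ₁ n35 hv5
  have hi5 : (σ₁ ^ 5) i = i := pow_apply_fix σ₁ hσ₁i 5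
  -- `θ`
  obtain ⟨ε, hε, -, hθ⟩ := exists_theta h6 hi hkf
  have hε5 : (σ₁ ^ 5) ε = ε := by
    rcases hε with rfl | rfl
    · exact hi5
    · rw [map_neg, hi5]
  rw [hH, hT] at hθ
  refine ⟨σ₁ ^ 5, _, w, hθ, hw, map_theta _ hu hv hε5, ?_⟩
  -- `√3`
  have hwi : σ (w * i) = -(w * i) := hσw _ (by rw [mul_pow, hw, hi]; ring)
  have hσw' : σ w = -w := by
    rw [map_mul, hσi] at hwi
    exact mul_right_cancel₀ hi0 (by rw [hwi]; ring)
  have h1 : σ₁ w = -w := by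
    rw [hσ₁def, pow_apply_neg σ hσw' 5]; ring
  rw [pow_apply_neg σ₁ h1 5]; ring

end Fermat.Agent.S52
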