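import Fermat.Agent.S52.Defs
import Fermat.Agent.S05.Formulas

/-!
# S52 [WP-C]: Tate's point of order 5

If `c₄(W) = tq4 N M`, `c₆(W) = tq6 N M`, the point `P` with `12 x + b₂ = N² - 6NM + M²`,
`2y + a₁x + a₃ = -N M²` has order 5, and `x(2P) - x(P) = N M`.
(On the short model: `P = (3(N²-6NM+M²), -108 N M²)`, `2P = (x_P + 36 N M, 108 N² M)`.)

Suggested proof (x-coordinates only, `S05.xc_dbl`, `S05.psi2_sq`, `S05.xc_eq_iff`,
`S05.add_self_eq_zero_iff`): `b₄, b₆, b₈` are determined by `b₂, c₄, c₆`; the duplication formula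
gives `x(2P) = x(P) + NM` and `x(4P) = x(P)`, hence `4P = ±P`; `4P = P` would give `3P = 0`,
`2P = -P`, `x(2P) = x(P)`, impossible since `NM ≠ 0`.
-/

set_option autoImplicit false

namespace Fermat.Agent.S52

open WeierstrassCurve WeierstrassCurve.Affine Fermat.Agent.S05

variable {K : Type*} [Field K]

/-- the `b`-invariants in terms of `b₂, c₄, c₆` and the four polynomial identities -/
theorem tate5_identities (h6 : (6 : K) ≠ 0) (B b4 b6 b8 N M x : K)
    (h4 : B ^ 2 - 24 * b4 = tq4 N M) (h6' : -B ^ 3 + 36 * B * b4 - 216 * b6 = tq6 N M)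
    (h8 : 4 * b8 = B * b6 - b4 ^ 2) (hx : 12 * x + B = N ^ 2 - 6 * N * M + M ^ 2) :
    4 * x ^ 3 + B * x ^ 2 + 2 * b4 * x + b6 = (N * M ^ 2) ^ 2 ∧
    x ^ 4 - b4 * x ^ 2 - 2 * b6 * x - b8 = (x + N * M) * (N * M ^ 2) ^ 2 ∧
    4 * (x + N * M) ^ 3 + B * (x + N * M) ^ 2 + 2 * b4 * (x + N * M) + b6 = (N ^ 2 * M) ^ 2 ∧
    (x + N * M) ^ 4 - b4 * (x + N * M) ^ 2 - 2 * b6 * (x + N * M) - b8 = x * (N ^ 2 * M) ^ 2 := by
  have h2 : (2 : K) ≠ 0 := fun h => h6 (by linear_combination 3 * h)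
  have h3 : (3 : K) ≠ 0 := fun h => h6 (by linear_combination 2 * h)
  have h12 : (12 : K) ≠ 0 := by
    rw [show (12 : K) = 2 * 2 * 3 by norm_num]; exact mul_ne_zero (mul_ne_zero h2 h2) h3
  have h24 : (24 : K) ≠ 0 := by
    rw [show (24 : K) = 2 * 12 by norm_num]; exact mul_ne_zero h2 h12
  have h216 : (216 : K) ≠ 0 := by
    rw [show (216 : K) = 6 * 6 * 6 by norm_num]; exact mul_ne_zero (mul_ne_zero h6 h6) h6
  have h4' : (4 : K) ≠ 0 := by
    rw [show (4 : K) = 2 * 2 by norm_num]; exact mul_ne_zero h2 h2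
  have hx' : x = (N ^ 2 - 6 * N * M + M ^ 2 - B) / 12 := by
    rw [eq_div_iff h12]; linear_combination hx
  have hb4 : b4 = (B ^ 2 - tq4 N M) / 24 := by
    rw [eq_div_iff h24]; linear_combination -h4
  have hb6 : b6 = (-B ^ 3 + 36 * B * b4 - tq6 N M) / 216 := by
    rw [eq_div_iff h216]; linear_combination -h6'
  have hb8 : b8 = (B * b6 - b4 ^ 2) / 4 := by
    rw [eq_div_iff h4']; linear_combination h8
  subst hb8 hb6 hb4 hx'
  unfold tq4 tq6
  refine ⟨?_, ?_, ?_, ?_⟩ <;> (field_simp; ring)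

variable [DecidableEq K]

theorem exists_five_torsion (W : WeierstrassCurve.Affine K) (h6 : (6 : K) ≠ 0) (hΔ : W.Δ ≠ 0)
    (N M : K) (h4 : W.c₄ = tq4 N M) (h6' : W.c₆ = tq6 N M) :
    ∃ P : W.Point, P ≠ 0 ∧ 5 • P = 0 ∧ 2 • P ≠ 0 ∧
      12 * xc P + W.b₂ = N ^ 2 - 6 * N * M + M ^ 2 ∧
      2 * yc P + W.a₁ * xc P + W.a₃ = -(N * M ^ 2) ∧
      xc (2 • P) - xc P = N * M := by
  have h2 : (2 : K) ≠ 0 := fun h => h6 (by linear_combination 3 * h)
  have h3 : (3 : K) ≠ 0 := fun h => h6 (by linear_combination 2 * h)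
  have h12 : (12 : K) ≠ 0 := by
    rw [show (12 : K) = 2 * 2 * 3 by norm_num]; exact mul_ne_zero (mul_ne_zero h2 h2) h3
  have hNM : N ≠ 0 ∧ M ≠ 0 := by
    have h := W.c_relation
    rw [h4, h6', tq_rel] at h
    constructor
    · rintro rfl
      apply hΔ
      have h1728 : (1728 : K) ≠ 0 := by
        rw [show (1728 : K) = 12 * 12 * 12 by norm_num]
        exact mul_ne_zero (mul_ne_zero h12 h12) h12
      apply mul_left_cancel₀ h1728
      rw [h]; ring
    · rintro rfl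
      apply hΔ
      have h1728 : (1728 : K) ≠ 0 := by
        rw [show (1728 : K) = 12 * 12 * 12 by norm_num]
        exact mul_ne_zero (mul_ne_zero h12 h12) h12
      apply mul_left_cancel₀ h1728
      rw [h]; ring
  obtain ⟨hN, hM⟩ := hNM
  obtain ⟨x, hx⟩ : ∃ x : K, 12 * x + W.b₂ = N ^ 2 - 6 * N * M + M ^ 2 :=
    ⟨(N ^ 2 - 6 * N * M + M ^ 2 - W.b₂) / 12, by field_simp; ring⟩
  obtain ⟨y, hy⟩ : ∃ y : K, 2 * y + W.a₁ * x + W.a₃ = -(N * M ^ 2) :=
    ⟨(-(N * M ^ 2) - W.a₁ * x - W.a₃) / 2, by field_simp; ring⟩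
  obtain ⟨i1, i2, i3, i4⟩ := tate5_identities h6 W.b₂ W.b₄ W.b₆ W.b₈ N M x
    (by rw [← h4, WeierstrassCurve.c₄]) (by rw [← h6', WeierstrassCurve.c₆]) W.b_relation hx
  have heq : W.Equation x y := by
    rw [equation_iff]
    have : (2 * y + W.a₁ * x + W.a₃) ^ 2 = 4 * x ^ 3 + W.b₂ * x ^ 2 + 2 * W.b₄ * x + W.b₆ := by
      rw [hy, i1]; ring
    simp only [WeierstrassCurve.b₂, WeierstrassCurve.b₄, WeierstrassCurve.b₆] at this
    apply mul_left_cancel₀ (mul_ne_zero h2 h2)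
    linear_combination this
  set P : W.Point := Point.some x y ((equation_iff_nonsingular_of_Δ_ne_zero hΔ).1 heq) with hP
  have hP0 : P ≠ 0 := Point.some_ne_zero _
  have hxP : xc P = x := rfl
  have hyP : yc P = y := rfl
  have h2P : P + P ≠ 0 := by
    rw [Ne, add_self_eq_zero_iff hP0, hxP, hyP, hy, neg_eq_zero]
    exact mul_ne_zero hN (pow_ne_zero _ hM)
  have hx2 : xc (P + P) = x + N * M := by
    have := xc_dbl hP0 h2P
    rw [hxP, i1, i2] at this
    exact mul_right_cancel₀ (pow_ne_zero 2 (mul_ne_zero hN (pow_ne_zero _ hM))) this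
  have h4P : (P + P) + (P + P) ≠ 0 := by
    intro h
    have h' := (add_self_eq_zero_iff h2P).mp h
    have := psi2_sq h2P
    rw [h', hx2, i3] at this
    exact pow_ne_zero 2 (mul_ne_zero (pow_ne_zero _ hN) hM) (by rw [← this]; ring)
  have hx4 : xc ((P + P) + (P + P)) = x := by
    have := xc_dbl h2P h4P
    rw [hx2, i3, i4] at this
    exact mul_right_cancel₀ (pow_ne_zero 2 (mul_ne_zero (pow_ne_zero _ hN) hM)) this
  refine ⟨P, hP0, ?_, by rwa [two_nsmul], hx, hy, ?_⟩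
  · rcases (xc_eq_iff h4P hP0).mp (hx4.trans hxP.symm) with h | h
    · exfalso
      have h5 : P + P = -P := by
        rw [eq_neg_iff_add_eq_zero]
        have e : (P + P) + (P + P) - P = P + P + P := by abel
        rw [← e, h, sub_self]
      have := congrArg xc h5
      rw [xc_neg, hx2, hxP] at this
      exact mul_ne_zero hN hM (by linear_combination this)
    · have : (5 : ℕ) • P = (P + P) + (P + P) + P := by
        rw [show (5 : ℕ) = 1 + 1 + 1 + 1 + 1 by norm_num]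
        simp only [add_nsmul, one_nsmul]
        abel
      rw [this, h, neg_add_cancel]
  · rw [two_nsmul, hx2, hxP]; ring

end Fermat.Agent.S52
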